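import Fermat.Agent.Switch.Specialize

/-!
# The place of `k(x)` at a point of an extension field

`evalPlace k x₀` is evaluation at `x₀` on the rational functions defined there, as a `PlaceData`,
with its values on polynomials, constants and `X`.
-/

set_option autoImplicit false

namespace FLTAgent.Switch

open Polynomial

noncomputable section

universe u

variable (k : Type u) {L : Type u} [Field k] [Field L] [Algebra k L] (x₀ : L)

/-- Rational functions defined at `x₀`. -/
def regularAt : Subring (RatFunc k) where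
  carrier := {r | eval₂ (algebraMap k L) x₀ r.denom ≠ 0}
  mul_mem' {r s} hr hs := fun h => by
    obtain ⟨c, hc⟩ := RatFunc.denom_mul_dvd r s
    exact mul_ne_zero hr hs (by rw [← eval₂_mul, hc, eval₂_mul, h, zero_mul])
  add_mem' {r s} hr hs := fun h => by
    obtain ⟨c, hc⟩ := RatFunc.denom_add_dvd r s
    exact mul_ne_zero hr hs (by rw [← eval₂_mul, hc, eval₂_mul, h, zero_mul])
  zero_mem' := by simp
  one_mem' := by simp
  neg_mem' {r} hr := fun h => by
    have h1 : (RatFunc.C (-1 : k)).denom = 1 := by
      rw [← RatFunc.algebraMap_C, RatFunc.denom_algebraMap]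
    obtain ⟨c, hc⟩ := RatFunc.denom_mul_dvd (RatFunc.C (-1 : k)) r
    rw [map_neg, map_one, neg_one_mul] at hc
    rw [map_neg, map_one] at h1
    rw [h1, one_mul] at hc
    apply hr
    rw [hc, eval₂_mul, h, zero_mul]

/-- Evaluation at `x₀`. -/
def evalPlace : PlaceData (RatFunc k) L where
  O := regularAt k x₀
  ev :=
    { toFun := fun r => RatFunc.eval (algebraMap k L) x₀ r.1
      map_one' := RatFunc.eval_one _ _
      map_mul' := fun r s => RatFunc.eval_mul (algebraMap k L) x₀ r.2 s.2
      map_zero' := RatFunc.eval_zero _ _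
      map_add' := fun r s => RatFunc.eval_add (algebraMap k L) x₀ r.2 s.2 }
  large r hr := by
    have hd : eval₂ (algebraMap k L) x₀ r.denom = 0 := by
      by_contra h; exact hr h
    have hn : eval₂ (algebraMap k L) x₀ r.num ≠ 0 := by
      intro h
      obtain ⟨u, v, huv⟩ := RatFunc.isCoprime_num_denom r
      have := congrArg (eval₂ (algebraMap k L) x₀) huv
      simp [hd, h] at this
    have hn0 : r.num ≠ 0 := fun h => hn (by rw [h, eval₂_zero])
    have hinv : r⁻¹ = algebraMap k[X] (RatFunc k) r.denom / algebraMap k[X] (RatFunc k) r.num := by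
      nth_rw 1 [← RatFunc.num_div_denom r]
      rw [inv_div]
    have hdvd : (r⁻¹).denom ∣ r.num := by
      rw [hinv]; exact RatFunc.denom_div_dvd _ _
    have hmem : eval₂ (algebraMap k L) x₀ (r⁻¹).denom ≠ 0 := by
      obtain ⟨c, hc⟩ := hdvd
      intro h
      exact hn (by rw [hc, eval₂_mul, h, zero_mul])
    refine ⟨hmem, ?_⟩
    have heq : (r⁻¹).num * r.num = r.denom * (r⁻¹).denom := by
      apply RatFunc.algebraMap_injective k
      rw [map_mul, map_mul]
      have := RatFunc.num_div_denom r⁻¹
      rw [div_eq_iff (RatFunc.algebraMap_ne_zero (RatFunc.denom_ne_zero r⁻¹))] at this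
      rw [this, hinv]
      field_simp [RatFunc.algebraMap_ne_zero hn0]
    have := congrArg (eval₂ (algebraMap k L) x₀) heq
    rw [eval₂_mul, eval₂_mul, hd, zero_mul, mul_eq_zero] at this
    show RatFunc.eval (algebraMap k L) x₀ r⁻¹ = 0
    rw [RatFunc.eval, this.resolve_right hn, zero_div]

theorem evalPlace_algebraMap (p : k[X]) :
    (evalPlace k x₀).Val (algebraMap k[X] (RatFunc k) p) (eval₂ (algebraMap k L) x₀ p) := by
  refine ⟨?_, ?_⟩
  · show eval₂ (algebraMap k L) x₀ (algebraMap k[X] (RatFunc k) p).denom ≠ 0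
    simp [RatFunc.denom_algebraMap]
  · show RatFunc.eval (algebraMap k L) x₀ (algebraMap k[X] (RatFunc k) p) = _
    simp [RatFunc.eval, RatFunc.num_algebraMap, RatFunc.denom_algebraMap]

theorem evalPlace_C (c : k) : (evalPlace k x₀).Val (RatFunc.C c) (algebraMap k L c) := by
  simpa [RatFunc.algebraMap_C] using evalPlace_algebraMap k x₀ (Polynomial.C c)

theorem evalPlace_X : (evalPlace k x₀).Val RatFunc.X x₀ := by
  simpa [RatFunc.algebraMap_X] using evalPlace_algebraMap k x₀ Polynomial.X

end

end FLTAgent.Switch
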