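import Fermat.Agent.Switch.FrobIdentity
import Fermat.Agent.Switch.PlaceEval

/-!
# The characteristic equation of Frobenius on points

For `y² = x³ + a x + b` over a finite field `k` with `q` elements and `t = q + 1 - #E(k)`, the
endomorphism `2 (φ² - t φ + q)` kills all points over every extension field.

Main declarations: `frob_charpoly`.
-/

set_option autoImplicit false

namespace FLTAgent.Switch

open Polynomial WeierstrassCurve

noncomputable section

universe u

variable {k : Type u} [Field k] [Fintype k] [DecidableEq k] {a b : k}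
variable (L : Type u) [Field L] [Algebra k L] [DecidableEq L]

local notation "qq" => Fintype.card k

/-- The `q`-th power map as a ring hom. -/
def qPow : L →+* L where
  toFun z := z ^ qq
  map_one' := one_pow _
  map_mul' z w := mul_pow z w _
  map_zero' := zero_pow Fintype.card_ne_zero
  map_add' z w := by
    obtain ⟨p, hp⟩ := CharP.exists k
    have := hp
    have : Fact p.Prime := ⟨CharP.char_is_prime k p⟩
    have : CharP L p := charP_of_injective_ringHom (algebraMap k L).injective p
    obtain ⟨m, -, hm⟩ := FiniteField.card k p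
    show (z + w) ^ qq = z ^ qq + w ^ qq
    rw [hm, add_pow_char_pow]

theorem qPow_algebraMap (c : k) : qPow (k := k) L (algebraMap k L c) = algebraMap k L c := by
  show algebraMap k L c ^ qq = _
  rw [← map_pow, FiniteField.pow_card]

variable (h2 : (2 : k) ≠ 0) (hd : 4 * a ^ 3 + 27 * b ^ 2 ≠ 0)

include h2 in
omit [Fintype k] [DecidableEq k] [DecidableEq L] in
theorem two_ne_zero_ext : (2 : L) ≠ 0 := by
  simpa [map_ofNat] using (map_ne_zero (algebraMap k L)).2 h2

include hd in
omit [Fintype k] [DecidableEq k] [DecidableEq L] in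
theorem disc_ne_zero_ext : 4 * algebraMap k L a ^ 3 + 27 * algebraMap k L b ^ 2 ≠ 0 := by
  simpa [map_ofNat] using (map_ne_zero (algebraMap k L)).2 hd

/-- Frobenius on points. -/
def qFrobData : ScaleData (algebraMap k L a) (algebraMap k L b) (algebraMap k L a)
    (algebraMap k L b) where
  φ := qPow (k := k) L
  s := 1
  s_ne := one_ne_zero
  two_ne := two_ne_zero_ext L h2
  disc_ne := disc_ne_zero_ext L hd
  hA := by rw [qPow_algebraMap, one_pow, one_mul]
  hB := by rw [qPow_algebraMap, one_pow, one_mul]

theorem qFrob_some {x y : L} (h : (short (algebraMap k L a) (algebraMap k L b)).Nonsingular x y) :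
    ∃ h', (qFrobData L h2 hd).hom (.some x y h) = .some (x ^ qq) (y ^ qq) h' := by
  have h' := (qFrobData L h2 hd).nonsingular h
  have e1 : (qFrobData L h2 hd).φ x / (qFrobData L h2 hd).s ^ 2 = x ^ qq := by
    simp [qFrobData, qPow]
  have e2 : (qFrobData L h2 hd).φ y / (qFrobData L h2 hd).s ^ 3 = y ^ qq := by
    simp [qFrobData, qPow]
  refine ⟨e1 ▸ e2 ▸ h', ?_⟩
  rw [ScaleData.hom_some]
  exact some_eq_some e1 e2

/-- **Characteristic equation of Frobenius** (up to a factor `2`). -/
theorem frob_charpoly (T : (short (algebraMap k L a) (algebraMap k L b)).Point) :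
    (2 : ℕ) • ((qFrobData L h2 hd).hom ((qFrobData L h2 hd).hom T) -
      ((qq : ℤ) + 1 - Nat.card (short a b).Point) • (qFrobData L h2 hd).hom T + (qq : ℤ) • T) = 0 := by
  classical
  set Φ := (qFrobData L h2 hd).hom with hΦ
  cases T with
  | zero => simp [← Affine.Point.zero_def]
  | some x₀ y₀ hT =>
    by_cases hy : y₀ = 0
    · have h2T : (2 : ℕ) • (Affine.Point.some x₀ y₀ hT :
          (short (algebraMap k L a) (algebraMap k L b)).Point) = 0 := by
        rw [two_nsmul]; exact Affine.Point.add_of_Y_eq rfl (by rw [short_negY, hy, neg_zero])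
      have hΦ2 : ∀ P, (2 : ℕ) • P = 0 → (2 : ℕ) • Φ P = 0 := fun P hP => by
        rw [← map_nsmul, hP, map_zero]
      rw [smul_add, smul_sub, hΦ2 _ (hΦ2 _ h2T), smul_comm (2 : ℕ), hΦ2 _ h2T, smul_zero,
        smul_comm (2 : ℕ), h2T, smul_zero, sub_zero, add_zero]
    · set D := twistBy a b with hD
      have e₀ := (short_equation _ _ _ _).1 hT.left
      have hvD : (evalPlace k x₀).Val D (y₀ ^ 2) := by
        rw [hD, twistBy_eq, e₀]
        exact (((evalPlace_X k x₀).pow 3).add
          ((evalPlace_C k x₀ a).mul (evalPlace_X k x₀))).add (evalPlace_C k x₀ b)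
      have g : GoodPlace (evalPlace k x₀) (RatFunc.C a * D ^ 2) (RatFunc.C b * D ^ 3)
          (algebraMap k L a * (y₀ ^ 2) ^ 2) (algebraMap k L b * (y₀ ^ 2) ^ 3) := by
        refine ⟨(evalPlace_C k x₀ a).mul (hvD.pow 2), (evalPlace_C k x₀ b).mul (hvD.pow 3),
          two_ne_zero_ext L h2, ?_⟩
        rw [show 4 * (algebraMap k L a * (y₀ ^ 2) ^ 2) ^ 3 +
            27 * (algebraMap k L b * (y₀ ^ 2) ^ 3) ^ 2 =
          (4 * algebraMap k L a ^ 3 + 27 * algebraMap k L b ^ 2) * y₀ ^ 12 by ring]
        exact mul_ne_zero (disc_ne_zero_ext L hd) (pow_ne_zero _ hy)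
      let sc : ScaleData (algebraMap k L a * (y₀ ^ 2) ^ 2) (algebraMap k L b * (y₀ ^ 2) ^ 3)
          (algebraMap k L a) (algebraMap k L b) :=
        { φ := RingHom.id L
          s := y₀
          s_ne := hy
          two_ne := two_ne_zero_ext L h2
          disc_ne := g.disc_ne
          hA := by simp; ring
          hB := by simp; ring }
      let ev : TwistPoint a b →+ (short (algebraMap k L a) (algebraMap k L b)).Point :=
        sc.hom.comp g.spHom
      -- evaluation of a point with known values
      have ev_some : ∀ {X Y : RatFunc k} (h : (twist a b (twistBy a b)).Nonsingular X Y) {u v : L},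
          (evalPlace k x₀).Val X (u * y₀ ^ 2) → (evalPlace k x₀).Val Y (v * y₀ ^ 3) →
          ∃ h', ev (Affine.Point.some X Y h) = .some u v h' := by
        intro X Y h u v hX hY
        obtain ⟨h₁, he⟩ := g.sp_some h hX hY
        have hev : ev (Affine.Point.some X Y h) = sc.hom (.some _ _ h₁) := congrArg sc.hom he
        have h₂ := sc.nonsingular h₁
        have e1 : sc.φ (u * y₀ ^ 2) / sc.s ^ 2 = u := by simp [sc]; field_simp
        have e2 : sc.φ (v * y₀ ^ 3) / sc.s ^ 3 = v := by simp [sc]; field_simp
        refine ⟨e1 ▸ e2 ▸ h₂, ?_⟩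
        rw [hev, ScaleData.hom_some]
        exact some_eq_some e1 e2
      have hq := two_mul_half_add_one (k := k) h2
      set e := qq / 2 with he
      have E0 : ev (genPt h2 hd) = .some x₀ y₀ hT := by
        obtain ⟨_, h'⟩ := ev_some (X := D * RatFunc.X) (Y := D ^ 2) (u := x₀) (v := y₀)
          (by exact (show (twist a b (twistBy a b)).Nonsingular _ _ from by
            rw [short_nonsingular_iff (two_ne_zero_ratFunc h2) (disc_ne_twist hd)]
            linear_combination twistBy a b ^ 3 * twistBy_eq a b))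
          (by rw [mul_comm x₀]; exact hvD.mul (evalPlace_X k x₀))
          (by have := hvD.pow 2; rwa [show (y₀ ^ 2) ^ 2 = y₀ * y₀ ^ 3 by ring] at this)
        exact h'
      have hv1 : (evalPlace k x₀).Val (D * RatFunc.X ^ qq) (x₀ ^ qq * y₀ ^ 2) := by
        rw [mul_comm (x₀ ^ qq)]; exact hvD.mul ((evalPlace_X k x₀).pow qq)
      have hw1 : (evalPlace k x₀).Val (D ^ (e + 2)) (y₀ ^ qq * y₀ ^ 3) := by
        have := hvD.pow (e + 2)
        rwa [← pow_mul, show 2 * (e + 2) = qq + 3 by omega, pow_add y₀] at this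
      obtain ⟨n1, E1⟩ := qFrob_some L h2 hd hT
      obtain ⟨n2, E2⟩ := qFrob_some L h2 hd n1
      have EV1 : ev (frobPt h2 hd) = Φ (.some x₀ y₀ hT) := by
        rw [hΦ, E1]
        obtain ⟨_, h'⟩ := ev_some _ hv1 hw1
        exact h'
      have EV2 : ev (frobSqPt h2 hd) = Φ (Φ (.some x₀ y₀ hT)) := by
        rw [hΦ, E1, E2, frobSqPt, frobHom, frobPt, ScaleData.hom_some]
        have hi := injective_of_hdeg_pos _ (hdeg_frobPt_pos (a := a) (b := b) h2 hd)
        have hs : ∀ z, subst (D * RatFunc.X ^ qq / D) hi z = z ^ qq := fun z =>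
          subst_frob (by rw [mul_div_cancel_left₀ _ (twistBy_ne_zero a b)]) _ z
        have hD0 : D ≠ 0 := twistBy_ne_zero a b
        refine (ev_some _ ?_ ?_).choose_spec
        · simp only [pullData, ← hD, hs, ← he]
          rw [show (D * RatFunc.X ^ qq) ^ qq / (D ^ (e + 2) / D ^ 2) ^ 2 =
              D * (RatFunc.X ^ qq) ^ qq by
            rw [mul_pow, pow_add D e 2, mul_div_cancel_right₀ _ (pow_ne_zero 2 hD0), ← hq,
              pow_succ D (2 * e), pow_mul']
            field_simp]
          rw [mul_comm ((x₀ ^ qq) ^ qq)]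
          exact hvD.mul (((evalPlace_X k x₀).pow qq).pow qq)
        · simp only [pullData, ← hD, hs, ← he]
          rw [show (D ^ (e + 2)) ^ qq / (D ^ (e + 2) / D ^ 2) ^ 3 = D ^ ((qq + 1) * e + 2) by
            rw [pow_add D e 2, mul_div_cancel_right₀ _ (pow_ne_zero 2 hD0), ← hq,
              div_eq_iff (pow_ne_zero 3 (pow_ne_zero e hD0))]
            ring]
          have := hvD.pow ((qq + 1) * e + 2)
          have hexp : 2 * ((qq + 1) * e + 2) = qq * qq + 3 := by
            rw [← hq]; ring
          rwa [← pow_mul, hexp, pow_add y₀, pow_mul] at this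
      have := congrArg ev (frob_charpoly_generic (a := a) (b := b) h2 hd)
      rw [map_zero, map_nsmul, map_add, map_sub, map_zsmul, map_zsmul, E0, EV1, EV2] at this
      exact this

end

end FLTAgent.Switch
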