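import Fermat.Agent.Switch.Klein

/-!
# The universal `3`-isogeny quartic has no polynomial root along Klein's family

`z⁴ - 6 H z² - 8 T z - 3 H²` has no root `R ∈ L[u]` of degree `≤ 10` for `H = kH(u, 1)`, `T = kT(u, 1)`.

Main declarations: `threeQuartic`, `no_poly_root`.
-/

set_option autoImplicit false

namespace FLTAgent.Switch

open Polynomial

noncomputable section

/-- The quartic whose roots are the `x`-coordinates (scaled) of points of order three. -/
def threeQuartic {R : Type*} [CommRing R] (A B z : R) : R :=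
  z ^ 4 - 6 * A * z ^ 2 - 8 * B * z - 3 * A ^ 2

theorem map_threeQuartic {R S : Type*} [CommRing R] [CommRing S] (φ : R →+* S) (A B z : R) :
    φ (threeQuartic A B z) = threeQuartic (φ A) (φ B) (φ z) := by
  simp [threeQuartic, map_ofNat]

theorem threeQuartic_smul {R : Type*} [CommRing R] (c A B z : R) :
    threeQuartic (c ^ 20 * A) (c ^ 30 * B) (c ^ 10 * z) = c ^ 40 * threeQuartic A B z := by
  simp only [threeQuartic]; ring

variable {L : Type*} [Field L] [CharZero L]

theorem no_root_near_one (E : L[X]) :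
    threeQuartic (kH (X : L[X]) 1) (kT X 1) (1 + X * E) ≠ 0 := by
  intro h
  set Hh : L[X] := 228 + 494 * X ^ 5 - 228 * X ^ 10 + X ^ 15 with hHh
  set Th : L[X] := 522 + 10005 * X ^ 5 + 10005 * X ^ 15 - 522 * X ^ 20 - X ^ 25 with hTh
  have eH : kH (X : L[X]) 1 = 1 + X ^ 5 * Hh := by simp only [kH, kH5, hHh]; ring
  have eT : kT (X : L[X]) 1 = -1 + X ^ 5 * Th := by simp only [kT, kT5, hTh]; ring
  rw [eH, eT] at h
  simp only [threeQuartic] at h
  have h3 : X ^ 3 * (4 * E ^ 3 + X * (E ^ 4 - 6 * X ^ 3 * Hh * E ^ 2 +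
      X ^ 2 * (-12 * Hh - 8 * Th) * E + X * (-12 * Hh - 8 * Th) - 3 * X ^ 6 * Hh ^ 2)) = 0 := by
    linear_combination h
  have h3' := congrArg (eval (0 : L)) ((mul_eq_zero.1 h3).resolve_left (pow_ne_zero _ X_ne_zero))
  simp at h3'
  obtain ⟨F, hF⟩ : X ∣ E := X_dvd_iff.2 (by rw [coeff_zero_eq_eval_zero]; exact h3')
  subst hF
  have h5 : X ^ 5 * ((-12 * Hh - 8 * Th) + X * (4 * F ^ 3 + X ^ 2 * F ^ 4 - 6 * X ^ 3 * Hh * F ^ 2 +
      X * (-12 * Hh - 8 * Th) * F - 3 * X ^ 4 * Hh ^ 2)) = 0 := by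
    linear_combination h
  have h5' := congrArg (eval (0 : L)) ((mul_eq_zero.1 h5).resolve_left (pow_ne_zero _ X_ne_zero))
  simp [hHh, hTh] at h5'
  norm_num at h5'

theorem no_root_near_neg_three {R : L[X]} (hR : R.natDegree ≤ 10) (h0 : R.eval 0 = -3) :
    threeQuartic (kH (X : L[X]) 1) (kT X 1) R ≠ 0 := by
  intro h
  set S : L[X] := -3 - 18 * X ^ 5 - 39 * X ^ 10 with hS
  set H := kH (X : L[X]) 1 with hH
  set T := kT (X : L[X]) 1 with hT
  set E := R - S with hE
  set M : L[X] := (4 * S ^ 3 - 12 * H * S - 8 * T) + E * (6 * S ^ 2 - 6 * H) + 4 * S * E ^ 2 + E ^ 3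
    with hM
  set Z : L[X] := -4608 + 147456 * X ^ 5 - 1481472 * X ^ 10 + 3965184 * X ^ 15 + 6181632 * X ^ 20
    + 2304000 * X ^ 25 with hZ
  have hS0 : threeQuartic H T S = X ^ 15 * Z := by
    simp only [threeQuartic, hS, hH, hT, hZ, kH, kH5, kT, kT5]; ring
  have hsum : E * M = -(X ^ 15 * Z) := by
    rw [← hS0]
    simp only [threeQuartic] at h ⊢
    rw [hM, hE]
    linear_combination h
  have hE0 : E.eval 0 = 0 := by simp [hE, hS, h0]
  have hM0 : ¬(X : L[X]) ∣ M := by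
    rw [X_dvd_iff, coeff_zero_eq_eval_zero]
    simp [hM, hE0, hS, hH, hT, kH, kH5, kT, kT5]
    norm_num
  have hdvd : (X : L[X]) ^ 15 ∣ E :=
    ((prime_X.coprime_iff_not_dvd.2 hM0).pow_left).dvd_of_dvd_mul_right
      ⟨-Z, by rw [hsum]; ring⟩
  have hEz : E = 0 := by
    refine eq_zero_of_dvd_of_natDegree_lt hdvd ?_
    rw [natDegree_X_pow]
    have : S.natDegree ≤ 10 := by
      rw [hS]
      simp only [← C_ofNat, ← map_neg]
      compute_degree
    calc E.natDegree ≤ max R.natDegree S.natDegree := natDegree_sub_le _ _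
      _ < 15 := by omega
  rw [hEz, zero_mul, eq_comm, neg_eq_zero, mul_eq_zero] at hsum
  have hZ0 : Z = 0 := hsum.resolve_left (pow_ne_zero _ X_ne_zero)
  have := congrArg (eval (0 : L)) hZ0
  simp [hZ] at this

/-- No root of degree `≤ 10`. -/
theorem no_poly_root {R : L[X]} (hR : R.natDegree ≤ 10) :
    threeQuartic (kH (X : L[X]) 1) (kT X 1) R ≠ 0 := by
  intro h
  have h0 := congrArg (eval (0 : L)) h
  simp [threeQuartic, kH, kH5, kT, kT5] at h0
  have : (R.eval 0 - 1) ^ 3 * (R.eval 0 + 3) = 0 := by linear_combination h0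
  rcases mul_eq_zero.1 this with h1 | h1
  · have h1' : R.eval 0 = 1 := sub_eq_zero.1 (eq_zero_of_pow_eq_zero h1)
    obtain ⟨E, hE⟩ : X ∣ R - 1 := X_dvd_iff.2 (by rw [coeff_zero_eq_eval_zero]; simp [h1'])
    exact no_root_near_one E (by rw [← hE, add_sub_cancel]; exact h)
  · exact no_root_near_neg_three hR (eq_neg_of_add_eq_zero_left h1) h

end

end FLTAgent.Switch
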