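import Mathlib

/-!
# Short Weierstrass curves: elementary facts for the 3-5 switch

`short A B` is `y² = x³ + A x + B`. `pmMap` is the quadratic map taking the symmetric functions of
two abscissas to those of the sum and difference of the points; it has no nontrivial zero when
the discriminant is nonzero (`pmMap_eq_zero`).
-/

set_option autoImplicit false

namespace FLTAgent.Switch

open WeierstrassCurve

/-- The short Weierstrass curve `y² = x³ + A x + B`. -/
abbrev short {R : Type*} [CommRing R] (A B : R) : WeierstrassCurve.Affine R := ⟨0, 0, 0, A, B⟩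

section

variable {R : Type*} [CommRing R] (A B : R)

theorem short_equation (x y : R) :
    (short A B).Equation x y ↔ y ^ 2 = x ^ 3 + A * x + B := by
  rw [Affine.equation_iff]
  simp

theorem short_negY (x y : R) : (short A B).negY x y = -y := by
  simp [Affine.negY]

theorem short_addX (x₁ x₂ l : R) : (short A B).addX x₁ x₂ l = l ^ 2 - x₁ - x₂ := by
  simp [Affine.addX]

theorem short_addY (x₁ x₂ y₁ l : R) :
    (short A B).addY x₁ x₂ y₁ l = -(l * (l ^ 2 - x₁ - x₂ - x₁) + y₁) := by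
  simp [Affine.addY, Affine.negAddY, Affine.addX, Affine.negY]

theorem short_Δ : (short A B).Δ = -16 * (4 * A ^ 3 + 27 * B ^ 2) := by
  simp [WeierstrassCurve.Δ, WeierstrassCurve.b₂, WeierstrassCurve.b₄, WeierstrassCurve.b₆,
    WeierstrassCurve.b₈]
  ring

/-- The map on `(x₁ x₂ : x₁ + x₂ : 1)` giving `(x₊ x₋ : x₊ + x₋ : 1)`. -/
def pmMap (α β : R) (v : Fin 3 → R) : Fin 3 → R :=
  ![(v 0 - α * v 2) ^ 2 - 4 * β * v 1 * v 2,
    2 * v 1 * v 0 + 2 * α * v 1 * v 2 + 4 * β * v 2 ^ 2,
    v 1 ^ 2 - 4 * v 0 * v 2]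

theorem pmMap_map {S : Type*} [CommRing S] (φ : R →+* S) (α β : R) (v : Fin 3 → R) (i : Fin 3) :
    φ (pmMap α β v i) = pmMap (φ α) (φ β) (fun j => φ (v j)) i := by
  fin_cases i <;> simp [pmMap, map_sub, map_add, map_mul, map_pow, map_ofNat]

theorem pmMap_smul (α β c : R) (v : Fin 3 → R) (i : Fin 3) :
    pmMap α β (fun j => c * v j) i = c ^ 2 * pmMap α β v i := by
  fin_cases i <;> simp [pmMap] <;> ring

end

theorem pmMap_eq_zero {L : Type*} [Field L] {α β : L} (h2 : (2 : L) ≠ 0)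
    (hd : 4 * α ^ 3 + 27 * β ^ 2 ≠ 0) {v : Fin 3 → L} (hv : ∀ i, pmMap α β v i = 0) : v = 0 := by
  have : (short α β).IsElliptic := by
    refine ⟨isUnit_iff_ne_zero.2 ?_⟩
    rw [short_Δ]
    refine mul_ne_zero ?_ hd
    rw [show (-16 : L) = -(2 ^ 4) by norm_num]
    exact neg_ne_zero.2 (pow_ne_zero _ h2)
  by_contra hne
  apply WeierstrassCurve.addSubMap_ne_zero (W := short α β) hne
  funext i
  have := hv i
  fin_cases i <;>
  · simp [WeierstrassCurve.addSubMap, pmMap, WeierstrassCurve.b₂, WeierstrassCurve.b₄,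
      WeierstrassCurve.b₆, WeierstrassCurve.b₈] at this ⊢
    linear_combination this

section Field

variable {F : Type*} [Field F] [DecidableEq F] {A B : F}

theorem short_nonsingular_iff (h2 : (2 : F) ≠ 0) (hd : 4 * A ^ 3 + 27 * B ^ 2 ≠ 0) (x y : F) :
    (short A B).Nonsingular x y ↔ y ^ 2 = x ^ 3 + A * x + B := by
  have hΔ : (short A B).Δ ≠ 0 := by
    rw [short_Δ]
    refine mul_ne_zero ?_ hd
    rw [show (-16 : F) = -(2 ^ 4) by norm_num]
    exact neg_ne_zero.2 (pow_ne_zero _ h2)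
  rw [← Affine.equation_iff_nonsingular_of_Δ_ne_zero hΔ, short_equation]

theorem some_eq_some {x₁ x₂ y₁ y₂ : F} (hx : x₁ = x₂) (hy : y₁ = y₂)
    {h₁ : (short A B).Nonsingular x₁ y₁} {h₂ : (short A B).Nonsingular x₂ y₂} :
    Affine.Point.some x₁ y₁ h₁ = Affine.Point.some x₂ y₂ h₂ := by
  subst hx hy; rfl

end Field

end FLTAgent.Switch
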