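import Fermat.Prelude.Def_FLTPrelim_Modularity
import Fermat.Agent.Switch.Basic

/-!
# Points of a curve and of its short model `y² = x³ - 27c₄x - 54c₆`

The two have equally many points when `6 ≠ 0` (`natCard_point_short`), so a difference of traces
`a_ℓ(W') - a_ℓ(W)` is one of point counts of short models (`apOfModel_sub`).
-/

set_option autoImplicit false

namespace FLTAgent.Switch

open WeierstrassCurve

noncomputable section

variable {F : Type*} [Field F]

theorem short_c_equation (W : WeierstrassCurve F) (h6 : (6 : F) ≠ 0) (x y : F) :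
    (short (-27 * W.c₄) (-54 * W.c₆)).Equation (36 * x + 3 * W.b₂) (108 * (2 * y + W.a₁ * x + W.a₃)) ↔
      W.toAffine.Equation x y := by
  rw [short_equation, Affine.equation_iff]
  have h46656 : (46656 : F) ≠ 0 := by
    rw [show (46656 : F) = 6 ^ 6 by norm_num]
    exact pow_ne_zero _ h6
  simp only [WeierstrassCurve.c₄, WeierstrassCurve.c₆, WeierstrassCurve.b₂, WeierstrassCurve.b₄,
    WeierstrassCurve.b₆]
  constructor
  · intro h
    refine mul_left_cancel₀ h46656 ?_
    linear_combination h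
  · intro h
    linear_combination (46656 : F) * h

theorem short_c_Δ_ne_zero (W : WeierstrassCurve F) (h6 : (6 : F) ≠ 0) (hΔ : W.Δ ≠ 0) :
    (short (-27 * W.c₄) (-54 * W.c₆)).Δ ≠ 0 := by
  have e : (short (-27 * W.c₄) (-54 * W.c₆)).Δ = 6 ^ 12 * W.Δ := by
    rw [short_Δ]
    linear_combination (-(1259712 : F)) * W.c_relation
  rw [e]
  exact mul_ne_zero (pow_ne_zero _ h6) hΔ

/-- A curve and its short model have the same number of points. -/
theorem natCard_point_short (W : WeierstrassCurve F) (h6 : (6 : F) ≠ 0) (hΔ : W.Δ ≠ 0) :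
    Nat.card W.toAffine.Point = Nat.card (short (-27 * W.c₄) (-54 * W.c₆)).Point := by
  have hΔ' := short_c_Δ_ne_zero W h6 hΔ
  have h2 : (2 : F) ≠ 0 := fun h => h6 (by linear_combination 3 * h)
  have h36 : (36 : F) ≠ 0 := by rw [show (36 : F) = 6 ^ 2 by norm_num]; exact pow_ne_zero _ h6
  have h108 : (108 : F) ≠ 0 := fun h => pow_ne_zero 3 h6 (by linear_combination 2 * h)
  have hns : ∀ x y, (short (-27 * W.c₄) (-54 * W.c₆)).Nonsingular (36 * x + 3 * W.b₂)
      (108 * (2 * y + W.a₁ * x + W.a₃)) ↔ W.toAffine.Nonsingular x y := fun x y => by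
    rw [← Affine.equation_iff_nonsingular_of_Δ_ne_zero hΔ,
      ← Affine.equation_iff_nonsingular_of_Δ_ne_zero hΔ', short_c_equation W h6]
  let f : W.toAffine.Point → (short (-27 * W.c₄) (-54 * W.c₆)).Point := fun P =>
    match P with
    | .zero => .zero
    | .some x y h => .some (36 * x + 3 * W.b₂) (108 * (2 * y + W.a₁ * x + W.a₃)) ((hns x y).2 h)
  refine Nat.card_eq_of_bijective f ⟨?_, ?_⟩
  · rintro (_ | ⟨x, y, h⟩) (_ | ⟨x', y', h'⟩) e
    · rfl
    · simp [f] at e
    · simp [f] at e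
    · simp only [f, Affine.Point.some.injEq] at e
      obtain ⟨ex, ey⟩ := e
      have hx : x = x' := mul_left_cancel₀ h36 (by linear_combination ex)
      subst hx
      have hy : y = y' := mul_left_cancel₀ (mul_ne_zero h108 h2) (by linear_combination ey)
      subst hy
      rfl
  · rintro (_ | ⟨X, Y, h⟩)
    · exact ⟨.zero, rfl⟩
    · set x : F := (X - 3 * W.b₂) / 36 with hx
      set y : F := (Y / 108 - W.a₁ * x - W.a₃) / 2 with hy
      have ex : 36 * x + 3 * W.b₂ = X := by rw [hx]; field_simp; ring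
      have ey : 108 * (2 * y + W.a₁ * x + W.a₃) = Y := by rw [hy]; field_simp; ring
      refine ⟨.some x y ((hns x y).1 (by rw [ex, ey]; exact h)), ?_⟩
      simp only [f, Affine.Point.some.injEq]
      exact ⟨ex, ey⟩

/-- `a_ℓ(W') - a_ℓ(W)` in terms of the short models. -/
theorem apOfModel_sub (W W' : WeierstrassCurve ℤ) {ℓ : ℕ} [Fact ℓ.Prime] (h6 : (6 : ZMod ℓ) ≠ 0)
    (hW : W.IsGoodPrimeFor ℓ) (hW' : W'.IsGoodPrimeFor ℓ) :
    W'.apOfModel ℓ - W.apOfModel ℓ =
      (Nat.card (short (-27 * (W.c₄ : ZMod ℓ)) (-54 * (W.c₆ : ZMod ℓ))).Point : ℤ) -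
        Nat.card (short (-27 * (W'.c₄ : ZMod ℓ)) (-54 * (W'.c₆ : ZMod ℓ))).Point := by
  have key : ∀ V : WeierstrassCurve ℤ, V.IsGoodPrimeFor ℓ → (V.reductionMod ℓ).card =
      Nat.card (short (-27 * (V.c₄ : ZMod ℓ)) (-54 * (V.c₆ : ZMod ℓ))).Point := by
    intro V hV
    have hΔ : (V.reductionMod ℓ).Δ ≠ 0 := by
      rw [WeierstrassCurve.reductionMod, WeierstrassCurve.map_Δ, eq_intCast, Ne,
        ZMod.intCast_zmod_eq_zero_iff_dvd]
      exact hV
    rw [WeierstrassCurve.card, natCard_point_short _ h6 hΔ]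
    simp only [WeierstrassCurve.reductionMod, WeierstrassCurve.map_c₄, WeierstrassCurve.map_c₆,
      eq_intCast]
  simp only [WeierstrassCurve.apOfModel, WeierstrassCurve.traceOfFrobenius, key W hW, key W' hW']
  ring

end

end FLTAgent.Switch
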