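import Fermat.Agent.Switch.Choose

/-!
# The 3-5 switch, keeping the reductions at the bad primes

`exists_switch35`: for a semistable curve there is a semistable curve with irreducible mod `3`
representation, congruent traces modulo `5`, and the same reduction at all primes `≤ 30` and all
bad primes.
-/

set_option autoImplicit false

namespace FLTAgent.Switch

open WeierstrassCurve

/-- The switched curve has the same reduction as `W` at all `p ≤ 30` and all primes dividing `Δ`;
in particular it is multiplicative at those primes where `W` is bad. -/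
theorem exists_switch35 (W : WeierstrassCurve ℤ) (hΔ : W.Δ ≠ 0) (hW : W.IsSemistableModel) :
    ∃ W' : WeierstrassCurve ℤ, W'.Δ ≠ 0 ∧ W'.IsSemistableModel ∧ W'.ModRepIsIrreducible 3 ∧
      (∀ ℓ : ℕ, ℓ.Prime → W.IsGoodPrimeFor ℓ → W'.IsGoodPrimeFor ℓ →
        (5 : ℤ) ∣ (W'.apOfModel ℓ - W.apOfModel ℓ)) ∧
      (∀ p : ℕ, p.Prime → (p ≤ 30 ∨ (p : ℤ) ∣ W.Δ) → W'.reductionMod p = W.reductionMod p) ∧
      (∀ p : ℕ, p.Prime → (p : ℤ) ∣ W.Δ → (p : ℤ) ∣ W'.Δ) := by
  obtain ⟨a, m, hΔ', h3⟩ := exists_switchCurve W hΔ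
  have hred : ∀ p : ℕ, p.Prime → (p ≤ 30 ∨ (p : ℤ) ∣ W.Δ) →
      (switchCurve W a m).reductionMod p = W.reductionMod p := fun p hp h =>
    reductionMod_switchCurve W a m
      (h.elim (le_thirty_dvd_switchM W hp) fun h => Dvd.dvd.mul_left h _)
  refine ⟨switchCurve W a m, hΔ', switchCurve_isSemistable W a m hW, h3,
    fun ℓ hℓ hg hg' => switchCurve_congr W a m hℓ hg hg', hred, fun p hp hd => ?_⟩
  have e := congrArg WeierstrassCurve.Δ (hred p hp (Or.inr hd))
  simp only [WeierstrassCurve.reductionMod, WeierstrassCurve.map_Δ, eq_intCast] at e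
  rw [(ZMod.intCast_zmod_eq_zero_iff_dvd _ p).2 hd] at e
  exact (ZMod.intCast_zmod_eq_zero_iff_dvd _ p).1 e

end FLTAgent.Switch
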