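import Fermat.Agent.Switch.FiniteDiff
import Fermat.Agent.Switch.NoPolyRoot

/-!
# Elementary Hilbert irreducibility for the three-division quartic

If `threeQuartic A(t) B(t) z` (with `deg A ≤ 20`, `deg B ≤ 30`, separable at infinity) has no root in
`ℂ[t]`, then for some natural `m` it has no integer root `z` at `t = m`.

Main declarations: `exists_no_int_root`.
-/

set_option autoImplicit false

namespace FLTAgent.Switch

open Polynomial Filter Topology

noncomputable section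

theorem threeQuartic_simple_root {L : Type*} [Field L] [CharZero L] {a b ρ : L} (hab : a ^ 3 ≠ b ^ 2)
    (hρ : threeQuartic a b ρ = 0) : 4 * ρ ^ 3 - 12 * a * ρ - 8 * b ≠ 0 := by
  intro hd
  simp only [threeQuartic] at hρ
  have h1 : a * ρ ^ 2 + 2 * b * ρ + a ^ 2 = 0 := by
    have : (-3 : L) * (a * ρ ^ 2 + 2 * b * ρ + a ^ 2) = 0 := by linear_combination hρ - ρ / 4 * hd
    simpa using this
  have h2 : b * ρ ^ 2 + 2 * a ^ 2 * ρ + a * b = 0 := by
    have : (2 : L) * (b * ρ ^ 2 + 2 * a ^ 2 * ρ + a * b) = 0 := by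
      linear_combination ρ * h1 - a / 4 * hd
    simpa using this
  have h3 : ρ * (2 * (b ^ 2 - a ^ 3)) = 0 := by linear_combination b * h1 - a * h2
  have hρ0 : ρ = 0 := (mul_eq_zero.1 h3).resolve_right
    (mul_ne_zero two_ne_zero (sub_ne_zero.2 (Ne.symm hab)))
  subst hρ0
  have ha : a = 0 := by simpa using hρ
  have hb : b = 0 := by simpa using hd
  exact hab (by rw [ha, hb]; ring)

/-- Successive approximations of a branch. -/
def branchApprox (a b : ℂ[X]) (ρ : ℂ) : ℕ → ℂ[X]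
  | 0 => C ρ
  | n + 1 => branchApprox a b ρ n - C ((threeQuartic a b (branchApprox a b ρ n)).coeff (n + 1) /
      (4 * ρ ^ 3 - 12 * a.eval 0 * ρ - 8 * b.eval 0)) * X ^ (n + 1)

variable {a b : ℂ[X]} {ρ : ℂ}

theorem eval_zero_branchApprox (n : ℕ) : (branchApprox a b ρ n).eval 0 = ρ := by
  induction n with
  | zero => simp [branchApprox]
  | succ n ih => simp [branchApprox, ih]

theorem natDegree_branchApprox (n : ℕ) : (branchApprox a b ρ n).natDegree ≤ n := by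
  induction n with
  | zero => simp [branchApprox]
  | succ n ih =>
    refine (natDegree_sub_le _ _).trans (max_le (ih.trans (Nat.le_succ n)) ?_)
    exact natDegree_C_mul_X_pow_le _ _

theorem X_pow_dvd_branchApprox (hρ : threeQuartic (a.eval 0) (b.eval 0) ρ = 0)
    (hd : 4 * ρ ^ 3 - 12 * a.eval 0 * ρ - 8 * b.eval 0 ≠ 0) (n : ℕ) :
    X ^ (n + 1) ∣ threeQuartic a b (branchApprox a b ρ n) := by
  induction n with
  | zero =>
    rw [zero_add, pow_one, X_dvd_iff, coeff_zero_eq_eval_zero, ← coe_evalRingHom, map_threeQuartic]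
    simpa [branchApprox] using hρ
  | succ n ih =>
    obtain ⟨q, hq⟩ := ih
    set z := branchApprox a b ρ n with hz
    set d := 4 * ρ ^ 3 - 12 * a.eval 0 * ρ - 8 * b.eval 0 with hdd
    set c := (threeQuartic a b z).coeff (n + 1) / d with hc
    have hqc : q.eval 0 = d * c := by
      rw [hc, hq, mul_div_cancel₀ _ hd, ← coeff_zero_eq_eval_zero]
      simpa using (coeff_X_pow_mul q (n + 1) 0).symm
    have key : threeQuartic a b (z - C c * X ^ (n + 1)) = X ^ (n + 1) *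
        (q - C c * (4 * z ^ 3 - 12 * a * z - 8 * b) + X ^ (n + 1) *
          (C c ^ 2 * (6 * z ^ 2 - 6 * a) - 4 * C c ^ 3 * X ^ (n + 1) * z +
            C c ^ 4 * (X ^ (n + 1)) ^ 2)) := by
      simp only [threeQuartic] at hq ⊢
      linear_combination hq
    show X ^ (n + 1 + 1) ∣ threeQuartic a b (z - C c * X ^ (n + 1))
    rw [key, pow_succ]
    apply mul_dvd_mul_left
    rw [X_dvd_iff, coeff_zero_eq_eval_zero]
    simp [hqc, hz, eval_zero_branchApprox, hdd]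
    ring

theorem coeff_branchApprox_succ {n i : ℕ} (hi : i ≠ n + 1) :
    (branchApprox a b ρ (n + 1)).coeff i = (branchApprox a b ρ n).coeff i := by
  simp [branchApprox, coeff_C_mul, coeff_X_pow, hi]

theorem coeff_branchApprox_of_le {n i : ℕ} (hi : i ≤ n) :
    (branchApprox a b ρ n).coeff i = (branchApprox a b ρ i).coeff i := by
  induction n, hi using Nat.le_induction with
  | base => rfl
  | succ n hn ih => rw [coeff_branchApprox_succ (by omega), ih]

theorem eval_eq_pow_mul_reflect {p : ℂ[X]} {N : ℕ} (hp : p.natDegree ≤ N) {x : ℂ} (hx : x ≠ 0) :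
    p.eval x = x ^ N * (p.reflect N).eval x⁻¹ := by
  have : Invertible x := invertibleOfNonzero hx
  have := eval₂_reflect_mul_pow (RingHom.id ℂ) x N p hp
  rw [← eval, invOf_eq_inv, mul_comm] at this
  exact this.symm

variable {A B : ℂ[X]}

/-- A polynomial branch gives a polynomial root. -/
theorem exists_coeff_branch_ne_zero (hA : A.natDegree ≤ 20) (hB : B.natDegree ≤ 30)
    (hno : ∀ P : ℂ[X], threeQuartic A B P ≠ 0)
    (hρ : threeQuartic ((A.reflect 20).eval 0) ((B.reflect 30).eval 0) ρ = 0)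
    (hd : 4 * ρ ^ 3 - 12 * (A.reflect 20).eval 0 * ρ - 8 * (B.reflect 30).eval 0 ≠ 0) :
    ∃ i, 11 ≤ i ∧ (branchApprox (A.reflect 20) (B.reflect 30) ρ i).coeff i ≠ 0 := by
  by_contra hall
  push Not at hall
  set a := A.reflect 20 with ha
  set b := B.reflect 30 with hb
  set z := branchApprox a b ρ 10 with hz
  have hconst : ∀ n, 10 ≤ n → branchApprox a b ρ n = z := by
    intro n hn
    ext i
    rcases le_or_gt i 10 with hi | hi
    · rw [coeff_branchApprox_of_le (hi.trans hn), hz, coeff_branchApprox_of_le hi]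
    · rw [hz, coeff_eq_zero_of_natDegree_lt (lt_of_le_of_lt (natDegree_branchApprox 10) hi)]
      rcases le_or_gt i n with hi' | hi'
      · rw [coeff_branchApprox_of_le hi']; exact hall i (by omega)
      · exact coeff_eq_zero_of_natDegree_lt (lt_of_le_of_lt (natDegree_branchApprox n) hi')
  have hQ : threeQuartic a b z = 0 := by
    by_contra hne
    set n := 10 + (threeQuartic a b z).natDegree
    have := X_pow_dvd_branchApprox hρ hd n
    rw [hconst n (by omega)] at this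
    have := natDegree_le_of_dvd this hne
    rw [natDegree_X_pow] at this
    omega
  apply hno (z.reflect 10)
  apply eq_zero_of_infinite_isRoot
  refine (Set.finite_singleton (0 : ℂ)).infinite_compl.mono ?_
  intro x hx
  have hx0 : x ≠ 0 := by simpa using hx
  show (threeQuartic A B (z.reflect 10)).eval x = 0
  rw [← coe_evalRingHom, map_threeQuartic]
  simp only [coe_evalRingHom]
  have hzdeg : (z.reflect 10).natDegree ≤ 10 :=
    natDegree_reflect_le.trans (max_le le_rfl (natDegree_branchApprox 10))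
  rw [eval_eq_pow_mul_reflect hA hx0, eval_eq_pow_mul_reflect hB hx0,
    eval_eq_pow_mul_reflect hzdeg hx0, reflect_reflect, threeQuartic_smul]
  have := congrArg (eval x⁻¹) hQ
  rw [← coe_evalRingHom, map_threeQuartic, map_zero] at this
  simp only [coe_evalRingHom] at this
  rw [ha, hb] at this
  rw [this, mul_zero]

/-- Roots of the quartic are close to roots of the limit quartic. -/
theorem eventually_near_root {a b : ℕ → ℂ} {a₀ b₀ : ℂ} (ha : Tendsto a atTop (𝓝 a₀))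
    (hb : Tendsto b atTop (𝓝 b₀)) {δ : ℝ} (hδ : 0 < δ) :
    ∀ᶠ m in atTop, ∀ z : ℂ, threeQuartic (a m) (b m) z = 0 →
      ∃ ρ, threeQuartic a₀ b₀ ρ = 0 ∧ ‖z - ρ‖ < δ := by
  set K : ℝ := ‖a₀‖ + ‖b₀‖ + 2 with hK
  set R : ℝ := 5 * K with hR
  have hbound : Tendsto (fun m => 6 * ‖a m - a₀‖ * R ^ 2 + 8 * ‖b m - b₀‖ * R +
      3 * ‖a m ^ 2 - a₀ ^ 2‖) atTop (𝓝 0) := by
    have h1 := (tendsto_sub_nhds_zero_iff.2 ha).norm
    have h2 := (tendsto_sub_nhds_zero_iff.2 hb).norm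
    have h3 := (tendsto_sub_nhds_zero_iff.2 (ha.pow 2)).norm
    rw [norm_zero] at h1 h2 h3
    simpa using (((h1.const_mul 6).mul_const (R ^ 2)).add ((h2.const_mul 8).mul_const R)).add
      (h3.const_mul 3)
  filter_upwards [hbound.eventually_lt_const (pow_pos hδ 4),
    ha.norm.eventually_lt_const (show ‖a₀‖ < K by rw [hK]; linarith [norm_nonneg b₀]),
    hb.norm.eventually_lt_const (show ‖b₀‖ < K by rw [hK]; linarith [norm_nonneg a₀])]
    with m hm ham hbm z hz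
  have hK2 : 2 ≤ K := by linarith [norm_nonneg a₀, norm_nonneg b₀]
  have hzR : ‖z‖ ≤ R := by
    by_contra hgt
    push Not at hgt
    have e : z ^ 4 = 6 * a m * z ^ 2 + 8 * b m * z + 3 * a m ^ 2 := by
      simp only [threeQuartic] at hz; linear_combination hz
    have h4 : ‖z‖ ^ 4 ≤ 6 * K * ‖z‖ ^ 2 + 8 * K * ‖z‖ + 3 * K ^ 2 := by
      calc ‖z‖ ^ 4 = ‖z ^ 4‖ := (norm_pow z 4).symm
        _ ≤ ‖6 * a m * z ^ 2‖ + ‖8 * b m * z‖ + ‖3 * a m ^ 2‖ := by rw [e]; exact norm_add₃_le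
        _ = 6 * ‖a m‖ * ‖z‖ ^ 2 + 8 * ‖b m‖ * ‖z‖ + 3 * ‖a m‖ ^ 2 := by simp [norm_pow]
        _ ≤ _ := by gcongr
    have hz1 : 1 ≤ ‖z‖ := by linarith
    have ha' : 6 * K * ‖z‖ ^ 2 ≤ 6 * K ^ 2 * ‖z‖ ^ 2 :=
      mul_le_mul_of_nonneg_right (by nlinarith) (sq_nonneg _)
    have hb' : 8 * K * ‖z‖ ≤ 8 * K ^ 2 * ‖z‖ ^ 2 := by
      have hq1 : 1 ≤ K * ‖z‖ := one_le_mul_of_one_le_of_one_le (by linarith) hz1
      calc 8 * K * ‖z‖ = 8 * K * ‖z‖ * 1 := (mul_one _).symm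
        _ ≤ 8 * K * ‖z‖ * (K * ‖z‖) := mul_le_mul_of_nonneg_left hq1 (by positivity)
        _ = _ := by ring
    have hc' : 3 * K ^ 2 ≤ 3 * K ^ 2 * ‖z‖ ^ 2 :=
      le_mul_of_one_le_right (by positivity) (one_le_pow₀ hz1)
    have : ‖z‖ ^ 4 ≤ 17 * K ^ 2 * ‖z‖ ^ 2 := by linarith
    have h2z : (5 * K) ^ 2 < ‖z‖ ^ 2 := pow_lt_pow_left₀ hgt (by linarith) two_ne_zero
    nlinarith [mul_lt_mul_of_pos_right h2z (show (0 : ℝ) < ‖z‖ ^ 2 by positivity)]
  have hQ : ‖threeQuartic a₀ b₀ z‖ < δ ^ 4 := by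
    refine lt_of_le_of_lt ?_ hm
    rw [show threeQuartic a₀ b₀ z = 6 * (a m - a₀) * z ^ 2 + 8 * (b m - b₀) * z +
        3 * (a m ^ 2 - a₀ ^ 2) by
      simp only [threeQuartic] at hz ⊢; linear_combination hz]
    refine norm_add₃_le.trans ?_
    simp only [norm_mul, norm_pow, Complex.norm_ofNat]
    gcongr
  by_contra hfar
  push Not at hfar
  set q : ℂ[X] := threeQuartic (C a₀) (C b₀) X with hq
  have hqe : q = X ^ 4 + C (-6 * a₀) * X ^ 2 + C (-8 * b₀) * X + C (-3 * a₀ ^ 2) := by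
    simp only [hq, threeQuartic, map_mul, map_neg, map_pow, map_ofNat]; ring
  have hmonic : q.Monic := by rw [hqe]; monicity!
  have hdeg : q.natDegree = 4 := by rw [hqe]; compute_degree!
  have hs := IsAlgClosed.splits q
  have he : q.eval z = threeQuartic a₀ b₀ z := by
    rw [hq, ← coe_evalRingHom, map_threeQuartic]; simp
  have hprod : ‖threeQuartic a₀ b₀ z‖ = (q.roots.map fun ρ => ‖z - ρ‖).prod := by
    rw [← he, hs.eval_eq_prod_roots_of_monic hmonic z, ← normHom_apply (α := ℂ), map_multiset_prod,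
      Multiset.map_map]
    rfl
  have hcard : q.roots.card = 4 := by rw [← hs.natDegree_eq_card_roots, hdeg]
  have hge : δ ^ 4 ≤ (q.roots.map fun ρ => ‖z - ρ‖).prod := by
    calc δ ^ 4 = (q.roots.map fun _ => δ).prod := by simp [hcard]; ring
      _ ≤ _ := Multiset.prod_map_le_prod_map₀ _ _ (fun _ _ => hδ.le) fun ρ hρ => hfar ρ (by
        have := isRoot_of_mem_roots hρ
        rw [IsRoot, hq, ← coe_evalRingHom, map_threeQuartic] at this
        simpa using this)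
  linarith

/-- On a branch, twelve nodes at a fixed pattern cannot all carry integers. -/
theorem eventually_not_pattern (hA : A.natDegree ≤ 20) (hB : B.natDegree ≤ 30)
    (hno : ∀ P : ℂ[X], threeQuartic A B P ≠ 0) (hab : A.coeff 20 ^ 3 ≠ B.coeff 30 ^ 2)
    (z : ℕ → ℤ) (hz : ∀ m : ℕ, threeQuartic (A.eval (m : ℂ)) (B.eval (m : ℂ)) (z m : ℂ) = 0)
    (hρ : threeQuartic (A.coeff 20) (B.coeff 30) ρ = 0) :
    ∃ δ > (0 : ℝ), ∀ S : Finset ℕ, S.card = 12 →
      ∀ᶠ M in atTop, ¬∀ h ∈ S, ‖(z (M + h) : ℂ) / ((M + h : ℕ) : ℂ) ^ 10 - ρ‖ < δ := by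
  set a := A.reflect 20 with ha
  set b := B.reflect 30 with hb
  have ha0 : a.eval 0 = A.coeff 20 := by
    rw [ha, ← coeff_zero_eq_eval_zero, coeff_reflect]; simp
  have hb0 : b.eval 0 = B.coeff 30 := by
    rw [hb, ← coeff_zero_eq_eval_zero, coeff_reflect]; simp
  have hd : 4 * ρ ^ 3 - 12 * a.eval 0 * ρ - 8 * b.eval 0 ≠ 0 := by
    rw [ha0, hb0]; exact threeQuartic_simple_root hab hρ
  have hρ' : threeQuartic (a.eval 0) (b.eval 0) ρ = 0 := by rw [ha0, hb0]; exact hρ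
  set d := 4 * ρ ^ 3 - 12 * a.eval 0 * ρ - 8 * b.eval 0 with hdd
  have hex : ∃ i, 11 ≤ i ∧ (branchApprox a b ρ i).coeff i ≠ 0 :=
    exists_coeff_branch_ne_zero hA hB hno hρ' hd
  classical
  set i₀ := Nat.find hex with hi₀
  obtain ⟨hi11, hine⟩ := Nat.find_spec hex
  obtain ⟨k, hk1, hik⟩ : ∃ k, 1 ≤ k ∧ i₀ = 10 + k := ⟨i₀ - 10, by omega, by omega⟩
  set N := i₀ + 11 with hN
  set ζ := branchApprox a b ρ N with hζ
  set r : ℕ → ℂ := fun j => if j = 0 then 0 else ζ.coeff (10 + j) with hr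
  have hrk : r k = (branchApprox a b ρ i₀).coeff i₀ := by
    rw [hr]; simp only [if_neg (by omega : k ≠ 0), ← hik, hζ]
    exact coeff_branchApprox_of_le (by omega)
  have hr0 : ∀ j < k, r j = 0 := by
    intro j hj
    rw [hr]; simp only
    split_ifs with h
    · rfl
    · rw [hζ, coeff_branchApprox_of_le (by omega)]
      by_contra hne
      exact Nat.find_min hex (show 10 + j < Nat.find hex by omega) ⟨by omega, hne⟩
  -- factor of the approximation error
  obtain ⟨q, hq⟩ := X_pow_dvd_branchApprox hρ' hd N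
  rw [← hζ] at hq
  set D : ℂ × ℂ → ℂ := fun p => p.1 ^ 3 + p.1 ^ 2 * ζ.eval p.2 + p.1 * ζ.eval p.2 ^ 2 +
    ζ.eval p.2 ^ 3 - 6 * a.eval p.2 * (p.1 + ζ.eval p.2) - 8 * b.eval p.2 with hD
  have hDc : Continuous D := by
    rw [hD]; fun_prop
  have hD0 : D (ρ, 0) = d := by
    simp only [hD, hζ, eval_zero_branchApprox, hdd]; ring
  have hnorm : ∀ᶠ p in 𝓝 (ρ, (0 : ℂ)), ‖d‖ / 2 < ‖D p‖ ∧ ‖q.eval p.2‖ < ‖q.eval 0‖ + 1 := by
    have h1 : Tendsto (fun p : ℂ × ℂ => ‖D p‖) (𝓝 (ρ, 0)) (𝓝 ‖d‖) := by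
      rw [← hD0]; exact hDc.norm.tendsto _
    have h2 : Tendsto (fun p : ℂ × ℂ => ‖q.eval p.2‖) (𝓝 (ρ, 0)) (𝓝 ‖q.eval 0‖) :=
      (q.continuous.comp continuous_snd).norm.tendsto _
    exact (h1.eventually_const_lt (by linarith [norm_pos_iff.2 hd])).and
      (h2.eventually_lt_const (by linarith))
  obtain ⟨δ, hδ, hball⟩ := Metric.eventually_nhds_iff.1 hnorm
  refine ⟨δ, hδ, fun S hS => ?_⟩
  obtain ⟨w, hw, hw11⟩ := exists_weights S hS
  set Λ : ℂ := -(r k * (geomPowC k).coeff 11 * ∑ h ∈ S, (w h : ℂ) * (h : ℂ) ^ 11) with hΛ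
  have hΛ0 : Λ ≠ 0 := neg_ne_zero.2 (mul_ne_zero (mul_ne_zero (hrk ▸ hine)
    (coeff_geomPowC_ne_zero hk1)) hw11)
  have hn : k < k + 12 := by omega
  set F : ℕ → ℂ := fun m => ∑ j ∈ Finset.range (k + 12), r j * (((m : ℂ)) ^ j)⁻¹ with hF
  have hlim := tendsto_diff S w hw r hk1 hn hr0
  set K : ℝ := (∑ h ∈ S, ‖(w h : ℂ)‖) * (2 * (‖q.eval 0‖ + 1) / ‖d‖) with hK
  have hK0 : 0 ≤ K := mul_nonneg (Finset.sum_nonneg fun _ _ => norm_nonneg _)
    (div_nonneg (by positivity) (norm_nonneg _))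
  -- eventual facts
  have e1 : ∀ᶠ M : ℕ in atTop, ‖Λ‖ / 2 < ‖(M : ℂ) ^ (k + 11) *
      ∑ h ∈ S, (w h : ℂ) * ∑ j ∈ Finset.range (k + 12), r j * (((M : ℂ) + (h : ℂ)) ^ j)⁻¹‖ ∧
      ‖(M : ℂ) ^ (k + 11) *
      ∑ h ∈ S, (w h : ℂ) * ∑ j ∈ Finset.range (k + 12), r j * (((M : ℂ) + (h : ℂ)) ^ j)⁻¹‖ < ‖Λ‖ + 1 :=
    (hlim.norm.eventually_const_lt (by linarith [norm_pos_iff.2 hΛ0])).and
      (hlim.norm.eventually_lt_const (by linarith))
  have e2 : ∀ᶠ M : ℕ in atTop, ((M : ℝ))⁻¹ < δ :=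
    (tendsto_inv_atTop_zero.comp tendsto_natCast_atTop_atTop).eventually_lt_const hδ
  have e3 : ∀ᶠ M : ℕ in atTop, max (2 * K / ‖Λ‖) (‖Λ‖ + 1 + K) < (M : ℝ) :=
    tendsto_natCast_atTop_atTop.eventually_gt_atTop _
  filter_upwards [e1, e2, e3, eventually_gt_atTop 0] with M hM1 hM2 hM3 hM0 hall
  -- the approximation at each node
  set P := fun x : ℂ => ∑ i ∈ Finset.range 11, ζ.coeff i * x ^ (10 - i) with hP
  have node : ∀ h ∈ S, ‖(z (M + h) : ℂ) - P ((M + h : ℕ) : ℂ) - F (M + h)‖ ≤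
      2 * (‖q.eval 0‖ + 1) / ‖d‖ * ((M : ℝ) ^ (k + 12))⁻¹ := by
    intro h hh
    set m := M + h with hm
    have hmpos : 0 < m := by omega
    have hmne : (m : ℂ) ≠ 0 := Nat.cast_ne_zero.2 hmpos.ne'
    set ε : ℂ := (m : ℂ)⁻¹ with hε
    set u : ℂ := (z m : ℂ) / (m : ℂ) ^ 10 with hu
    have hu0 : threeQuartic (a.eval ε) (b.eval ε) u = 0 := by
      have := hz m
      rw [eval_eq_pow_mul_reflect hA hmne, eval_eq_pow_mul_reflect hB hmne, ← ha, ← hb, ← hε,
        show (z m : ℂ) = (m : ℂ) ^ 10 * u by rw [hu]; field_simp, threeQuartic_smul] at this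
      exact (mul_eq_zero.1 this).resolve_left (pow_ne_zero _ hmne)
    have hdist : dist (u, ε) (ρ, (0 : ℂ)) < δ := by
      rw [Prod.dist_eq]
      refine max_lt (by rw [dist_eq_norm]; exact hall h hh) ?_
      rw [dist_zero_right, hε, norm_inv, Complex.norm_natCast]
      refine lt_of_le_of_lt ?_ hM2
      exact inv_anti₀ (by exact_mod_cast hM0) (by exact_mod_cast (by omega : M ≤ m))
    obtain ⟨hD1, hq1⟩ := hball hdist
    have heq : (u - ζ.eval ε) * D (u, ε) = -(ε ^ (N + 1) * q.eval ε) := by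
      have := congrArg (eval ε) hq
      rw [eval_mul, eval_pow, eval_X, ← coe_evalRingHom, map_threeQuartic] at this
      simp only [coe_evalRingHom] at this
      simp only [threeQuartic] at this hu0
      simp only [hD]
      linear_combination hu0 - this
    have hdpos : 0 < ‖d‖ := norm_pos_iff.2 hd
    have hdiff : ‖u - ζ.eval ε‖ ≤ 2 * (‖q.eval 0‖ + 1) / ‖d‖ * ‖ε‖ ^ (N + 1) := by
      have hn' := congrArg norm heq
      rw [norm_mul, norm_neg, norm_mul, norm_pow] at hn'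
      rw [div_mul_eq_mul_div, le_div_iff₀ hdpos]
      have h1 := mul_le_mul_of_nonneg_left hD1.le (norm_nonneg (u - ζ.eval ε))
      have h2 := mul_le_mul_of_nonneg_left hq1.le (pow_nonneg (norm_nonneg ε) (N + 1))
      nlinarith
    have hsplit : (m : ℂ) ^ 10 * ζ.eval ε = P (m : ℂ) + F m := by
      rw [eval_eq_sum_range' (Nat.lt_succ_of_le (natDegree_branchApprox N)), Finset.mul_sum, hP, hF]
      simp only
      rw [show N.succ = 11 + (k + 11) by omega, Finset.sum_range_add,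
        show k + 12 = (k + 11) + 1 by omega, Finset.sum_range_succ' _ (k + 11)]
      congr 1
      · refine Finset.sum_congr rfl fun i hi => ?_
        have hi' : i ≤ 10 := Nat.lt_succ_iff.1 (Finset.mem_range.1 hi)
        rw [hε, show (m : ℂ) ^ 10 = (m : ℂ) ^ (10 - i) * (m : ℂ) ^ i by
          rw [← pow_add, Nat.sub_add_cancel hi'], inv_pow, hζ]
        field_simp
      · rw [hr]
        simp only [Nat.succ_ne_zero, if_false, if_true, zero_mul, add_zero]
        refine Finset.sum_congr rfl fun j _ => ?_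
        rw [show 10 + (j + 1) = 11 + j by omega, hε, inv_pow,
          show (m : ℂ) ^ (11 + j) = (m : ℂ) ^ 10 * (m : ℂ) ^ (j + 1) by
            rw [← pow_add]; congr 1; omega, hζ]
        field_simp
    calc ‖(z m : ℂ) - P (m : ℂ) - F m‖ = ‖(m : ℂ) ^ 10 * (u - ζ.eval ε)‖ := by
          rw [mul_sub, hsplit, hu, mul_div_cancel₀ _ (pow_ne_zero 10 hmne)]; congr 1; ring
      _ ≤ (m : ℝ) ^ 10 * (2 * (‖q.eval 0‖ + 1) / ‖d‖ * ‖ε‖ ^ (N + 1)) := by
          rw [norm_mul, norm_pow, Complex.norm_natCast]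
          exact mul_le_mul_of_nonneg_left hdiff (by positivity)
      _ = 2 * (‖q.eval 0‖ + 1) / ‖d‖ * ((m : ℝ) ^ (k + 12))⁻¹ := by
          rw [hε, norm_inv, Complex.norm_natCast, inv_pow,
            show N + 1 = 10 + (k + 12) by omega, pow_add]
          field_simp
      _ ≤ _ := by
          gcongr
          exact_mod_cast (by omega : M ≤ m)
  set S₀ : ℂ := ∑ h ∈ S, (w h : ℂ) * ∑ j ∈ Finset.range (k + 12), r j * (((M : ℂ) + (h : ℂ)) ^ j)⁻¹
    with hS₀
  set x : ℤ := ∑ h ∈ S, w h * z (M + h) with hx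
  have hpoly : ∑ h ∈ S, (w h : ℂ) * P ((M + h : ℕ) : ℂ) = 0 := by
    have h0 := hw ((∑ i ∈ Finset.range 11, C (ζ.coeff i) * X ^ (10 - i)).comp (C (M : ℂ) + X)) (by
      refine natDegree_comp_le.trans ?_
      rw [show (C (M : ℂ) + X : ℂ[X]).natDegree = 1 by rw [add_comm]; exact natDegree_X_add_C _, mul_one]
      refine natDegree_sum_le_of_forall_le _ _ fun i _ => (natDegree_C_mul_X_pow_le _ _).trans ?_
      omega)
    simpa [hP, eval_finsetSum] using h0
  have hxerr : ‖(x : ℂ) - S₀‖ ≤ K * ((M : ℝ) ^ (k + 12))⁻¹ := by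
    have : (x : ℂ) - S₀ = ∑ h ∈ S, (w h : ℂ) * ((z (M + h) : ℂ) - P ((M + h : ℕ) : ℂ) - F (M + h)) := by
      simp only [mul_sub, Finset.sum_sub_distrib, hpoly, sub_zero, hx, hS₀, hF]
      push_cast
      ring
    rw [this, hK, Finset.sum_mul, Finset.sum_mul]
    refine (norm_sum_le _ _).trans (Finset.sum_le_sum fun h hh => ?_)
    rw [norm_mul, mul_assoc]
    exact mul_le_mul_of_nonneg_left (node h hh) (norm_nonneg _)
  obtain ⟨hlow, hup⟩ := hM1
  rw [norm_mul, norm_pow, Complex.norm_natCast] at hlow hup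
  have hMr : (1 : ℝ) ≤ M := by exact_mod_cast hM0
  have hMk : (0 : ℝ) < (M : ℝ) ^ (k + 11) := by positivity
  have h12 : K * ((M : ℝ) ^ (k + 12))⁻¹ * (M : ℝ) ^ (k + 11) = K / M := by
    rw [pow_succ]; field_simp
  have h13 := mul_le_mul_of_nonneg_left hxerr hMk.le
  rw [mul_comm ((M : ℝ) ^ (k + 11)) (K * _), h12] at h13
  have hKM : K / M < ‖Λ‖ / 2 := by
    have := (le_max_left _ _).trans_lt hM3
    rw [div_lt_iff₀ (norm_pos_iff.2 hΛ0)] at this
    rw [div_lt_iff₀ (by linarith : (0 : ℝ) < M)]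
    linarith
  have hx0 : x ≠ 0 := by
    intro h0
    rw [h0, Int.cast_zero, zero_sub, norm_neg] at h13
    linarith
  have hx1 : (1 : ℝ) ≤ ‖(x : ℂ)‖ := by
    rw [Complex.norm_intCast]
    exact_mod_cast Int.one_le_abs hx0
  have hxle : ‖(x : ℂ)‖ ≤ ‖(x : ℂ) - S₀‖ + ‖S₀‖ := by
    simpa using norm_add_le ((x : ℂ) - S₀) S₀
  have hKle : K / M ≤ K := div_le_self hK0 hMr
  have hMgt := (le_max_right _ _).trans_lt hM3
  have hMM : (M : ℝ) ≤ (M : ℝ) ^ (k + 11) := by
    calc (M : ℝ) = (M : ℝ) ^ 1 := (pow_one _).symm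
      _ ≤ _ := pow_le_pow_right₀ hMr (by omega)
  have h14 := mul_le_mul_of_nonneg_left hx1 hMk.le
  have h15 := mul_le_mul_of_nonneg_left hxle hMk.le
  nlinarith

/-- **Elementary Hilbert irreducibility** for the quartic. -/
theorem exists_no_int_root (A B : ℂ[X]) (hA : A.natDegree ≤ 20) (hB : B.natDegree ≤ 30)
    (hab : A.coeff 20 ^ 3 ≠ B.coeff 30 ^ 2) (hno : ∀ P : ℂ[X], threeQuartic A B P ≠ 0) :
    ∃ m : ℕ, ∀ z : ℤ, threeQuartic (A.eval (m : ℂ)) (B.eval (m : ℂ)) (z : ℂ) ≠ 0 := by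
  classical
  by_contra hall
  push Not at hall
  choose z hz using hall
  set q : ℂ[X] := threeQuartic (C (A.coeff 20)) (C (B.coeff 30)) X with hq
  have hqe : q = X ^ 4 + C (-6 * A.coeff 20) * X ^ 2 + C (-8 * B.coeff 30) * X +
      C (-3 * A.coeff 20 ^ 2) := by
    simp only [hq, threeQuartic, map_mul, map_neg, map_pow, map_ofNat]; ring
  have hq0 : q ≠ 0 := by
    have : q.Monic := by rw [hqe]; monicity!
    exact this.ne_zero
  have hdeg : q.natDegree ≤ 4 := by rw [hqe]; compute_degree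
  set Rts : Finset ℂ := q.roots.toFinset with hR
  have hmem : ∀ ρ, ρ ∈ Rts ↔ threeQuartic (A.coeff 20) (B.coeff 30) ρ = 0 := by
    intro ρ
    rw [hR, Multiset.mem_toFinset, mem_roots hq0, IsRoot, hq, ← coe_evalRingHom, map_threeQuartic]
    simp
  have hcard : Rts.card ≤ 4 :=
    (Multiset.toFinset_card_le _).trans ((card_roots' q).trans hdeg)
  have hne : Rts.Nonempty := by
    obtain ⟨ρ, hρ⟩ := IsAlgClosed.exists_root q (by
      rw [degree_eq_natDegree hq0, show q.natDegree = 4 by rw [hqe]; compute_degree!]; decide)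
    exact ⟨ρ, Multiset.mem_toFinset.2 ((mem_roots hq0).2 hρ)⟩
  have hpat : ∀ ρ ∈ Rts, ∃ δ > (0 : ℝ), ∀ S : Finset ℕ, S.card = 12 →
      ∀ᶠ M in atTop, ¬∀ h ∈ S, ‖(z (M + h) : ℂ) / ((M + h : ℕ) : ℂ) ^ 10 - ρ‖ < δ :=
    fun ρ hρ => eventually_not_pattern hA hB hno hab z hz ((hmem ρ).1 hρ)
  choose! δ hδ hpat using hpat
  obtain ⟨ρ₁, hρ₁, hmin⟩ := Finset.exists_min_image Rts δ hne
  have ta : Tendsto (fun m : ℕ => (A.reflect 20).eval ((m : ℂ))⁻¹) atTop (𝓝 (A.coeff 20)) := by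
    have h0 : Tendsto (fun m : ℕ => ((m : ℂ))⁻¹) atTop (𝓝 0) :=
      tendsto_inv₀_cobounded.comp tendsto_natCast_atTop_cobounded
    have := ((A.reflect 20).continuous.tendsto (0 : ℂ)).comp h0
    rwa [← coeff_zero_eq_eval_zero, coeff_reflect, revAt_le (by norm_num), Nat.sub_zero] at this
  have tb : Tendsto (fun m : ℕ => (B.reflect 30).eval ((m : ℂ))⁻¹) atTop (𝓝 (B.coeff 30)) := by
    have h0 : Tendsto (fun m : ℕ => ((m : ℂ))⁻¹) atTop (𝓝 0) :=
      tendsto_inv₀_cobounded.comp tendsto_natCast_atTop_cobounded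
    have := ((B.reflect 30).continuous.tendsto (0 : ℂ)).comp h0
    rwa [← coeff_zero_eq_eval_zero, coeff_reflect, revAt_le (by norm_num), Nat.sub_zero] at this
  have hnear := eventually_near_root ta tb (hδ ρ₁ hρ₁)
  obtain ⟨m₀, hm₀⟩ := eventually_atTop.1 (hnear.and (eventually_gt_atTop 0))
  -- forbid every pattern inside the window
  set Pat := Rts ×ˢ ((Finset.range 45).powersetCard 12) with hPat
  have hev : ∀ᶠ M in atTop, ∀ p ∈ Pat,
      ¬∀ h ∈ p.2, ‖(z (M + h) : ℂ) / ((M + h : ℕ) : ℂ) ^ 10 - p.1‖ < δ p.1 := by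
    rw [Filter.eventually_all_finset]
    intro p hp
    rw [hPat, Finset.mem_product, Finset.mem_powersetCard] at hp
    exact hpat p.1 hp.1 p.2 hp.2.2
  obtain ⟨M, hM, hMm⟩ := (hev.and (eventually_ge_atTop m₀)).exists
  have hroot : ∀ h : ℕ, ∃ ρ ∈ Rts, ‖(z (M + h) : ℂ) / ((M + h : ℕ) : ℂ) ^ 10 - ρ‖ < δ ρ := by
    intro h
    obtain ⟨hn, hpos⟩ := hm₀ (M + h) (by omega)
    have hne' : ((M + h : ℕ) : ℂ) ≠ 0 := Nat.cast_ne_zero.2 (by omega)
    obtain ⟨ρ, hρ, hlt⟩ := hn ((z (M + h) : ℂ) / ((M + h : ℕ) : ℂ) ^ 10) (by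
      have := hz (M + h)
      rw [eval_eq_pow_mul_reflect hA hne', eval_eq_pow_mul_reflect hB hne',
        show (z (M + h) : ℂ) = ((M + h : ℕ) : ℂ) ^ 10 *
          ((z (M + h) : ℂ) / ((M + h : ℕ) : ℂ) ^ 10) by field_simp, threeQuartic_smul] at this
      exact (mul_eq_zero.1 this).resolve_left (pow_ne_zero _ hne'))
    exact ⟨ρ, (hmem ρ).2 hρ, lt_of_lt_of_le hlt (hmin ρ ((hmem ρ).2 hρ))⟩
  choose br hbr hclose using hroot
  obtain ⟨ρ, hρ, hbig⟩ := Finset.exists_lt_card_fiber_of_mul_lt_card_of_maps_to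
    (s := Finset.range 45) (t := Rts) (f := br) (n := 11) (fun h _ => hbr h)
    (by rw [Finset.card_range]; nlinarith)
  obtain ⟨S, hS, hS12⟩ := Finset.exists_subset_card_eq (n := 12) hbig
  refine hM (ρ, S) ?_ fun h hh => ?_
  · rw [hPat, Finset.mem_product, Finset.mem_powersetCard]
    exact ⟨hρ, hS.trans (Finset.filter_subset _ _), hS12⟩
  · have he : br h = ρ := (Finset.mem_filter.1 (hS hh)).2
    simpa [he] using hclose h

end

end FLTAgent.Switch
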