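import Fermat.Prelude.Def_FLTPrelim_ModularRep
import Fermat.Agent.EllTorsion.Galois
import Fermat.Agent.GalCommon.Basic
import Fermat.Agent.Switch.NoPolyRoot

/-!
# Irreducibility of the mod `3` representation from the quartic in `c₄`, `c₆`

The quartic is the `3`-division polynomial in the variable `12 x + b₂` (`threeQuartic_eq_Ψ₃`).
If it has no integer root the representation is irreducible (`modRepIsIrreducible_three`), since
a stable line gives a rational root.
-/

set_option autoImplicit false

namespace FLTAgent.Switch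

open Polynomial WeierstrassCurve
open scoped WeierstrassCurve.Affine

noncomputable section

/-- A rational root of the integral quartic is an integer. -/
theorem exists_int_root_of_rat {A B : ℤ} {q : ℚ} (hq : threeQuartic (A : ℚ) (B : ℚ) q = 0) :
    ∃ z : ℤ, threeQuartic (A : ℂ) (B : ℂ) (z : ℂ) = 0 := by
  set g : ℤ[X] := threeQuartic (C A) (C B) X with hg
  have hge : g = X ^ 4 + C (-6 * A) * X ^ 2 + C (-8 * B) * X + C (-3 * A ^ 2) := by
    simp only [hg, threeQuartic, map_mul, map_neg, map_pow, map_ofNat]; ring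
  have hmonic : g.Monic := by rw [hge]; monicity!
  have hint : IsIntegral ℤ q := ⟨g, hmonic, by
    rw [← hq, hge]
    simp only [threeQuartic, eval₂_add, eval₂_mul, eval₂_X_pow, eval₂_X, eval₂_C,
      algebraMap_int_eq]
    simp only [eq_intCast]
    push_cast
    ring⟩
  obtain ⟨z, rfl⟩ := IsIntegrallyClosed.isIntegral_iff.1 hint
  refine ⟨z, ?_⟩
  have h0 : threeQuartic A B z = 0 := by
    apply (Int.castRingHom ℚ).injective_int
    rw [map_threeQuartic, map_zero]
    simpa using hq
  have h1 := congrArg (Int.castRingHom ℂ) h0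
  rw [map_threeQuartic, map_zero] at h1
  simpa using h1

theorem threeQuartic_eq_Ψ₃ {R : Type*} [CommRing R] (W : WeierstrassCurve R) (x : R) :
    threeQuartic W.c₄ W.c₆ (12 * x + W.b₂) = 6912 * W.Ψ₃.eval x := by
  simp only [threeQuartic, WeierstrassCurve.c₄, WeierstrassCurve.c₆, WeierstrassCurve.Ψ₃,
    WeierstrassCurve.b₂, WeierstrassCurve.b₄, WeierstrassCurve.b₆, WeierstrassCurve.b₈]
  simp [eval_add, eval_mul, eval_pow, eval_C, eval_X]
  ring

local notation "Qbar" => AlgebraicClosure ℚ

/-- If the quartic has no integer root, the mod `3` representation is irreducible. -/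
theorem modRepIsIrreducible_three (W : WeierstrassCurve ℤ) (hΔ : W.Δ ≠ 0)
    (hno : ∀ z : ℤ, threeQuartic (W.c₄ : ℂ) (W.c₆ : ℂ) (z : ℂ) ≠ 0) :
    W.ModRepIsIrreducible 3 := by
  set WQ := W.map (Int.castRingHom ℚ) with hWQ
  have : WQ.IsElliptic := FLTAgent.EllTorsion.isElliptic_map_rat hΔ
  have : (WQ⁄Qbar).IsElliptic := inferInstanceAs (WQ.map (algebraMap ℚ Qbar)).IsElliptic
  refine ⟨FLTAgent.EllTorsion.nontrivial_torsionBy_rat WQ 3 (by norm_num), fun N hN => ?_⟩
  by_contra hcon
  push Not at hcon
  obtain ⟨hbot, htop⟩ := hcon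
  obtain ⟨T, hTN, hT0⟩ := Submodule.exists_mem_ne_zero_of_ne_bot hbot
  -- affine coordinates of the nonzero torsion points
  have coords : ∀ R : Submodule.torsionBy ℤ (WQ⁄Qbar).Point (3 : ℕ), R ≠ 0 →
      ∃ x y h, (R : (WQ⁄Qbar).Point) = Affine.Point.some x y h ∧ (WQ⁄Qbar).Ψ₃.IsRoot x := by
    intro R hR
    cases hc : (R : (WQ⁄Qbar).Point) with
    | zero => exact absurd (Subtype.ext hc) hR
    | some x y h =>
      refine ⟨x, y, h, rfl, ?_⟩
      have h3 : (3 : ℕ) • (R : (WQ⁄Qbar).Point) = 0 := by
        have := R.2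
        rw [Submodule.mem_torsionBy_iff] at this
        rw [← natCast_zsmul]; exact_mod_cast this
      rw [hc, FLTAgent.EllTorsion.nsmul_some_eq_zero_iff_preΨ' (by decide), preΨ'_three] at h3
      exact h3
  obtain ⟨x, y, hxy, hT, hxroot⟩ := coords T hT0
  have h3Ψ : (WQ⁄Qbar).Ψ₃ ≠ 0 := fun h => by
    have := congrArg (fun p : Qbar[X] => p.coeff 4) h
    simp [WeierstrassCurve.coeff_Ψ₃] at this
  -- the `x`-coordinate of `T` is fixed by Galois
  have hfix : ∀ σ : Qbar ≃ₐ[ℚ] Qbar, σ x = x := by
    intro σ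
    by_contra hne
    apply htop
    have hU : σ • T ∈ N := hN σ T hTN
    set U := σ • T with hUdef
    have hUv : (U : (WQ⁄Qbar).Point) =
        Affine.Point.map σ.toAlgHom (T : (WQ⁄Qbar).Point) := rfl
    have tor : ∀ R : Submodule.torsionBy ℤ (WQ⁄Qbar).Point (3 : ℕ), R + R + R = 0 := by
      intro R
      apply Subtype.ext
      have := R.2
      rw [Submodule.mem_torsionBy_iff] at this
      have h3 : (3 : ℕ) • (R : (WQ⁄Qbar).Point) = 0 := by
        rw [← natCast_zsmul]; exact_mod_cast this
      rw [succ_nsmul, two_nsmul] at h3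
      simpa using h3
    rw [hT, Affine.Point.map_some] at hUv
    have hUne : U ≠ T ∧ U ≠ -T ∧ U ≠ 0 := by
      refine ⟨fun h => ?_, fun h => ?_, fun h => ?_⟩
      · have e := congrArg Subtype.val h
        rw [hUv, hT, Affine.Point.some.injEq] at e
        exact hne e.1
      · have e := congrArg Subtype.val h
        rw [hUv, Submodule.coe_neg, hT, Affine.Point.neg_some, Affine.Point.some.injEq] at e
        exact hne e.1
      · have e := congrArg Subtype.val h
        rw [hUv] at e
        exact Affine.Point.some_ne_zero _ e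
    obtain ⟨hUT, hUT', hU0⟩ := hUne
    -- four pairs of points inside `N`
    set L : List (Submodule.torsionBy ℤ (WQ⁄Qbar).Point (3 : ℕ)) := [T, U, T + U, T - U] with hL
    have hLN : ∀ R ∈ L, R ∈ N := by
      simp only [hL, List.mem_cons, List.not_mem_nil, or_false, forall_eq_or_imp, forall_eq]
      exact ⟨hTN, hU, N.add_mem hTN hU, N.sub_mem hTN hU⟩
    have t := tor T
    have u := tor U
    have hL0 : ∀ R ∈ L, R ≠ 0 := by
      simp only [hL, List.mem_cons, List.not_mem_nil, or_false, forall_eq_or_imp, forall_eq]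
      refine ⟨hT0, hU0, fun h => hUT' (eq_neg_of_add_eq_zero_right h), fun h => hUT ?_⟩
      exact (sub_eq_zero.1 h).symm
    choose! fx hfy hfh hfc hfr using coords
    have hdist : ∀ R R', R ≠ 0 → R' ≠ 0 → fx R = fx R' → R = R' ∨ R = -R' := by
      intro R R' hR hR' h
      rcases (Affine.Point.X_eq_iff (h₁ := hfh R hR) (h₂ := hfh R' hR')).1 h with e | e
      · left; apply Subtype.ext; rw [hfc R hR, hfc R' hR', e]
      · right; apply Subtype.ext; rw [Submodule.coe_neg, hfc R hR, hfc R' hR', e]
    have hnodup : (L.map fx).Nodup := by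
      have key : ∀ R R', R ∈ L → R' ∈ L → R ≠ R' → R ≠ -R' → fx R ≠ fx R' :=
        fun R R' hR hR' h1 h2 h => (hdist R R' (hL0 R hR) (hL0 R' hR') h).elim h1 h2
      simp only [hL, List.map_cons, List.map_nil, List.nodup_cons, List.mem_cons, List.not_mem_nil,
        or_false, not_or, not_false_eq_true, List.nodup_nil, and_true]
      have m1 : T ∈ L := by simp [hL]
      have m2 : U ∈ L := by simp [hL]
      have m3 : T + U ∈ L := by simp [hL]
      have m4 : T - U ∈ L := by simp [hL]
      refine ⟨⟨key _ _ m1 m2 (Ne.symm hUT) (fun h => hUT' (by rw [h, neg_neg])),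
        key _ _ m1 m3 (fun h => hU0 ?_) (fun h => hUT ?_),
        key _ _ m1 m4 (fun h => hU0 ?_) (fun h => hUT' ?_)⟩,
        ⟨key _ _ m2 m3 (fun h => hT0 ?_) (fun h => hUT ?_),
          key _ _ m2 m4 (fun h => hUT' ?_) (fun h => hT0 ?_)⟩,
        key _ _ m3 m4 (fun h => hU0 ?_) (fun h => hT0 ?_)⟩
      · linear_combination (norm := abel) -h
      · linear_combination (norm := abel) h - t
      · linear_combination (norm := abel) h
      · linear_combination (norm := abel) t - h
      · linear_combination (norm := abel) -h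
      · linear_combination (norm := abel) u - h
      · linear_combination (norm := abel) u - h
      · linear_combination (norm := abel) h
      · linear_combination (norm := abel) u - h
      · linear_combination (norm := abel) t - h
    have hsub : (L.map fx).toFinset ⊆ (WQ⁄Qbar).Ψ₃.roots.toFinset := by
      intro z hz
      rw [List.mem_toFinset, List.mem_map] at hz
      obtain ⟨R, hR, rfl⟩ := hz
      exact Multiset.mem_toFinset.2 ((mem_roots h3Ψ).2 (hfr R (hL0 R hR)))
    have heq : (L.map fx).toFinset = (WQ⁄Qbar).Ψ₃.roots.toFinset := by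
      refine Finset.eq_of_subset_of_card_le hsub ?_
      rw [List.toFinset_card_of_nodup hnodup]
      refine (Multiset.toFinset_card_le _).trans ((card_roots' _).trans ?_)
      simp [hL]
    refine eq_top_iff.2 fun R _ => ?_
    by_cases hR : R = 0
    · rw [hR]; exact N.zero_mem
    have hmem : fx R ∈ (L.map fx).toFinset := by
      rw [heq]; exact Multiset.mem_toFinset.2 ((mem_roots h3Ψ).2 (hfr R hR))
    rw [List.mem_toFinset, List.mem_map] at hmem
    obtain ⟨R', hR', he⟩ := hmem
    rcases hdist R R' hR (hL0 R' hR') he.symm with e | e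
    · rw [e]; exact hLN R' hR'
    · rw [e]; exact N.neg_mem (hLN R' hR')
  obtain ⟨q, hq⟩ := FLTAgent.GalCommon.exists_rat_of_fixed hfix
  have hψ : WQ.Ψ₃.eval q = 0 := by
    apply (algebraMap ℚ Qbar).injective
    rw [map_zero, ← hxroot.eq_zero, ← hq]
    show _ = (WQ.map (algebraMap ℚ Qbar)).Ψ₃.eval _
    rw [WQ.map_Ψ₃, eval_map, eval₂_at_apply]
  have := threeQuartic_eq_Ψ₃ WQ q
  rw [hψ, mul_zero, hWQ, map_c₄, map_c₆] at this
  obtain ⟨z, hz⟩ := exists_int_root_of_rat (by simpa using this)
  exact hno z hz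

end

end FLTAgent.Switch
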