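import Fermat.Agent.Switch.Model
import Fermat.Agent.Switch.Branches
import Fermat.Agent.Switch.ThreeTorsion

/-!
# Choice of the parameters of the switched curve

`exists_switchCurve`: some `switchCurve W a m` is nonsingular with irreducible mod `3`
representation. The direction `a` makes the quartic separable at infinity along a line not
through the origin, where it has no polynomial root (`threeQuartic_line_ne_zero`), and Hilbert
irreducibility gives an `m` without integer root.
-/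

set_option autoImplicit false

namespace FLTAgent.Switch

open Polynomial WeierstrassCurve

noncomputable section

theorem coeff_top_of_reflect {G r : ℂ[X]} {n : ℕ} (hG : G.natDegree ≤ n)
    (h : ∀ x : ℂ, x ≠ 0 → G.eval x = x ^ n * r.eval x⁻¹) : G.coeff n = r.eval 0 := by
  have e : r = G.reflect n := by
    apply Polynomial.eq_of_infinite_eval_eq
    refine Set.Infinite.mono ?_ (Set.Finite.infinite_compl (Set.finite_singleton (0 : ℂ)))
    intro y hy
    have hy0 : y ≠ 0 := hy
    have h1 := h y⁻¹ (inv_ne_zero hy0)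
    rw [eval_eq_pow_mul_reflect hG (inv_ne_zero hy0), inv_inv] at h1
    exact (mul_left_cancel₀ (pow_ne_zero _ (inv_ne_zero hy0)) h1).symm
  rw [e, ← coeff_zero_eq_eval_zero, coeff_reflect, revAt_le (Nat.zero_le n), Nat.sub_zero]

theorem eval_kH_line (p₀ p₁ q₀ q₁ x : ℂ) :
    (kH (C p₀ + X * C p₁) (C q₀ + X * C q₁)).eval x = kH (p₀ + x * p₁) (q₀ + x * q₁) := by
  rw [← coe_evalRingHom, map_kH]; simp only [coe_evalRingHom, eval_add, eval_mul, eval_C, eval_X]

theorem eval_kT_line (p₀ p₁ q₀ q₁ x : ℂ) :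
    (kT (C p₀ + X * C p₁) (C q₀ + X * C q₁)).eval x = kT (p₀ + x * p₁) (q₀ + x * q₁) := by
  rw [← coe_evalRingHom, map_kT]; simp only [coe_evalRingHom, eval_add, eval_mul, eval_C, eval_X]

theorem natDegree_C_add_X_mul_C (a b : ℂ) : (C a + X * C b).natDegree ≤ 1 := by compute_degree

theorem coeff_kH_line (p₀ p₁ q₀ q₁ : ℂ) :
    (kH (C p₀ + X * C p₁) (C q₀ + X * C q₁)).coeff 20 = kH p₁ q₁ := by
  rw [coeff_top_of_reflect (r := kH (C p₁ + X * C p₀) (C q₁ + X * C q₀))
    (natDegree_kH_le (natDegree_C_add_X_mul_C _ _) (natDegree_C_add_X_mul_C _ _)) (fun x hx => ?_)]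
  · rw [eval_kH_line]; simp
  · rw [eval_kH_line, eval_kH_line, ← kH_smul]
    congr 1 <;> field_simp <;> ring

theorem coeff_kT_line (p₀ p₁ q₀ q₁ : ℂ) :
    (kT (C p₀ + X * C p₁) (C q₀ + X * C q₁)).coeff 30 = kT p₁ q₁ := by
  rw [coeff_top_of_reflect (r := kT (C p₁ + X * C p₀) (C q₁ + X * C q₀))
    (natDegree_kT_le (natDegree_C_add_X_mul_C _ _) (natDegree_C_add_X_mul_C _ _)) (fun x hx => ?_)]
  · rw [eval_kT_line]; simp
  · rw [eval_kT_line, eval_kT_line, ← kT_smul]
    congr 1 <;> field_simp <;> ring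

theorem natDegree_of_threeQuartic_eq_zero {A B P : ℂ[X]} (hA : A.natDegree ≤ 20)
    (hB : B.natDegree ≤ 30) (h : threeQuartic A B P = 0) : P.natDegree ≤ 10 := by
  by_contra hc
  have e : P ^ 4 = 6 * A * P ^ 2 + 8 * B * P + 3 * A ^ 2 := by
    rw [threeQuartic] at h; linear_combination h
  have d1 : (6 * A * P ^ 2).natDegree ≤ 4 * P.natDegree - 1 := by
    refine natDegree_mul_le.trans ?_
    have := natDegree_pow_le (p := P) (n := 2)
    have := natDegree_mul_le (p := (6 : ℂ[X])) (q := A)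
    simp only [natDegree_ofNat] at *
    omega
  have d2 : (8 * B * P).natDegree ≤ 4 * P.natDegree - 1 := by
    refine natDegree_mul_le.trans ?_
    have := natDegree_mul_le (p := (8 : ℂ[X])) (q := B)
    simp only [natDegree_ofNat] at *
    omega
  have d3 : (3 * A ^ 2).natDegree ≤ 4 * P.natDegree - 1 := by
    refine natDegree_mul_le.trans ?_
    have := natDegree_pow_le (p := A) (n := 2)
    simp only [natDegree_ofNat] at *
    omega
  have hle : (P ^ 4).natDegree ≤ 4 * P.natDegree - 1 := by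
    rw [e]
    exact (natDegree_add_le _ _).trans (max_le ((natDegree_add_le _ _).trans (max_le d1 d2)) d3)
  rw [natDegree_pow] at hle
  omega

/-- The quartic has no polynomial root along a line not through the origin. -/
theorem threeQuartic_line_ne_zero {p₀ p₁ q₀ q₁ : ℂ} (hd : p₀ * q₁ - q₀ * p₁ ≠ 0) (P : ℂ[X]) :
    threeQuartic (kH (C p₀ + X * C p₁) (C q₀ + X * C q₁))
      (kT (C p₀ + X * C p₁) (C q₀ + X * C q₁)) P ≠ 0 := by
  intro hP
  have hP10 := natDegree_of_threeQuartic_eq_zero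
    (natDegree_kH_le (natDegree_C_add_X_mul_C _ _) (natDegree_C_add_X_mul_C _ _))
    (natDegree_kT_le (natDegree_C_add_X_mul_C _ _) (natDegree_C_add_X_mul_C _ _)) hP
  set d := p₀ * q₁ - q₀ * p₁ with hd'
  set σ : ℂ[X] := C (q₁ / d) * X + C (-p₁ / d) with hσ
  set τ : ℂ[X] := C (-q₀ / d) * X + C (p₀ / d) with hτ
  set R : ℂ[X] := ∑ i ∈ Finset.range 11, C (P.coeff i) * σ ^ (10 - i) * τ ^ i with hR
  have hσd : σ.natDegree ≤ 1 := by rw [hσ]; exact natDegree_linear_le
  have hτd : τ.natDegree ≤ 1 := by rw [hτ]; exact natDegree_linear_le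
  have hRd : R.natDegree ≤ 10 := by
    rw [hR]
    refine natDegree_sum_le_of_forall_le _ _ fun i hi => ?_
    have hi' : i ≤ 10 := Nat.lt_succ_iff.1 (Finset.mem_range.1 hi)
    calc _ ≤ (0 + (10 - i) * 1) + i * 1 :=
          natDegree_mul_le_of_le (natDegree_mul_le_of_le (natDegree_C _).le
            (natDegree_pow_le_of_le _ hσd)) (natDegree_pow_le_of_le _ hτd)
      _ ≤ 10 := by omega
  have hσ0 : σ ≠ 0 := by
    intro h
    have h1 := congrArg (fun f => coeff f 1) h
    have h0 := congrArg (fun f => coeff f 0) h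
    simp [hσ] at h1 h0
    have : q₁ = 0 := h1.resolve_right hd
    have : p₁ = 0 := h0.resolve_right hd
    exact hd (by rw [hd']; simp [*])
  refine no_poly_root hRd ?_
  have hmul : threeQuartic (kH (X : ℂ[X]) 1) (kT X 1) R * σ = 0 := by
    apply Polynomial.funext
    intro y
    rw [eval_mul, eval_zero]
    by_cases hs : σ.eval y = 0
    · rw [hs, mul_zero]
    refine mul_eq_zero_of_left ?_ _
    set x := τ.eval y / σ.eval y with hx
    have hRe : R.eval y = σ.eval y ^ 10 * P.eval x := by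
      rw [hR, eval_finsetSum, eval_eq_sum_range' (Nat.lt_succ_of_le hP10), Finset.mul_sum]
      refine Finset.sum_congr rfl fun i hi => ?_
      have hi' : i ≤ 10 := Nat.lt_succ_iff.1 (Finset.mem_range.1 hi)
      rw [eval_mul, eval_mul, eval_C, eval_pow, eval_pow, hx, div_pow]
      rw [← pow_sub_mul_pow (σ.eval y) hi']
      field_simp
    have eσ : σ.eval y = (q₁ * y - p₁) / d := by
      simp only [hσ, eval_add, eval_mul, eval_C, eval_X]; ring
    have eτ : τ.eval y = (p₀ - q₀ * y) / d := by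
      simp only [hτ, eval_add, eval_mul, eval_C, eval_X]; ring
    have eu : y = σ.eval y * (p₀ + x * p₁) := by
      rw [hx, mul_add, ← mul_assoc, mul_div_cancel₀ _ hs, eσ, eτ]
      field_simp
      rw [hd']; ring
    have ev : 1 = σ.eval y * (q₀ + x * q₁) := by
      rw [hx, mul_add, ← mul_assoc, mul_div_cancel₀ _ hs, eσ, eτ]
      field_simp
      rw [hd']; ring
    have hPx := congrArg (eval x) hP
    rw [← coe_evalRingHom, map_threeQuartic, coe_evalRingHom, eval_kH_line, eval_kT_line,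
      eval_zero] at hPx
    have hH : kH y 1 = σ.eval y ^ 20 * kH (p₀ + x * p₁) (q₀ + x * q₁) := by
      rw [← kH_smul, ← eu, ← ev]
    have hT : kT y 1 = σ.eval y ^ 30 * kT (p₀ + x * p₁) (q₀ + x * q₁) := by
      rw [← kT_smul, ← eu, ← ev]
    rw [← coe_evalRingHom, map_threeQuartic, map_kH, map_kT, map_one, coe_evalRingHom, eval_X, hRe,
      hH, hT, threeQuartic_smul, hPx, mul_zero]
  exact (mul_eq_zero.1 hmul).resolve_right hσ0

theorem kF_smul {R : Type*} [CommRing R] (c u v : R) : kF (c * u) (c * v) = c ^ 12 * kF u v := by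
  simp only [kF]; ring

theorem exists_direction (u v : ℂ) (hF : kF u v ≠ 0) :
    ∃ a : ℕ, kF ((a : ℂ) * u + kFv u v) ((a : ℂ) * v - kFu u v) ≠ 0 := by
  by_contra hall
  push Not at hall
  apply hF
  have hev : ∀ x, (kF (C u + X * C (kFv u v)) (C v - X * C (kFu u v))).eval x =
      kF (u + x * kFv u v) (v - x * kFu u v) := fun x => by
    rw [← coe_evalRingHom, map_kF]; simp only [coe_evalRingHom, eval_add, eval_sub, eval_mul, eval_C, eval_X]
  have h0 : kF (C u + X * C (kFv u v)) (C v - X * C (kFu u v)) = 0 := by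
    refine eq_zero_of_infinite_isRoot _ (Set.infinite_of_injective_forall_mem
      (f := fun a : ℕ => ((a + 1 : ℕ) : ℂ)⁻¹) (fun i j hij => ?_) fun a => ?_)
    · simpa using hij
    · show IsRoot _ _
      rw [IsRoot, hev]
      have ha : ((a + 1 : ℕ) : ℂ) ≠ 0 := Nat.cast_ne_zero.2 (by omega)
      have h := hall (a + 1)
      set c := ((a + 1 : ℕ) : ℂ) with hc
      rw [show c * u + kFv u v = c * (u + c⁻¹ * kFv u v) by field_simp,
        show c * v - kFu u v = c * (v - c⁻¹ * kFu u v) by field_simp, kF_smul] at h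
      exact (mul_eq_zero.1 h).resolve_left (pow_ne_zero _ ha)
  have := hev 0
  rw [h0] at this
  simpa using this.symm

/-- Some member of the family has irreducible mod `3` representation. -/
theorem exists_switchCurve (W : WeierstrassCurve ℤ) (hΔ : W.Δ ≠ 0) :
    ∃ a m : ℤ, (switchCurve W a m).Δ ≠ 0 ∧ (switchCurve W a m).ModRepIsIrreducible 3 := by
  have hAB : (W.c₄ : ℂ) ^ 3 ≠ (W.c₆ : ℂ) ^ 2 := by
    intro he
    have h : W.c₄ ^ 3 = W.c₆ ^ 2 := by exact_mod_cast he
    have := W.c_relation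
    rw [h, sub_self] at this
    exact hΔ (by simpa using this)
  obtain ⟨u, v, hu, hv⟩ := exists_klein_preimage (L := ℂ) (by norm_num) (by norm_num) hAB
  have hF : kF u v ≠ 0 := by
    intro hF
    have := kH_cube_sub_kT_sq u v
    rw [hu, hv, hF] at this
    exact hAB (by linear_combination this)
  obtain ⟨a, ha⟩ := exists_direction u v hF
  set K : ℂ := (Nat.factorial 30 : ℂ) * (switchN0 W : ℂ) with hK
  have hK0 : K ≠ 0 := by
    rw [hK]
    refine mul_ne_zero (Nat.cast_ne_zero.2 (Nat.factorial_ne_zero _)) (Int.cast_ne_zero.2 ?_)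
    exact mul_ne_zero (by norm_num) (mul_ne_zero
      (Int.natCast_ne_zero.2 (Nat.factorial_ne_zero _)) hΔ)
  set p₁ := K * ((a : ℂ) * u + kFv u v) with hp₁
  set q₁ := K * ((a : ℂ) * v - kFu u v) with hq₁
  set t : ℂ[X] := (Nat.factorial 30 : ℂ[X]) * C (switchN0 W : ℂ) * X with ht
  set s : ℂ[X] := 1 + C (a : ℂ) * t with hs
  set Ah : ℂ[X] := C (W.c₄ : ℂ) + C (switchN0 W : ℂ) *
    lineAlpha (C (W.c₄ : ℂ)) (C (W.c₆ : ℂ)) (C (switchN0 W : ℂ)) (C (a : ℂ)) X with hAh
  set Bh : ℂ[X] := C (W.c₆ : ℂ) + C (switchN0 W : ℂ) *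
    lineBeta (C (W.c₄ : ℂ)) (C (W.c₆ : ℂ)) (C (switchN0 W : ℂ)) (C (a : ℂ)) X with hBh
  have hCu : kH (C u) (C v) = C (W.c₄ : ℂ) := by rw [← map_kH, hu]
  have hCv : kT (C u) (C v) = C (W.c₆ : ℂ) := by rw [← map_kT, hv]
  have hp : s * C u + t * kFv (C u) (C v) = C u + X * C p₁ := by
    rw [← map_kFv, hp₁, hs, ht, hK]
    simp only [map_mul, map_add, map_natCast]; ring
  have hq : s * C v - t * kFu (C u) (C v) = C v + X * C q₁ := by
    rw [← map_kFu, hq₁, hs, ht, hK]
    simp only [map_mul, map_sub, map_natCast]; ring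
  obtain ⟨lH, lT⟩ := kH_kT_line (C u) (C v) s t
  rw [hp, hq, hCu, hCv] at lH lT
  have eA : Ah = kH (C u + X * C p₁) (C v + X * C q₁) := by
    refine mul_left_cancel₀ (b := Ah)
      (Nat.cast_ne_zero (R := ℂ[X]).2 (Nat.factorial_ne_zero 20)) ?_
    rw [lH, hAh, factorial_mul_lineAlpha]
  have eB : Bh = kT (C u + X * C p₁) (C v + X * C q₁) := by
    refine mul_left_cancel₀ (b := Bh)
      (Nat.cast_ne_zero (R := ℂ[X]).2 (Nat.factorial_ne_zero 30)) ?_
    rw [lT, hBh, factorial_mul_lineBeta]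
  have hd : u * q₁ - v * p₁ ≠ 0 := by
    rw [show u * q₁ - v * p₁ = -(K * (12 * kF u v)) by rw [hp₁, hq₁, ← euler_kF]; ring]
    exact neg_ne_zero.2 (mul_ne_zero hK0 (mul_ne_zero (by norm_num) hF))
  have hab : Ah.coeff 20 ^ 3 ≠ Bh.coeff 30 ^ 2 := by
    rw [eA, eB, coeff_kH_line, coeff_kT_line]
    intro he
    have := kH_cube_sub_kT_sq p₁ q₁
    rw [he, sub_self, hp₁, hq₁, kF_smul] at this
    simp [hK0, ha] at this
  obtain ⟨m, hm⟩ := exists_no_int_root Ah Bh
    (eA ▸ natDegree_kH_le (natDegree_C_add_X_mul_C _ _) (natDegree_C_add_X_mul_C _ _))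
    (eB ▸ natDegree_kT_le (natDegree_C_add_X_mul_C _ _) (natDegree_C_add_X_mul_C _ _)) hab
    (fun P => by rw [eA, eB]; exact threeQuartic_line_ne_zero hd P)
  have e4 : Ah.eval (m : ℂ) = ((switchCurve W a m).c₄ : ℂ) := by
    rw [switchCurve_c₄, hAh, ← coe_evalRingHom, map_add, map_mul, map_lineAlpha,
      ← eq_intCast (Int.castRingHom ℂ) (W.c₄ + _), map_add, map_mul, map_lineAlpha]
    simp
  have e6 : Bh.eval (m : ℂ) = ((switchCurve W a m).c₆ : ℂ) := by
    rw [switchCurve_c₆, hBh, ← coe_evalRingHom, map_add, map_mul, map_lineBeta,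
      ← eq_intCast (Int.castRingHom ℂ) (W.c₆ + _), map_add, map_mul, map_lineBeta]
    simp
  rw [e4, e6] at hm
  have hΔ' : (switchCurve W a m).Δ ≠ 0 := by
    intro h0
    have hr := (switchCurve W a m).c_relation
    rw [h0, mul_zero, eq_comm, sub_eq_zero] at hr
    by_cases h4 : (switchCurve W a m).c₄ = 0
    · rw [h4, zero_pow (by norm_num), eq_comm, pow_eq_zero_iff (by norm_num)] at hr
      exact hm 0 (by rw [h4, hr]; simp [threeQuartic])
    · generalize (switchCurve W a m).c₄ = A at hr h4 hm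
      generalize (switchCurve W a m).c₆ = B at hr hm
      obtain ⟨z, hz⟩ := exists_int_root_of_rat (A := A) (B := B) (q := 3 * (B : ℚ) / (A : ℚ)) (by
        have hA : (A : ℚ) ≠ 0 := Int.cast_ne_zero.2 h4
        have hr' : (A : ℚ) ^ 3 = (B : ℚ) ^ 2 := by exact_mod_cast hr
        rw [threeQuartic]
        field_simp
        linear_combination (-81 * (B : ℚ) ^ 2 - 3 * (A : ℚ) ^ 3) * hr')
      exact hm z hz
  exact ⟨a, m, hΔ', modRepIsIrreducible_three _ hΔ' hm⟩

end

end FLTAgent.Switch
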