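import Fermat.Agent.Switch.Basic

/-!
# Maps of points induced by a ring hom and a scaling `(x, y) ↦ (φ x / s², φ y / s³)`

`ScaleData` is such a datum compatible with two short Weierstrass curves; `ScaleData.hom` is the
induced homomorphism on points.
-/

set_option autoImplicit false

namespace FLTAgent.Switch

open WeierstrassCurve

noncomputable section

variable {F F' : Type*} [Field F] [Field F'] {A B : F} {A' B' : F'}

/-- A ring hom together with a scaling, compatible with two short Weierstrass curves. -/
structure ScaleData (A B : F) (A' B' : F') where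
  φ : F →+* F'
  s : F'
  s_ne : s ≠ 0
  two_ne : (2 : F) ≠ 0
  disc_ne : 4 * A ^ 3 + 27 * B ^ 2 ≠ 0
  hA : φ A = s ^ 4 * A'
  hB : φ B = s ^ 6 * B'

variable (d : ScaleData A B A' B')

include d

theorem ScaleData.disc_ne' : 4 * A' ^ 3 + 27 * B' ^ 2 ≠ 0 := by
  intro h
  apply (map_ne_zero d.φ).2 d.disc_ne
  rw [map_add, map_mul, map_mul, map_pow, map_pow, d.hA, d.hB, map_ofNat, map_ofNat,
    show 4 * (d.s ^ 4 * A') ^ 3 + 27 * (d.s ^ 6 * B') ^ 2 =
      d.s ^ 12 * (4 * A' ^ 3 + 27 * B' ^ 2) by ring, h, mul_zero]

theorem ScaleData.two_ne' : (2 : F') ≠ 0 := by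
  simpa [map_ofNat] using (map_ne_zero d.φ).2 d.two_ne

theorem ScaleData.nonsingular {x y : F} (h : (short A B).Nonsingular x y) :
    (short A' B').Nonsingular (d.φ x / d.s ^ 2) (d.φ y / d.s ^ 3) := by
  classical
  rw [short_nonsingular_iff d.two_ne' d.disc_ne']
  have e := congrArg d.φ ((short_equation _ _ _ _).1 h.left)
  simp only [map_add, map_mul, map_pow, d.hA, d.hB] at e
  have := d.s_ne
  field_simp
  linear_combination e

/-- The induced map on points. -/
def ScaleData.fn : (short A B).Point → (short A' B').Point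
  | .zero => 0
  | .some x y h => .some _ _ (d.nonsingular h)

theorem ScaleData.fn_some {x y : F} (h : (short A B).Nonsingular x y) :
    d.fn (.some x y h) = .some _ _ (d.nonsingular h) := rfl

variable [DecidableEq F] [DecidableEq F']

theorem ScaleData.fn_add (P Q : (short A B).Point) : d.fn (P + Q) = d.fn P + d.fn Q := by
  cases P with
  | zero => simp [← Affine.Point.zero_def, show d.fn 0 = 0 from rfl]
  | some x₁ y₁ h₁ =>
    cases Q with
    | zero => simp [← Affine.Point.zero_def, show d.fn 0 = 0 from rfl]
    | some x₂ y₂ h₂ =>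
      rw [d.fn_some, d.fn_some]
      have hs := d.s_ne
      by_cases hneg : x₁ = x₂ ∧ y₁ = (short A B).negY x₂ y₂
      · rw [Affine.Point.add_of_Y_eq hneg.1 hneg.2, show d.fn 0 = 0 from rfl,
          Affine.Point.add_of_Y_eq (by rw [hneg.1])]
        rw [hneg.2, short_negY, short_negY, map_neg, neg_div]
      · have hneg' : ¬(d.φ x₁ / d.s ^ 2 = d.φ x₂ / d.s ^ 2 ∧
            d.φ y₁ / d.s ^ 3 = (short A' B').negY (d.φ x₂ / d.s ^ 2) (d.φ y₂ / d.s ^ 3)) := by
          rintro ⟨hx, hy⟩
          rw [div_left_inj' (pow_ne_zero 2 hs)] at hx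
          rw [short_negY, ← neg_div, div_left_inj' (pow_ne_zero 3 hs), ← map_neg] at hy
          exact hneg ⟨d.φ.injective hx, by rw [short_negY]; exact d.φ.injective hy⟩
        rw [Affine.Point.add_some hneg, Affine.Point.add_some hneg', d.fn_some]
        have hl : (short A' B').slope (d.φ x₁ / d.s ^ 2) (d.φ x₂ / d.s ^ 2) (d.φ y₁ / d.s ^ 3)
            (d.φ y₂ / d.s ^ 3) = d.φ ((short A B).slope x₁ x₂ y₁ y₂) / d.s := by
          by_cases hx : x₁ = x₂
          · have hy : y₁ ≠ (short A B).negY x₂ y₂ := fun hy => hneg ⟨hx, hy⟩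
            have hyy : y₁ = y₂ := Affine.Y_eq_of_Y_ne h₁.left h₂.left hx hy
            subst hx hyy
            rw [Affine.slope_of_Y_ne rfl hy,
              Affine.slope_of_Y_ne rfl (fun h => hneg' ⟨rfl, h⟩)]
            simp only [short_negY, map_div₀, map_sub, map_add, map_mul, map_pow,
              map_ofNat, map_zero, d.hA, sub_neg_eq_add]
            have hy2 : d.φ y₁ + d.φ y₁ ≠ 0 := by
              intro h0
              rw [← map_add, map_eq_zero] at h0
              exact hy (by rw [short_negY]; linear_combination h0)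
            rw [show d.φ y₁ / d.s ^ 3 + d.φ y₁ / d.s ^ 3 = (d.φ y₁ + d.φ y₁) / d.s ^ 3 by ring]
            field_simp
            ring
          · rw [Affine.slope_of_X_ne hx, Affine.slope_of_X_ne (by
              rw [Ne, div_left_inj' (pow_ne_zero 2 hs)]; exact fun h => hx (d.φ.injective h))]
            have hd : d.φ x₁ - d.φ x₂ ≠ 0 :=
              sub_ne_zero.2 fun h => hx (d.φ.injective h)
            simp only [map_div₀, map_sub, ← sub_div]
            field_simp
        apply some_eq_some
        · simp only [short_addX, hl, map_sub, map_pow]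
          field_simp
        · simp only [short_addY, hl, map_sub, map_pow, map_add, map_mul, map_neg]
          field_simp

/-- The induced homomorphism on points. -/
def ScaleData.hom : (short A B).Point →+ (short A' B').Point :=
  AddMonoidHom.mk' d.fn d.fn_add

theorem ScaleData.hom_some {x y : F} (h : (short A B).Nonsingular x y) :
    d.hom (.some x y h) = .some _ _ (d.nonsingular h) := rfl

end

end FLTAgent.Switch
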