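import Fermat.Agent.Switch.Parallelogram
import Fermat.Agent.Switch.Scale

/-!
# Composition with a nonconstant point: pull-back homomorphisms and their effect on degrees

The degree of a composed coprime pair is the product of the degrees (`max_natDegree_homEval`,
`max_natDegree_subst`). A point of the twist over `k(x)` with nonconstant `x/D` gives a pull-back
homomorphism of points (`pullData`) multiplying `hdeg` by its own (`hdeg_pull`).
-/

set_option autoImplicit false

namespace FLTAgent.Switch

open Polynomial WeierstrassCurve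

noncomputable section

variable {k : Type*} [Field k]

/-- Homogenisation of `p` in degree `n`, evaluated at `(u, w)`. -/
def homEval {R : Type*} [CommRing R] (φ : k →+* R) (n : ℕ) (p : k[X]) (u w : R) : R :=
  ∑ i ∈ Finset.range (n + 1), φ (p.coeff i) * (u ^ i * w ^ (n - i))

theorem map_homEval {R S : Type*} [CommRing R] [CommRing S] (φ : k →+* R) (ψ : R →+* S) (n : ℕ)
    (p : k[X]) (u w : R) :
    ψ (homEval φ n p u w) = homEval (ψ.comp φ) n p (ψ u) (ψ w) := by
  simp [homEval, map_sum, map_mul, map_pow]

theorem homEval_eq_mul {L : Type*} [Field L] (φ : k →+* L) {n : ℕ} {p : k[X]}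
    (hp : p.natDegree ≤ n) {u w : L} (hw : w ≠ 0) :
    homEval φ n p u w = w ^ n * p.eval₂ φ (u / w) := by
  rw [eval₂_eq_sum_range' φ (Nat.lt_succ_of_le hp), Finset.mul_sum, homEval]
  refine Finset.sum_congr rfl fun i hi => ?_
  rw [Finset.mem_range, Nat.lt_succ_iff] at hi
  rw [show w ^ n = w ^ i * w ^ (n - i) by rw [← pow_add, Nat.add_sub_cancel' hi], div_pow]
  field_simp

theorem homEval_right_zero {R : Type*} [CommRing R] (φ : k →+* R) (n : ℕ) (p : k[X]) (u : R) :
    homEval φ n p u 0 = φ (p.coeff n) * u ^ n := by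
  rw [homEval, Finset.sum_eq_single n]
  · simp
  · intro i hi hne
    rw [Finset.mem_range, Nat.lt_succ_iff] at hi
    rw [zero_pow (by omega), mul_zero, mul_zero]
  · simp

theorem coeff_top_ne_zero {p r : k[X]} (h : IsCoprime p r) :
    p.coeff (max p.natDegree r.natDegree) ≠ 0 ∨ r.coeff (max p.natDegree r.natDegree) ≠ 0 := by
  by_cases hp : p = 0
  · subst hp
    have hu : IsUnit r := isCoprime_zero_left.1 h
    right
    rw [natDegree_zero, Nat.zero_max]
    exact leadingCoeff_ne_zero.2 hu.ne_zero
  by_cases hr : r = 0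
  · subst hr
    left
    rw [natDegree_zero, Nat.max_zero]
    exact leadingCoeff_ne_zero.2 hp
  rcases max_choice p.natDegree r.natDegree with hm | hm
  · left; rw [hm]; exact leadingCoeff_ne_zero.2 hp
  · right; rw [hm]; exact leadingCoeff_ne_zero.2 hr

/-- The homogenised forms of a coprime pair have no common zero. -/
theorem homEval_pair_ne_zero {L : Type*} [Field L] (φ : k →+* L) {p r : k[X]} (h : IsCoprime p r)
    {u w : L} (huw : u ≠ 0 ∨ w ≠ 0) :
    homEval φ (max p.natDegree r.natDegree) p u w ≠ 0 ∨
      homEval φ (max p.natDegree r.natDegree) r u w ≠ 0 := by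
  by_cases hw : w = 0
  · subst hw
    have hu : u ≠ 0 := huw.resolve_right (not_not.2 rfl)
    rw [homEval_right_zero, homEval_right_zero]
    rcases coeff_top_ne_zero h with hc | hc
    · exact Or.inl (mul_ne_zero ((map_ne_zero φ).2 hc) (pow_ne_zero _ hu))
    · exact Or.inr (mul_ne_zero ((map_ne_zero φ).2 hc) (pow_ne_zero _ hu))
  · rw [homEval_eq_mul φ (le_max_left _ _) hw, homEval_eq_mul φ (le_max_right _ _) hw]
    simp only [mul_ne_zero_iff, ne_eq, pow_eq_zero_iff', hw, false_and, not_false_eq_true, true_and]
    by_contra hall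
    push Not at hall
    obtain ⟨s, t, hst⟩ := h
    have := congrArg (eval₂ φ (u / w)) hst
    simp [hall.1, hall.2] at this

variable {p r u w : k[X]}

theorem isCoprime_homEval (h : IsCoprime p r) (hu : IsCoprime u w) :
    IsCoprime (homEval C (max p.natDegree r.natDegree) p u w)
      (homEval C (max p.natDegree r.natDegree) r u w) := by
  by_contra hn
  have : Ideal.span {homEval C (max p.natDegree r.natDegree) p u w,
      homEval C (max p.natDegree r.natDegree) r u w} ≠ ⊤ := by
    intro htop
    apply hn
    obtain ⟨s, t, hst⟩ := Ideal.mem_span_pair.1 ((Ideal.eq_top_iff_one _).1 htop)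
    exact ⟨s, t, hst⟩
  obtain ⟨M, hM, hle⟩ := Ideal.exists_le_maximal _ this
  have := hM
  let _ : Field (k[X] ⧸ M) := Ideal.Quotient.field M
  set π : k[X] →+* k[X] ⧸ M := Ideal.Quotient.mk M
  have hne : π u ≠ 0 ∨ π w ≠ 0 := by
    by_contra hall
    push Not at hall
    obtain ⟨s, t, hst⟩ := hu
    have := congrArg π hst
    simp [hall.1, hall.2] at this
  rcases homEval_pair_ne_zero (π.comp C) h hne with hh | hh <;> rw [← map_homEval] at hh <;>
    apply hh <;> rw [Ideal.Quotient.eq_zero_iff_mem] <;> apply hle <;> apply Ideal.subset_span <;>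
    simp

theorem natDegree_term_le {d n i : ℕ} (hu : u.natDegree ≤ d) (hw : w.natDegree ≤ d) (hi : i ≤ n) :
    (u ^ i * w ^ (n - i)).natDegree ≤ n * d := by
  have h1 : (u ^ i).natDegree ≤ i * d := natDegree_pow_le_of_le i hu
  have h2 : (w ^ (n - i)).natDegree ≤ (n - i) * d := natDegree_pow_le_of_le (n - i) hw
  refine natDegree_mul_le.trans ((add_le_add h1 h2).trans ?_)
  rw [← add_mul, Nat.add_sub_cancel' hi]

theorem natDegree_homEval_le {d n : ℕ} (hu : u.natDegree ≤ d) (hw : w.natDegree ≤ d) (p : k[X]) :
    (homEval C n p u w).natDegree ≤ n * d := by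
  refine natDegree_sum_le_of_forall_le _ _ fun i hi => ?_
  rw [Finset.mem_range, Nat.lt_succ_iff] at hi
  exact (natDegree_C_mul_le _ _).trans (natDegree_term_le hu hw hi)

theorem coeff_homEval {d n : ℕ} (hu : u.natDegree ≤ d) (hw : w.natDegree ≤ d) (p : k[X]) :
    (homEval C n p u w).coeff (n * d) = homEval (RingHom.id k) n p (u.coeff d) (w.coeff d) := by
  simp only [homEval, finsetSum_coeff, coeff_C_mul, RingHom.id_apply]
  refine Finset.sum_congr rfl fun i hi => ?_
  rw [Finset.mem_range, Nat.lt_succ_iff] at hi
  congr 1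
  rw [show n * d = i * d + (n - i) * d by rw [← add_mul, Nat.add_sub_cancel' hi],
    coeff_mul_add_eq_of_natDegree_le (natDegree_pow_le_of_le i hu)
      (natDegree_pow_le_of_le (n - i) hw),
    coeff_pow_of_natDegree_le hu, coeff_pow_of_natDegree_le hw]

/-- The degree of a composed pair is the product of the degrees. -/
theorem max_natDegree_homEval (h : IsCoprime p r) (hu : IsCoprime u w) :
    max (homEval C (max p.natDegree r.natDegree) p u w).natDegree
      (homEval C (max p.natDegree r.natDegree) r u w).natDegree =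
    max p.natDegree r.natDegree * max u.natDegree w.natDegree := by
  set n := max p.natDegree r.natDegree
  set d := max u.natDegree w.natDegree with hd
  refine le_antisymm (max_le (natDegree_homEval_le (le_max_left _ _) (le_max_right _ _) p)
    (natDegree_homEval_le (le_max_left _ _) (le_max_right _ _) r)) ?_
  rcases homEval_pair_ne_zero (RingHom.id k) h (coeff_top_ne_zero hu) with hh | hh <;>
    rw [← coeff_homEval (le_max_left _ _) (le_max_right _ _)] at hh
  · exact le_max_of_le_left (le_natDegree_of_ne_zero hh)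
  · exact le_max_of_le_right (le_natDegree_of_ne_zero hh)

/-- The degree of a rational function read from any coprime representation. -/
theorem max_natDegree_num_denom {x : RatFunc k} {p r : k[X]} (hr : r ≠ 0) (h : IsCoprime p r)
    (hx : x = algebraMap k[X] (RatFunc k) p / algebraMap k[X] (RatFunc k) r) :
    max x.num.natDegree x.denom.natDegree = max p.natDegree r.natDegree := by
  have heq : x.num * r = p * x.denom := by
    apply RatFunc.algebraMap_injective k
    rw [map_mul, map_mul]
    have := RatFunc.num_div_denom x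
    rw [div_eq_iff (RatFunc.algebraMap_ne_zero (RatFunc.denom_ne_zero x))] at this
    rw [this, hx]
    field_simp [RatFunc.algebraMap_ne_zero hr]
  have hd : x.denom ≠ 0 := RatFunc.denom_ne_zero x
  have h1 : r ∣ x.denom := h.symm.dvd_of_dvd_mul_left (Dvd.intro_left x.num heq)
  have h2 : x.denom ∣ r :=
    (RatFunc.isCoprime_num_denom x).symm.dvd_of_dvd_mul_left (Dvd.intro_left p heq.symm)
  have hrd : x.denom.natDegree = r.natDegree :=
    le_antisymm (natDegree_le_of_dvd h2 hr) (natDegree_le_of_dvd h1 hd)
  by_cases hp : p = 0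
  · have hn : x.num = 0 := by simpa [hp, hr] using heq
    simp [hp, hn, hrd]
  · have hn : x.num ≠ 0 := fun hn => hp (by simpa [hn, hd] using heq.symm)
    have := congrArg natDegree heq
    rw [natDegree_mul hn hr, natDegree_mul hp hd, hrd] at this
    rw [hrd]; congr 1; omega

/-- A nonconstant rational function is transcendental. -/
theorem transcendental_of_deg_pos {R : RatFunc k} (h : 0 < max R.num.natDegree R.denom.natDegree) :
    Function.Injective (aeval (R := k) R) := by
  rw [injective_iff_map_eq_zero]
  intro g hg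
  by_contra hg0
  have halg : IsAlgebraic k R := ⟨g, hg0, hg⟩
  have hint : IsIntegral k R := halg.isIntegral
  obtain ⟨p, hp⟩ := IsIntegrallyClosed.algebraMap_eq_of_integral (R := k[X]) (hint.tower_top (A := k[X]))
  subst hp
  rw [RatFunc.num_algebraMap, RatFunc.denom_algebraMap, natDegree_one, Nat.max_zero] at h
  rw [aeval_algebraMap_apply, map_eq_zero_iff _ (RatFunc.algebraMap_injective k),
    ← comp_eq_aeval, comp_eq_zero_iff] at hg
  rcases hg with hg | ⟨-, hg⟩
  · exact hg0 hg
  · rw [hg, natDegree_C] at h
    exact lt_irrefl 0 h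

/-- Substitution `x ↦ R`. -/
def subst (R : RatFunc k) (h : Function.Injective (aeval (R := k) R)) : RatFunc k →+* RatFunc k :=
  RatFunc.liftRingHom (aeval R).toRingHom
    (nonZeroDivisors_le_comap_nonZeroDivisors_of_injective _ h)

theorem subst_algebraMap {R : RatFunc k} (h : Function.Injective (aeval (R := k) R)) (p : k[X]) :
    subst R h (algebraMap k[X] (RatFunc k) p) = aeval R p := by
  simp [subst]

theorem subst_C {R : RatFunc k} (h : Function.Injective (aeval (R := k) R)) (c : k) :
    subst R h (RatFunc.C c) = RatFunc.C c := by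
  rw [← RatFunc.algebraMap_C, subst_algebraMap, aeval_C]
  simp [RatFunc.algebraMap_C]

theorem ratFunc_ringHom_ext {L : Type*} [Field L] {f g : RatFunc k →+* L}
    (hC : ∀ c, f (RatFunc.C c) = g (RatFunc.C c)) (hX : f RatFunc.X = g RatFunc.X) : f = g := by
  refine RingHom.ext fun x => ?_
  have hp : ∀ p : k[X], f (algebraMap k[X] (RatFunc k) p) = g (algebraMap k[X] (RatFunc k) p) := by
    intro p
    induction p using Polynomial.induction_on' with
    | add p q hp hq => simp [map_add, hp, hq]
    | monomial n c => simp [← C_mul_X_pow_eq_monomial, map_mul, map_pow, hC, hX]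
  rw [← RatFunc.num_div_denom x, map_div₀, map_div₀, hp, hp]

/-- Degree of a composition. -/
theorem max_natDegree_subst {R x : RatFunc k} (h : Function.Injective (aeval (R := k) R)) :
    max (subst R h x).num.natDegree (subst R h x).denom.natDegree =
      max x.num.natDegree x.denom.natDegree * max R.num.natDegree R.denom.natDegree := by
  set n := max x.num.natDegree x.denom.natDegree with hn
  have hco := RatFunc.isCoprime_num_denom x
  have hcoR := RatFunc.isCoprime_num_denom R
  rw [← max_natDegree_homEval hco hcoR]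
  have hdR : algebraMap k[X] (RatFunc k) R.denom ≠ 0 :=
    RatFunc.algebraMap_ne_zero (RatFunc.denom_ne_zero R)
  have key : ∀ p : k[X], p.natDegree ≤ n → algebraMap k[X] (RatFunc k) (homEval C n p R.num R.denom) =
      algebraMap k[X] (RatFunc k) R.denom ^ n * aeval R p := by
    intro p hp
    rw [map_homEval, homEval_eq_mul _ hp hdR, RatFunc.num_div_denom, aeval_def]
    rfl
  have hd : homEval C n x.denom R.num R.denom ≠ 0 := by
    intro h0
    have := key x.denom (le_max_right _ _)
    rw [h0, map_zero, eq_comm, mul_eq_zero] at this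
    rcases this with h1 | h1
    · exact hdR (pow_eq_zero_iff'.1 h1).1
    · exact RatFunc.denom_ne_zero x (h (by rw [h1, map_zero]))
  refine max_natDegree_num_denom hd (isCoprime_homEval hco hcoR) ?_
  rw [key _ (le_max_left _ _), key _ (le_max_right _ _),
    mul_div_mul_left _ _ (pow_ne_zero n hdR), ← subst_algebraMap h, ← subst_algebraMap h, ← map_div₀,
    RatFunc.num_div_denom]

/-- The polynomial `X³ + a X + b`. -/
def cubic (a b : k) : k[X] := Polynomial.X ^ 3 + Polynomial.C a * Polynomial.X + Polynomial.C b

theorem natDegree_cubic (a b : k) : (cubic a b).natDegree = 3 := by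
  rw [cubic]; compute_degree!

theorem monic_cubic (a b : k) : (cubic a b).Monic := by
  rw [cubic]; monicity!

theorem cubic_ne_zero (a b : k) : cubic a b ≠ 0 := (monic_cubic a b).ne_zero

/-- The twisting factor `D = X³ + a X + b ∈ k(X)`. -/
def twistBy (a b : k) : RatFunc k := algebraMap k[X] (RatFunc k) (cubic a b)

theorem twistBy_ne_zero (a b : k) : twistBy a b ≠ 0 :=
  RatFunc.algebraMap_ne_zero (cubic_ne_zero a b)

theorem twistBy_eq (a b : k) :
    twistBy a b = RatFunc.X ^ 3 + RatFunc.C a * RatFunc.X + RatFunc.C b := by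
  simp [twistBy, cubic, RatFunc.algebraMap_C, RatFunc.algebraMap_X]

/-- Points on `Y² = X³ + a D² X + b D³` over `k(x)`, `D = x³ + a x + b`. -/
abbrev TwistPoint (a b : k) : Type _ := (twist a b (twistBy a b)).Point

section Pull

variable {a b : k} [DecidableEq (RatFunc k)]

theorem subst_X {R : RatFunc k} (h : Function.Injective (aeval (R := k) R)) :
    subst R h RatFunc.X = R := by
  rw [← RatFunc.algebraMap_X, subst_algebraMap, aeval_X]

theorem subst_twistBy {XQ YQ : RatFunc k}
    (hQ : (twist a b (twistBy a b)).Equation XQ YQ)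
    (h : Function.Injective (aeval (R := k) (XQ / twistBy a b))) :
    subst (XQ / twistBy a b) h (twistBy a b) =
      twistBy a b * (YQ / twistBy a b ^ 2) ^ 2 := by
  have hD := twistBy_ne_zero a b
  have e := (short_equation _ _ _ _).1 hQ
  rw [congrArg (subst (XQ / twistBy a b) h) (twistBy_eq a b), map_add, map_add, map_mul, map_pow,
    subst_X, subst_C, subst_C]
  field_simp
  linear_combination -e

theorem injective_of_hdeg_pos {XQ YQ : RatFunc k}
    (hQ : (twist a b (twistBy a b)).Nonsingular XQ YQ)
    (h : 0 < hdeg (Affine.Point.some XQ YQ hQ : TwistPoint a b)) :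
    Function.Injective (aeval (R := k) (XQ / twistBy a b)) :=
  transcendental_of_deg_pos h

theorem y_ne_zero_of_hdeg_pos {XQ YQ : RatFunc k}
    (hQ : (twist a b (twistBy a b)).Nonsingular XQ YQ)
    (h : 0 < hdeg (Affine.Point.some XQ YQ hQ : TwistPoint a b)) : YQ ≠ 0 := by
  intro hy
  have hD := twistBy_ne_zero a b
  have hi := injective_of_hdeg_pos hQ h
  have e := subst_twistBy hQ.left hi
  rw [hy, zero_div, zero_pow two_ne_zero, mul_zero, map_eq_zero] at e
  exact hD e

variable (hd : 4 * a ^ 3 + 27 * b ^ 2 ≠ 0) (h2 : (2 : k) ≠ 0)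

/-- Pull-back along a point with nonconstant `x/D`. -/
def pullData {XQ YQ : RatFunc k} (hQ : (twist a b (twistBy a b)).Nonsingular XQ YQ)
    (h : 0 < hdeg (Affine.Point.some XQ YQ hQ : TwistPoint a b)) :
    ScaleData (RatFunc.C a * twistBy a b ^ 2) (RatFunc.C b * twistBy a b ^ 3)
      (RatFunc.C a * twistBy a b ^ 2) (RatFunc.C b * twistBy a b ^ 3) where
  φ := subst _ (injective_of_hdeg_pos hQ h)
  s := YQ / twistBy a b ^ 2
  s_ne := div_ne_zero (y_ne_zero_of_hdeg_pos hQ h) (pow_ne_zero 2 (twistBy_ne_zero a b))
  two_ne := two_ne_zero_ratFunc h2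
  disc_ne := by
    rw [show 4 * (RatFunc.C a * twistBy a b ^ 2) ^ 3 + 27 * (RatFunc.C b * twistBy a b ^ 3) ^ 2 =
      (4 * RatFunc.C a ^ 3 + 27 * RatFunc.C b ^ 2) * twistBy a b ^ 6 by ring]
    exact mul_ne_zero (disc_ne_zero_ratFunc hd) (pow_ne_zero 6 (twistBy_ne_zero a b))
  hA := by rw [map_mul, map_pow, subst_C, subst_twistBy hQ.left]; ring
  hB := by rw [map_mul, map_pow, subst_C, subst_twistBy hQ.left]; ring

theorem hdeg_pull {XQ YQ : RatFunc k} (hQ : (twist a b (twistBy a b)).Nonsingular XQ YQ)
    (h : 0 < hdeg (Affine.Point.some XQ YQ hQ : TwistPoint a b)) (P : TwistPoint a b) :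
    hdeg ((pullData hd h2 hQ h).hom P : TwistPoint a b) =
      hdeg P * hdeg (Affine.Point.some XQ YQ hQ : TwistPoint a b) := by
  cases P with
  | zero => simp [← Affine.Point.zero_def]
  | some X Y hP =>
    have hD := twistBy_ne_zero a b
    have hy := y_ne_zero_of_hdeg_pos hQ h
    rw [ScaleData.hom_some]
    simp only [hdeg, polyPair]
    rw [show (pullData hd h2 hQ h).φ X / (pullData hd h2 hQ h).s ^ 2 / twistBy a b =
        subst _ (injective_of_hdeg_pos hQ h) (X / twistBy a b) by
      rw [map_div₀, subst_twistBy hQ.left]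
      simp only [pullData]
      field_simp]
    exact max_natDegree_subst _

end Pull

end

end FLTAgent.Switch
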