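import Fermat.Agent.Switch.Klein

/-!
# The forms along the line `w + t·J∇f(w)`

`kH` and `kT` restricted to the line through `w` in the direction `(f_v, -f_u)` have coefficients in
`ℤ[kH w, kT w]` (up to factorials).

Main declarations: `coeffH`, `coeffT`, `kH_kT_line`.
-/

set_option autoImplicit false

namespace FLTAgent.Switch

open MvPolynomial

noncomputable section

/-- `ℤ[u, v, t]`. -/
abbrev LineRing : Type := MvPolynomial (Fin 3) ℤ

local notation "Uv" => (X 0 : LineRing)
local notation "Vv" => (X 1 : LineRing)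
local notation "Tv" => (X 2 : LineRing)

/-- The derivation `f_v ∂/∂u - f_u ∂/∂v`. -/
def lineDer : Derivation ℤ LineRing LineRing :=
  kFv Uv Vv • pderiv (0 : Fin 3) + (-kFu Uv Vv) • pderiv (1 : Fin 3)

theorem lineDer_U : lineDer Uv = kFv Uv Vv := by
  simp [lineDer]

theorem lineDer_V : lineDer Vv = -kFu Uv Vv := by
  simp [lineDer]

theorem lineDer_T : lineDer Tv = 0 := by
  simp [lineDer]

theorem der_ofNat (E : Derivation ℤ LineRing LineRing) (n : ℕ) [n.AtLeastTwo] :
    E (no_index (OfNat.ofNat n) : LineRing) = 0 := by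
  rw [← Nat.cast_ofNat (R := LineRing), Derivation.map_natCast]

theorem der_kFv (E : Derivation ℤ LineRing LineRing) (a b : LineRing) :
    E (kFv a b) = (11 * a ^ 10 + 396 * a ^ 5 * b ^ 5 - 11 * b ^ 10) * E a
      + (330 * a ^ 6 * b ^ 4 - 110 * a * b ^ 9) * E b := by
  simp only [kFv, map_add, map_sub, Derivation.leibniz, Derivation.leibniz_pow, smul_eq_mul,
    nsmul_eq_mul, der_ofNat]
  push_cast
  ring

theorem der_kFu (E : Derivation ℤ LineRing LineRing) (a b : LineRing) :
    E (kFu a b) = (110 * a ^ 9 * b + 330 * a ^ 4 * b ^ 6) * E a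
      + (11 * a ^ 10 + 396 * a ^ 5 * b ^ 5 - 11 * b ^ 10) * E b := by
  simp only [kFu, map_add, map_sub, Derivation.leibniz, Derivation.leibniz_pow, smul_eq_mul,
    nsmul_eq_mul, der_ofNat]
  push_cast
  ring

theorem lineDer_kFv : lineDer (kFv Uv Vv) = 11 * kH Uv Vv * Uv := by
  rw [der_kFv, lineDer_U, lineDer_V]
  simp only [kFu, kFv, kH, kH5]
  ring

theorem lineDer_kFu : lineDer (kFu Uv Vv) = -(11 * kH Uv Vv * Vv) := by
  rw [der_kFu, lineDer_U, lineDer_V]
  simp only [kFu, kFv, kH, kH5]
  ring

/-- A binary form with its formal partial derivatives and degree. -/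
structure LineForm where
  form : LineRing → LineRing → LineRing
  du : LineRing → LineRing → LineRing
  dv : LineRing → LineRing → LineRing
  deg : ℕ
  chain : ∀ (E : Derivation ℤ LineRing LineRing) (a b : LineRing),
    E (form a b) = du a b * E a + dv a b * E b
  euler : ∀ a b, a * du a b + b * dv a b = deg * form a b

/-- `kH` as a `LineForm`. -/
def formH : LineForm where
  form := kH
  du a b := 20 * a ^ 19 - 3420 * a ^ 14 * b ^ 5 + 4940 * a ^ 9 * b ^ 10 + 1140 * a ^ 4 * b ^ 15
  dv a b := -1140 * a ^ 15 * b ^ 4 + 4940 * a ^ 10 * b ^ 9 + 3420 * a ^ 5 * b ^ 14 + 20 * b ^ 19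
  deg := 20
  chain E a b := by
    simp only [kH, kH5, map_add, map_sub, Derivation.leibniz, Derivation.leibniz_pow, smul_eq_mul,
      nsmul_eq_mul, der_ofNat]
    push_cast
    ring
  euler a b := by
    simp only [kH, kH5]
    push_cast
    ring

/-- `kT` as a `LineForm`. -/
def formT : LineForm where
  form := kT
  du a b := -(30 * a ^ 29 + 13050 * a ^ 24 * b ^ 5 - 2610 * a ^ 4 * b ^ 25
    - 200100 * a ^ 19 * b ^ 10 - 100050 * a ^ 9 * b ^ 20)
  dv a b := -(30 * b ^ 29 + 2610 * a ^ 25 * b ^ 4 - 13050 * a ^ 5 * b ^ 24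
    - 100050 * a ^ 20 * b ^ 9 - 200100 * a ^ 10 * b ^ 19)
  deg := 30
  chain E a b := by
    simp only [kT, kT5, map_add, map_sub, map_neg, Derivation.leibniz, Derivation.leibniz_pow,
      smul_eq_mul, nsmul_eq_mul, der_ofNat]
    push_cast
    ring
  euler a b := by
    simp only [kT, kT5]
    push_cast
    ring

theorem lineDer_kH : lineDer (kH Uv Vv) = -20 * kT Uv Vv := by
  rw [show kH Uv Vv = formH.form Uv Vv from rfl, formH.chain, lineDer_U, lineDer_V]
  simp only [formH, kFu, kFv, kT, kT5]
  ring

theorem lineDer_kT : lineDer (kT Uv Vv) = -30 * kH Uv Vv ^ 2 := by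
  rw [show kT Uv Vv = formT.form Uv Vv from rfl, formT.chain, lineDer_U, lineDer_V]
  simp only [formT, kFu, kFv, kH, kH5]
  ring

theorem pderiv_two_const :
    pderiv (2 : Fin 3) Uv = 0 ∧ pderiv (2 : Fin 3) Vv = 0 ∧ pderiv (2 : Fin 3) Tv = 1 := by
  refine ⟨?_, ?_, ?_⟩ <;> simp

theorem pderiv_two_kH : pderiv (2 : Fin 3) (kH Uv Vv) = 0 := by
  rw [show kH Uv Vv = formH.form Uv Vv from rfl, formH.chain, pderiv_two_const.1,
    pderiv_two_const.2.1, mul_zero, mul_zero, add_zero]

theorem pderiv_two_kFu : pderiv (2 : Fin 3) (kFu Uv Vv) = 0 := by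
  rw [der_kFu, pderiv_two_const.1, pderiv_two_const.2.1, mul_zero, mul_zero, add_zero]

theorem pderiv_two_kFv : pderiv (2 : Fin 3) (kFv Uv Vv) = 0 := by
  rw [der_kFv, pderiv_two_const.1, pderiv_two_const.2.1, mul_zero, mul_zero, add_zero]

theorem pderiv_pderiv_comm (i j : Fin 3) (p : LineRing) :
    pderiv i (pderiv j p) = pderiv j (pderiv i p) := by
  induction p using MvPolynomial.induction_on with
  | C a => simp
  | add p q hp hq => simp [hp, hq]
  | mul_X p n hp =>
    simp only [Derivation.leibniz, smul_eq_mul, map_add]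
    have h0 : ∀ a b c : Fin 3, pderiv a (pderiv b (X c : LineRing)) = 0 := fun a b c => by
      rcases eq_or_ne c b with rfl | hcb
      · simp
      · simp [pderiv_X_of_ne hcb]
    rw [hp, h0, h0]
    ring

theorem pderiv_two_lineDer (p : LineRing) :
    pderiv (2 : Fin 3) (lineDer p) = lineDer (pderiv (2 : Fin 3) p) := by
  simp only [lineDer, Derivation.add_apply, Derivation.smul_apply, smul_eq_mul, map_add,
    Derivation.leibniz, map_neg, pderiv_two_kFu, pderiv_two_kFv, neg_zero, mul_zero, add_zero]
  rw [pderiv_pderiv_comm 2 0, pderiv_pderiv_comm 2 1]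

variable (Φ : LineForm)

/-- The form on the line `w + t·J∇f(w)`. -/
def lineG : LineRing := Φ.form (Uv + Tv * kFv Uv Vv) (Vv - Tv * kFu Uv Vv)

/-- The differential equation satisfied by the restriction. -/
theorem lineDer_lineG :
    lineDer (lineG Φ) = pderiv (2 : Fin 3) (lineG Φ) +
      11 * kH Uv Vv * Tv * ((Φ.deg : LineRing) * lineG Φ - Tv * pderiv (2 : Fin 3) (lineG Φ)) := by
  simp only [lineG, Φ.chain]
  simp only [map_add, map_sub, Derivation.leibniz, smul_eq_mul, lineDer_U, lineDer_V, lineDer_T,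
    lineDer_kFu, lineDer_kFv, pderiv_two_kFu, pderiv_two_kFv, pderiv_two_const.1,
    pderiv_two_const.2.1, pderiv_two_const.2.2]
  linear_combination (11 * kH Uv Vv * Tv) *
    Φ.euler (Uv + Tv * kFv Uv Vv) (Vv - Tv * kFu Uv Vv)

/-- Iterated `t`-derivatives of the restriction. -/
def lineGk (k : ℕ) : LineRing := (pderiv (2 : Fin 3))^[k] (lineG Φ)

theorem lineGk_succ (k : ℕ) : lineGk Φ (k + 1) = pderiv (2 : Fin 3) (lineGk Φ k) :=
  Function.iterate_succ_apply' _ _ _

theorem lineDer_lineGk (k : ℕ) :
    lineDer (lineGk Φ k) = lineGk Φ (k + 1) + 11 * kH Uv Vv *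
      (Tv * ((Φ.deg : LineRing) - 2 * (k : LineRing)) * lineGk Φ k - Tv ^ 2 * lineGk Φ (k + 1) +
        (k : LineRing) * ((Φ.deg : LineRing) + 1 - k) * lineGk Φ (k - 1)) := by
  induction k with
  | zero =>
    simp only [lineGk, Function.iterate_zero, id_eq, zero_add, Function.iterate_one, Nat.cast_zero]
    rw [lineDer_lineG]
    ring
  | succ k ih =>
    have h := congrArg (pderiv (2 : Fin 3)) ih
    rw [pderiv_two_lineDer, ← lineGk_succ] at h
    rw [h]
    simp only [map_add, map_sub, Derivation.leibniz, Derivation.leibniz_pow, smul_eq_mul,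
      nsmul_eq_mul, ← lineGk_succ, pderiv_two_kH, pderiv_two_const.2.2, Derivation.map_natCast,
      Derivation.map_one_eq_zero, der_ofNat]
    rcases Nat.eq_zero_or_pos k with rfl | hk
    · simp only [Nat.zero_sub, Nat.cast_zero, Nat.cast_one, zero_add]
      push_cast
      ring
    · rw [Nat.add_sub_cancel, show k - 1 + 1 = k from Nat.sub_add_cancel hk]
      push_cast
      ring

/-- Setting `t = 0`. -/
def atZero : LineRing →ₐ[ℤ] LineRing := aeval ![Uv, Vv, 0]

theorem atZero_U : atZero Uv = Uv := by simp [atZero]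

theorem atZero_V : atZero Vv = Vv := by simp [atZero]

theorem atZero_T : atZero Tv = 0 := by simp [atZero]

theorem atZero_kH : atZero (kH Uv Vv) = kH Uv Vv :=
  (map_kH atZero.toRingHom Uv Vv).trans (by simp [atZero_U, atZero_V])

theorem atZero_lineDer (p : LineRing) : atZero (lineDer p) = lineDer (atZero p) := by
  induction p using MvPolynomial.induction_on with
  | C a => simp
  | add p q hp hq => simp [hp, hq]
  | mul_X p n hp =>
    rw [Derivation.leibniz, map_mul, Derivation.leibniz]
    simp only [smul_eq_mul, map_add, map_mul, hp]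
    have hn : atZero (lineDer (X n : LineRing)) = lineDer (atZero (X n : LineRing)) := by
      fin_cases n
      · show atZero (lineDer Uv) = lineDer (atZero Uv)
        rw [lineDer_U, atZero_U, lineDer_U]
        exact (map_kFv atZero.toRingHom Uv Vv).trans (by simp [atZero_U, atZero_V])
      · show atZero (lineDer Vv) = lineDer (atZero Vv)
        rw [lineDer_V, atZero_V, lineDer_V, map_neg]
        exact congrArg Neg.neg
          ((map_kFu atZero.toRingHom Uv Vv).trans (by simp [atZero_U, atZero_V]))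
      · show atZero (lineDer Tv) = lineDer (atZero Tv)
        rw [lineDer_T, atZero_T, map_zero, map_zero]
    rw [hn]

/-- `k! ·` (`k`-th coefficient). -/
def lineP (k : ℕ) : LineRing := atZero (lineGk Φ k)

theorem lineP_succ (k : ℕ) :
    lineP Φ (k + 1) = lineDer (lineP Φ k) -
      11 * kH Uv Vv * ((k : LineRing) * ((Φ.deg : LineRing) + 1 - k)) * lineP Φ (k - 1) := by
  have h := congrArg atZero (lineDer_lineGk Φ k)
  rw [atZero_lineDer] at h
  simp only [map_add, map_sub, map_mul, map_pow, map_natCast, map_one, map_ofNat, atZero_kH,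
    atZero_T] at h
  simp only [lineP]
  linear_combination -h

/-- The subalgebra generated by the two forms. -/
def invSub : Subalgebra ℤ LineRing := Algebra.adjoin ℤ {kH Uv Vv, kT Uv Vv}

theorem kH_mem_invSub : kH Uv Vv ∈ invSub := Algebra.subset_adjoin (by simp)

theorem kT_mem_invSub : kT Uv Vv ∈ invSub := Algebra.subset_adjoin (by simp)

theorem lineDer_mem_invSub {p : LineRing} (hp : p ∈ invSub) : lineDer p ∈ invSub := by
  induction hp using Algebra.adjoin_induction with
  | mem x hx =>
    rcases hx with rfl | rfl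
    · rw [lineDer_kH]
      exact invSub.mul_mem (invSub.neg_mem (natCast_mem invSub 20)) kT_mem_invSub
    · rw [lineDer_kT]
      exact invSub.mul_mem (invSub.neg_mem (natCast_mem invSub 30)) (invSub.pow_mem kH_mem_invSub 2)
  | algebraMap r => simp
  | add x y _ _ hx hy => rw [map_add]; exact invSub.add_mem hx hy
  | mul x y hx' hy' hx hy =>
    rw [Derivation.leibniz, smul_eq_mul, smul_eq_mul]
    exact invSub.add_mem (invSub.mul_mem hx' hy) (invSub.mul_mem hy' hx)

theorem lineP_mem {h0 : lineP Φ 0 ∈ invSub} (k : ℕ) : lineP Φ k ∈ invSub := by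
  induction k using Nat.strong_induction_on with
  | _ k ih =>
    match k with
    | 0 => exact h0
    | k + 1 =>
      rw [lineP_succ]
      refine invSub.sub_mem (lineDer_mem_invSub (ih k (by omega))) (invSub.mul_mem (invSub.mul_mem
        (invSub.mul_mem (natCast_mem invSub 11) kH_mem_invSub)
        (invSub.mul_mem (natCast_mem invSub k) (invSub.sub_mem
          (invSub.add_mem (natCast_mem invSub _) invSub.one_mem) (natCast_mem invSub k))))
        (ih (k - 1) (by omega)))

theorem lineP_zero_formH : lineP formH 0 = kH Uv Vv := by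
  show atZero (kH (Uv + Tv * kFv Uv Vv) (Vv - Tv * kFu Uv Vv)) = _
  refine (map_kH atZero.toRingHom _ _).trans ?_
  simp [atZero_U, atZero_V, atZero_T]

theorem lineP_zero_formT : lineP formT 0 = kT Uv Vv := by
  show atZero (kT (Uv + Tv * kFv Uv Vv) (Vv - Tv * kFu Uv Vv)) = _
  refine (map_kT atZero.toRingHom _ _).trans ?_
  simp [atZero_U, atZero_V, atZero_T]

theorem exists_coeffPoly (h0 : lineP Φ 0 ∈ invSub) (k : ℕ) :
    ∃ Q : MvPolynomial (Fin 2) ℤ, aeval ![kH Uv Vv, kT Uv Vv] Q = lineP Φ k := by
  have h := lineP_mem Φ (h0 := h0) k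
  have hr : invSub ≤ (aeval ![kH Uv Vv, kT Uv Vv] : MvPolynomial (Fin 2) ℤ →ₐ[ℤ] LineRing).range := by
    rw [invSub, Algebra.adjoin_le_iff]
    rintro x (rfl | rfl)
    · exact ⟨X 0, by simp⟩
    · exact ⟨X 1, by simp⟩
  exact hr h

theorem formH_mem : lineP formH 0 ∈ invSub := lineP_zero_formH ▸ kH_mem_invSub

theorem formT_mem : lineP formT 0 ∈ invSub := lineP_zero_formT ▸ kT_mem_invSub

/-- `k!` times the `k`-th coefficient of `kH` on the line, as a polynomial in `(kH w, kT w)`. -/
def coeffH (k : ℕ) : MvPolynomial (Fin 2) ℤ :=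
  if k = 0 then X 0 else (exists_coeffPoly formH formH_mem k).choose

/-- `k!` times the `k`-th coefficient of `kT` on the line, as a polynomial in `(kH w, kT w)`. -/
def coeffT (k : ℕ) : MvPolynomial (Fin 2) ℤ :=
  if k = 0 then X 1 else (exists_coeffPoly formT formT_mem k).choose

theorem aeval_coeffH (k : ℕ) : aeval ![kH Uv Vv, kT Uv Vv] (coeffH k) = lineP formH k := by
  unfold coeffH
  split_ifs with h
  · subst h; simp [lineP_zero_formH]
  · exact (exists_coeffPoly formH formH_mem k).choose_spec

theorem aeval_coeffT (k : ℕ) : aeval ![kH Uv Vv, kT Uv Vv] (coeffT k) = lineP formT k := by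
  unfold coeffT
  split_ifs with h
  · subst h; simp [lineP_zero_formT]
  · exact (exists_coeffPoly formT formT_mem k).choose_spec

/-- `ℤ[u, v, t] → ℤ[u, v][t]`. -/
def toPoly : LineRing →ₐ[ℤ] Polynomial (MvPolynomial (Fin 2) ℤ) :=
  aeval ![Polynomial.C (X 0), Polynomial.C (X 1), Polynomial.X]

theorem toPoly_pderiv (p : LineRing) :
    toPoly (pderiv (2 : Fin 3) p) = Polynomial.derivative (toPoly p) := by
  induction p using MvPolynomial.induction_on with
  | C a => simp [toPoly]
  | add p q hp hq => simp [hp, hq]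
  | mul_X p n hp =>
    rw [Derivation.leibniz, map_add, smul_eq_mul, smul_eq_mul, map_mul, map_mul, hp, map_mul,
      Polynomial.derivative_mul]
    fin_cases n <;> simp [toPoly] <;> ring

theorem toPoly_atZero (p : LineRing) :
    toPoly (atZero p) = Polynomial.C ((toPoly p).coeff 0) := by
  induction p using MvPolynomial.induction_on with
  | C a => simp [toPoly, atZero]
  | add p q hp hq => simp [hp, hq]
  | mul_X p n hp =>
    rw [map_mul, map_mul, map_mul, hp, Polynomial.mul_coeff_zero, map_mul]
    congr 1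
    fin_cases n <;> simp [toPoly, atZero]

theorem toPoly_lineP (k : ℕ) :
    toPoly (lineP Φ k) = (Nat.factorial k : Polynomial (MvPolynomial (Fin 2) ℤ)) *
      Polynomial.C ((toPoly (lineG Φ)).coeff k) := by
  rw [lineP, toPoly_atZero]
  have : toPoly (lineGk Φ k) = Polynomial.derivative^[k] (toPoly (lineG Φ)) := by
    induction k with
    | zero => rfl
    | succ k ih => rw [lineGk_succ, toPoly_pderiv, ih, Function.iterate_succ_apply']
  rw [this, Polynomial.coeff_iterate_derivative, zero_add, Nat.descFactorial_self,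
    nsmul_eq_mul, map_mul, map_natCast]

/-- Taylor expansion with cleared denominators. -/
theorem factorial_mul_lineG (hdeg : (toPoly (lineG Φ)).natDegree ≤ Φ.deg) :
    toPoly ((Nat.factorial Φ.deg : LineRing) * lineG Φ) =
      toPoly (∑ k ∈ Finset.range (Φ.deg + 1),
        ((Nat.factorial Φ.deg / Nat.factorial k : ℕ) : LineRing) * lineP Φ k * Tv ^ k) := by
  rw [map_mul, map_natCast, map_sum]
  nth_rw 1 [Polynomial.as_sum_range' (toPoly (lineG Φ)) (Φ.deg + 1) (Nat.lt_succ_of_le hdeg)]
  rw [Finset.mul_sum]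
  refine Finset.sum_congr rfl fun k hk => ?_
  rw [Finset.mem_range, Nat.lt_succ_iff] at hk
  rw [map_mul, map_mul, map_pow, map_natCast, toPoly_lineP,
    show toPoly Tv = Polynomial.X by simp [toPoly], ← Polynomial.C_mul_X_pow_eq_monomial]
  rw [show (Nat.factorial Φ.deg : Polynomial (MvPolynomial (Fin 2) ℤ)) =
    ((Nat.factorial Φ.deg / Nat.factorial k : ℕ) : Polynomial (MvPolynomial (Fin 2) ℤ)) *
      (Nat.factorial k : Polynomial (MvPolynomial (Fin 2) ℤ)) by
    rw [← Nat.cast_mul, Nat.div_mul_cancel (Nat.factorial_dvd_factorial hk)]]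
  ring

theorem toPoly_injective : Function.Injective toPoly := by
  let inv : Polynomial (MvPolynomial (Fin 2) ℤ) →+* LineRing :=
    Polynomial.eval₂RingHom (aeval ![Uv, Vv] : MvPolynomial (Fin 2) ℤ →ₐ[ℤ] LineRing).toRingHom Tv
  refine Function.LeftInverse.injective (g := inv) fun p => ?_
  induction p using MvPolynomial.induction_on with
  | C a => simp [toPoly, inv]
  | add p q hp hq => rw [map_add, map_add, hp, hq]
  | mul_X p n hp =>
    rw [map_mul, map_mul, hp]
    congr 1
    fin_cases n <;> simp [toPoly, inv]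

theorem toPoly_args :
    (toPoly (Uv + Tv * kFv Uv Vv)).natDegree ≤ 1 ∧
      (toPoly (Vv - Tv * kFu Uv Vv)).natDegree ≤ 1 := by
  have hv : toPoly (kFv Uv Vv) = Polynomial.C (kFv (X 0) (X 1)) :=
    ((map_kFv toPoly.toRingHom Uv Vv).trans (by simp [toPoly])).trans
      (map_kFv (Polynomial.C) (X 0 : MvPolynomial (Fin 2) ℤ) (X 1)).symm
  have hu : toPoly (kFu Uv Vv) = Polynomial.C (kFu (X 0) (X 1)) :=
    ((map_kFu toPoly.toRingHom Uv Vv).trans (by simp [toPoly])).trans
      (map_kFu (Polynomial.C) (X 0 : MvPolynomial (Fin 2) ℤ) (X 1)).symm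
  have hT : toPoly Tv = Polynomial.X := by simp [toPoly]
  have h0 : toPoly Uv = Polynomial.C (X 0) := by simp [toPoly]
  have h1 : toPoly Vv = Polynomial.C (X 1) := by simp [toPoly]
  rw [map_add, map_sub, map_mul, map_mul, hv, hu, hT, h0, h1]
  constructor <;> compute_degree

theorem natDegree_term {R : Type*} [CommRing R] {p q : Polynomial R} (hp : p.natDegree ≤ 1)
    (hq : q.natDegree ≤ 1) (c : R) {i j n : ℕ} (h : i + j ≤ n) :
    (Polynomial.C c * (p ^ i * q ^ j)).natDegree ≤ n :=
  ((Polynomial.natDegree_C_mul_le _ _).trans Polynomial.natDegree_mul_le).trans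
    ((add_le_add (Polynomial.natDegree_pow_le_of_le i hp)
      (Polynomial.natDegree_pow_le_of_le j hq)).trans (by omega))

theorem natDegree_kH_le {R : Type*} [CommRing R] {p q : Polynomial R} (hp : p.natDegree ≤ 1)
    (hq : q.natDegree ≤ 1) : (kH p q).natDegree ≤ 20 := by
  have e : kH p q = Polynomial.C 1 * (p ^ 20 * q ^ 0) + Polynomial.C (-228) * (p ^ 15 * q ^ 5) +
      Polynomial.C 494 * (p ^ 10 * q ^ 10) + Polynomial.C 228 * (p ^ 5 * q ^ 15) +
      Polynomial.C 1 * (p ^ 0 * q ^ 20) := by
    simp only [kH, kH5, map_neg, map_one, map_ofNat]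
    ring
  rw [e]
  exact (Polynomial.natDegree_add_le_of_degree_le
      (Polynomial.natDegree_add_le_of_degree_le
      (Polynomial.natDegree_add_le_of_degree_le
      (Polynomial.natDegree_add_le_of_degree_le
      (natDegree_term hp hq _ (by norm_num))
      (natDegree_term hp hq _ (by norm_num)))
      (natDegree_term hp hq _ (by norm_num)))
      (natDegree_term hp hq _ (by norm_num)))
      (natDegree_term hp hq _ (by norm_num)))

theorem natDegree_kT_le {R : Type*} [CommRing R] {p q : Polynomial R} (hp : p.natDegree ≤ 1)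
    (hq : q.natDegree ≤ 1) : (kT p q).natDegree ≤ 30 := by
  have e : kT p q = Polynomial.C (-1) * (p ^ 30 * q ^ 0) + Polynomial.C (-522) * (p ^ 25 * q ^ 5) +
      Polynomial.C 10005 * (p ^ 20 * q ^ 10) + Polynomial.C 10005 * (p ^ 10 * q ^ 20) +
      Polynomial.C 522 * (p ^ 5 * q ^ 25) + Polynomial.C (-1) * (p ^ 0 * q ^ 30) := by
    simp only [kT, kT5, map_neg, map_one, map_ofNat]
    ring
  rw [e]
  exact (Polynomial.natDegree_add_le_of_degree_le
      (Polynomial.natDegree_add_le_of_degree_le
      (Polynomial.natDegree_add_le_of_degree_le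
      (Polynomial.natDegree_add_le_of_degree_le
      (Polynomial.natDegree_add_le_of_degree_le
      (natDegree_term hp hq _ (by norm_num))
      (natDegree_term hp hq _ (by norm_num)))
      (natDegree_term hp hq _ (by norm_num)))
      (natDegree_term hp hq _ (by norm_num)))
      (natDegree_term hp hq _ (by norm_num)))
      (natDegree_term hp hq _ (by norm_num)))

theorem natDegree_lineH : (toPoly (lineG formH)).natDegree ≤ formH.deg := by
  have h : toPoly (lineG formH) =
      kH (toPoly (Uv + Tv * kFv Uv Vv)) (toPoly (Vv - Tv * kFu Uv Vv)) := map_kH toPoly.toRingHom _ _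
  rw [h]
  exact natDegree_kH_le toPoly_args.1 toPoly_args.2

theorem natDegree_lineT : (toPoly (lineG formT)).natDegree ≤ formT.deg := by
  have h : toPoly (lineG formT) =
      kT (toPoly (Uv + Tv * kFv Uv Vv)) (toPoly (Vv - Tv * kFu Uv Vv)) := map_kT toPoly.toRingHom _ _
  rw [h]
  exact natDegree_kT_le toPoly_args.1 toPoly_args.2

/-- `d!·` the homogenised restriction, as a form in `(s, t)` with coefficients from `(A, B)`. -/
def lineValH {R : Type*} [CommRing R] (A B s t : R) : R :=
  ∑ k ∈ Finset.range 21,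
    ((Nat.factorial 20 / Nat.factorial k : ℕ) : R) * aeval ![A, B] (coeffH k) * s ^ (20 - k) * t ^ k

/-- `d!·` the homogenised restriction, as a form in `(s, t)` with coefficients from `(A, B)`. -/
def lineValT {R : Type*} [CommRing R] (A B s t : R) : R :=
  ∑ k ∈ Finset.range 31,
    ((Nat.factorial 30 / Nat.factorial k : ℕ) : R) * aeval ![A, B] (coeffT k) * s ^ (30 - k) * t ^ k

theorem map_aeval_pair {R S : Type*} [CommRing R] [CommRing S] [Algebra ℤ R] [Algebra ℤ S]
    (φ : R →+* S) (A B : R)
    (Q : MvPolynomial (Fin 2) ℤ) : φ (aeval ![A, B] Q) = aeval ![φ A, φ B] Q := by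
  induction Q using MvPolynomial.induction_on with
  | C a => simp only [eq_intCast, map_intCast]
  | add p q hp hq => simp only [map_add, hp, hq]
  | mul_X p n hp =>
    rw [map_mul, map_mul, map_mul, hp]
    fin_cases n <;> simp

theorem map_lineValH {R S : Type*} [CommRing R] [CommRing S] (φ : R →+* S) (A B s t : R) :
    φ (lineValH A B s t) = lineValH (φ A) (φ B) (φ s) (φ t) := by
  simp only [lineValH, map_sum, map_mul, map_pow, map_natCast, map_aeval_pair]

theorem map_lineValT {R S : Type*} [CommRing R] [CommRing S] (φ : R →+* S) (A B s t : R) :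
    φ (lineValT A B s t) = lineValT (φ A) (φ B) (φ s) (φ t) := by
  simp only [lineValT, map_sum, map_mul, map_pow, map_natCast, map_aeval_pair]

theorem kH_line_affine {R : Type*} [CommRing R] (u v t : R) :
    (Nat.factorial 20 : R) * kH (u + t * kFv u v) (v - t * kFu u v) =
      lineValH (kH u v) (kT u v) 1 t := by
  have h := toPoly_injective (factorial_mul_lineG formH natDegree_lineH)
  let φ : LineRing →+* R := eval₂Hom (Int.castRingHom R) ![u, v, t]
  have e : ∀ x, φ x = eval₂Hom (Int.castRingHom R) ![u, v, t] x := fun _ => rfl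
  have hU : φ Uv = u := by simp [φ]
  have hV : φ Vv = v := by simp [φ]
  have hT : φ Tv = t := by simp [φ]
  have := congrArg φ h
  rw [map_mul, map_natCast, show φ (lineG formH) = kH (u + t * kFv u v) (v - t * kFu u v) by
    show φ (kH _ _) = _
    rw [map_kH, map_add, map_sub, map_mul, map_mul, map_kFv, map_kFu, hU, hV, hT],
    map_sum] at this
  show _ = lineValH (kH u v) (kT u v) 1 t
  refine this.trans (Finset.sum_congr rfl fun k _ => ?_)
  rw [map_mul, map_mul, map_natCast, map_pow, hT, ← aeval_coeffH, map_aeval_pair, map_kH, map_kT,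
    hU, hV, one_pow, mul_one]
  rfl

theorem kT_line_affine {R : Type*} [CommRing R] (u v t : R) :
    (Nat.factorial 30 : R) * kT (u + t * kFv u v) (v - t * kFu u v) =
      lineValT (kH u v) (kT u v) 1 t := by
  have h := toPoly_injective (factorial_mul_lineG formT natDegree_lineT)
  let φ : LineRing →+* R := eval₂Hom (Int.castRingHom R) ![u, v, t]
  have hU : φ Uv = u := by simp [φ]
  have hV : φ Vv = v := by simp [φ]
  have hT : φ Tv = t := by simp [φ]
  have := congrArg φ h
  rw [map_mul, map_natCast, show φ (lineG formT) = kT (u + t * kFv u v) (v - t * kFu u v) by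
    show φ (kT _ _) = _
    rw [map_kT, map_add, map_sub, map_mul, map_mul, map_kFv, map_kFu, hU, hV, hT],
    map_sum] at this
  show _ = lineValT (kH u v) (kT u v) 1 t
  refine this.trans (Finset.sum_congr rfl fun k _ => ?_)
  rw [map_mul, map_mul, map_natCast, map_pow, hT, ← aeval_coeffT, map_aeval_pair, map_kH, map_kT,
    hU, hV, one_pow, mul_one]
  rfl

theorem kH_kT_line_field {K : Type*} [Field K] (u v t : K) {s : K} (hs : s ≠ 0) :
    (Nat.factorial 20 : K) * kH (s * u + t * kFv u v) (s * v - t * kFu u v) =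
        lineValH (kH u v) (kT u v) s t ∧
      (Nat.factorial 30 : K) * kT (s * u + t * kFv u v) (s * v - t * kFu u v) =
        lineValT (kH u v) (kT u v) s t := by
  rw [show s * u + t * kFv u v = s * (u + t / s * kFv u v) by field_simp,
    show s * v - t * kFu u v = s * (v - t / s * kFu u v) by field_simp]
  constructor
  · rw [kH_smul, mul_left_comm, kH_line_affine, lineValH, lineValH, Finset.mul_sum]
    refine Finset.sum_congr rfl fun k hk => ?_
    have hle : k ≤ 20 := Nat.lt_succ_iff.1 (Finset.mem_range.1 hk)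
    rw [show s ^ 20 = s ^ (20 - k) * s ^ k by rw [← pow_add, Nat.sub_add_cancel hle], one_pow,
      div_pow]
    field_simp
  · rw [kT_smul, mul_left_comm, kT_line_affine, lineValT, lineValT, Finset.mul_sum]
    refine Finset.sum_congr rfl fun k hk => ?_
    have hle : k ≤ 30 := Nat.lt_succ_iff.1 (Finset.mem_range.1 hk)
    rw [show s ^ 30 = s ^ (30 - k) * s ^ k by rw [← pow_add, Nat.sub_add_cancel hle], one_pow,
      div_pow]
    field_simp

/-- Reduction of the homogeneous identity to the affine one over the generic field. -/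
theorem kH_kT_line {R : Type*} [CommRing R] (u v s t : R) :
    (Nat.factorial 20 : R) * kH (s * u + t * kFv u v) (s * v - t * kFu u v) =
        lineValH (kH u v) (kT u v) s t ∧
      (Nat.factorial 30 : R) * kT (s * u + t * kFv u v) (s * v - t * kFu u v) =
        lineValT (kH u v) (kT u v) s t := by
  set ι : MvPolynomial (Fin 4) ℤ →+* FractionRing (MvPolynomial (Fin 4) ℤ) := algebraMap _ _ with hι
  have hinj : Function.Injective ι := IsFractionRing.injective _ _
  set φ : MvPolynomial (Fin 4) ℤ →+* R := eval₂Hom (Int.castRingHom R) ![u, v, s, t] with hφ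
  have e0 : φ (X 0) = u := by simp [hφ]
  have e1 : φ (X 1) = v := by simp [hφ]
  have e2 : φ (X 2) = s := by simp [hφ]
  have e3 : φ (X 3) = t := by simp [hφ]
  have hs : ι (X 2) ≠ 0 := (map_ne_zero_iff ι hinj).2 (MvPolynomial.X_ne_zero (2 : Fin 4))
  obtain ⟨h1, h2⟩ := kH_kT_line_field (ι (X 0)) (ι (X 1)) (ι (X 3)) hs
  constructor
  · have key : (Nat.factorial 20 : MvPolynomial (Fin 4) ℤ) *
        kH (X 2 * X 0 + X 3 * kFv (X 0) (X 1)) (X 2 * X 1 - X 3 * kFu (X 0) (X 1)) =
          lineValH (kH (X 0) (X 1)) (kT (X 0) (X 1)) (X 2) (X 3) := by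
      apply hinj
      simp only [map_mul, map_natCast, map_kH, map_kT, map_add, map_sub, map_kFu, map_kFv,
        map_lineValH]
      exact h1
    have h := congrArg φ key
    simp only [map_mul, map_natCast, map_kH, map_kT, map_add, map_sub, map_kFu, map_kFv,
      map_lineValH, e0, e1, e2, e3] at h
    exact h
  · have key : (Nat.factorial 30 : MvPolynomial (Fin 4) ℤ) *
        kT (X 2 * X 0 + X 3 * kFv (X 0) (X 1)) (X 2 * X 1 - X 3 * kFu (X 0) (X 1)) =
          lineValT (kH (X 0) (X 1)) (kT (X 0) (X 1)) (X 2) (X 3) := by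
      apply hinj
      simp only [map_mul, map_natCast, map_kH, map_kT, map_add, map_sub, map_kFu, map_kFv,
        map_lineValT]
      exact h2
    have h := congrArg φ key
    simp only [map_mul, map_natCast, map_kH, map_kT, map_add, map_sub, map_kFu, map_kFv,
      map_lineValT, e0, e1, e2, e3] at h
    exact h

end

end FLTAgent.Switch
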