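import Mathlib

/-!
# Klein's icosahedral forms and a point of order five on `y² = x³ - 27 H x - 54 T`

`kH`, `kT`, `kF` are the binary forms of degree `20`, `30`, `12`; they satisfy
`kH³ - kT² = -1728 kF⁵`.

Main declarations: `kH_cube_sub_kT_sq`, `kH_kT_eq_zero`, `kX5_curve`, `kX5_double`.
-/

set_option autoImplicit false

namespace FLTAgent.Switch

variable {R : Type*} [CommRing R]

/-- Klein's form of degree `12`. -/
def kF (u v : R) : R := u ^ 11 * v + 11 * u ^ 6 * v ^ 6 - u * v ^ 11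

/-- `∂ kF / ∂ u`. -/
def kFu (u v : R) : R := 11 * u ^ 10 * v + 66 * u ^ 5 * v ^ 6 - v ^ 11

/-- `∂ kF / ∂ v`. -/
def kFv (u v : R) : R := u ^ 11 + 66 * u ^ 6 * v ^ 5 - 11 * u * v ^ 10

/-- `kH` in `U = u⁵`, `V = v⁵`. -/
def kH5 (U V : R) : R := U ^ 4 - 228 * U ^ 3 * V + 494 * U ^ 2 * V ^ 2 + 228 * U * V ^ 3 + V ^ 4

/-- `kT` in `U = u⁵`, `V = v⁵`. -/
def kT5 (U V : R) : R :=
  -(U ^ 6 + V ^ 6 + 522 * (U ^ 5 * V - U * V ^ 5) - 10005 * (U ^ 4 * V ^ 2 + U ^ 2 * V ^ 4))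

/-- Klein's form of degree `20`. -/
def kH (u v : R) : R := kH5 (u ^ 5) (v ^ 5)

/-- Klein's form of degree `30`. -/
def kT (u v : R) : R := kT5 (u ^ 5) (v ^ 5)

/-- Klein's syzygy. -/
theorem kH_cube_sub_kT_sq (u v : R) : kH u v ^ 3 - kT u v ^ 2 = -(1728 * kF u v ^ 5) := by
  simp only [kH, kT, kH5, kT5, kF]
  ring

theorem map_kH {S : Type*} [CommRing S] (φ : R →+* S) (u v : R) :
    φ (kH u v) = kH (φ u) (φ v) := by
  simp [kH, kH5, map_ofNat]

theorem map_kT {S : Type*} [CommRing S] (φ : R →+* S) (u v : R) :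
    φ (kT u v) = kT (φ u) (φ v) := by
  simp [kT, kT5, map_ofNat]

theorem map_kF {S : Type*} [CommRing S] (φ : R →+* S) (u v : R) :
    φ (kF u v) = kF (φ u) (φ v) := by
  simp [kF, map_ofNat]

theorem map_kFu {S : Type*} [CommRing S] (φ : R →+* S) (u v : R) :
    φ (kFu u v) = kFu (φ u) (φ v) := by
  simp [kFu, map_ofNat]

theorem map_kFv {S : Type*} [CommRing S] (φ : R →+* S) (u v : R) :
    φ (kFv u v) = kFv (φ u) (φ v) := by
  simp [kFv, map_ofNat]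

theorem kH_smul (c u v : R) : kH (c * u) (c * v) = c ^ 20 * kH u v := by
  simp only [kH, kH5]; ring

theorem kT_smul (c u v : R) : kT (c * u) (c * v) = c ^ 30 * kT u v := by
  simp only [kT, kT5]; ring

theorem euler_kF (u v : R) : u * kFu u v + v * kFv u v = 12 * kF u v := by
  simp only [kF, kFu, kFv]; ring

/-- The two forms have no common zero. -/
theorem kH_kT_eq_zero {L : Type*} [Field L] (h6 : (1728 : L) ≠ 0) (h5 : (5 : L) ≠ 0) {u v : L}
    (hH : kH u v = 0) (hT : kT u v = 0) : u = 0 ∧ v = 0 := by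
  have hF : kF u v = 0 := by
    have := kH_cube_sub_kT_sq u v
    rw [hH, hT] at this
    have h : (1728 : L) * kF u v ^ 5 = 0 := by linear_combination this
    simpa [h6] using h
  by_cases hu : u = 0
  · refine ⟨hu, ?_⟩
    subst hu
    simpa [kH, kH5] using hH
  by_cases hv : v = 0
  · subst hv
    exact absurd (by simpa [kH, kH5] using hH) hu
  exfalso
  have hq : (u ^ 5) ^ 2 + 11 * u ^ 5 * v ^ 5 - (v ^ 5) ^ 2 = 0 := by
    have : u * v * ((u ^ 5) ^ 2 + 11 * u ^ 5 * v ^ 5 - (v ^ 5) ^ 2) = 0 := by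
      rw [← hF]; simp only [kF]; ring
    exact (mul_eq_zero.1 this).resolve_left (mul_ne_zero hu hv)
  have : (5 : L) ^ 5 * ((u ^ 5) ^ 2 * (v ^ 5) ^ 2) = 0 := by
    simp only [kH, kH5] at hH
    linear_combination hH - ((u ^ 5) ^ 2 - 239 * u ^ 5 * v ^ 5 - (v ^ 5) ^ 2) * hq
  simp [h5, hu, hv] at this

/-- `5 x` for the point of order five, in `U = u⁵`, `V = v⁵`; `z` is a primitive fifth root of unity. -/
def kX5 (z U V : R) : R :=
  (-57 + 36 * z ^ 2 + 36 * z ^ 3) * U ^ 2 + (198 + 396 * z ^ 2 + 396 * z ^ 3) * U * V +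
    (-93 - 36 * z ^ 2 - 36 * z ^ 3) * V ^ 2

/-- `5 y` for the point of order five. -/
def kY5 (z U V : R) : R :=
  (-216 - 432 * z - 324 * z ^ 2 - 108 * z ^ 3) * U ^ 3 +
    (-2484 - 4968 * z - 3456 * z ^ 2 - 1512 * z ^ 3) * U ^ 2 * V +
    (-972 - 1944 * z + 1512 * z ^ 2 - 3456 * z ^ 3) * U * V ^ 2 +
    (108 + 216 * z - 108 * z ^ 2 + 324 * z ^ 3) * V ^ 3

theorem kX5_neg (z U V : R) : kX5 z (-U) (-V) = kX5 z U V := by
  simp only [kX5]; ring

theorem kY5_neg (z U V : R) : kY5 z (-U) (-V) = -kY5 z U V := by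
  simp only [kY5]; ring

theorem kH5_rot (U V : R) : kH5 (-V) U = kH5 U V := by
  simp only [kH5]; ring

theorem kT5_rot (U V : R) : kT5 (-V) U = kT5 U V := by
  simp only [kT5]; ring

theorem kX5_curve (z U V : R) (hz : z ^ 4 + z ^ 3 + z ^ 2 + z + 1 = 0) :
    5 * kY5 z U V ^ 2 - kX5 z U V ^ 3 + 675 * kH5 U V * kX5 z U V + 6750 * kT5 U V = 0 := by
  simp only [kX5, kY5, kH5, kT5]
  linear_combination ((373248 + 559872 * z + 373248 * z ^ 2 + (-93312) * z ^ 4 + (-46656) * z ^ 5) * U ^ 6 + (8817984 + 12643776 * z + 8817984 * z ^ 2 + (-3079296) * z ^ 4 + (-1539648) * z ^ 5) * U ^ 5 * V ^ 1 + (58553280 + 73249920 * z + 58553280 * z ^ 2 + (-33592320) * z ^ 4 + (-16796160) * z ^ 5) * U ^ 4 * V ^ 2 + (81414720 + 14230080 * z + 81414720 * z ^ 2 + (-118039680) * z ^ 4 + (-59019840) * z ^ 5) * U ^ 3 * V ^ 3 + (81414720 + (-73249920) * z + 81414720 * z ^ 2 + 33592320 * z ^ 4 + 16796160 * z ^ 5) * U ^ 2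 * V ^ 4 + ((-16842816) + 12643776 * z + (-16842816) * z ^ 2 + (-3079296) * z ^ 4 + (-1539648) * z ^ 5) * U ^ 1 * V ^ 5 + (793152 + (-559872) * z + 793152 * z ^ 2 + 93312 * z ^ 4 + 46656 * z ^ 5) * V ^ 6) * hz

theorem kX5_double (z U V : R) (hz : z ^ 4 + z ^ 3 + z ^ 2 + z + 1 = 0) :
    (3 * kX5 z U V ^ 2 - 675 * kH5 U V) ^ 2 - 20 * kY5 z U V ^ 2 * (kX5 z (-V) U + 2 * kX5 z U V) = 0 := by
  simp only [kX5, kY5, kH5]
  linear_combination ((275457024 + 497166336 * z + 322486272 * z ^ 2 + (-134369280) * z ^ 3 + (-287214336) * z ^ 4 + (-134369280) * z ^ 5 + 30233088 * z ^ 6 + 45349632 * z ^ 7 + 15116544 * z ^ 8) * U ^ 8 + (5821549056 + 11209757184 * z + 7344960768 * z ^ 2 + (-4568555520) * z ^ 3 + (-9446160384) * z ^ 4 + (-4484574720) * z ^ 5 + 1330255872 * z ^ 6 + 1995383808 * z ^ 7 + 665127936 * z ^ 8) * U ^ 7 * V ^ 1 + (27349187328 + 65693140992 * z + 43122461184 * z ^ 2 + (-52840719360) * z ^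 3 + (-102560712192) * z ^ 4 + (-50237314560) * z ^ 5 + 21828289536 * z ^ 6 + 32742434304 * z ^ 7 + 10914144768 * z ^ 8) * U ^ 6 * V ^ 2 + ((-37601563392) + 33268154112 * z + 4516487424 * z ^ 2 + (-219458626560) * z ^ 3 + (-358987686912) * z ^ 4 + (-194768271360) * z ^ 5 + 156970192896 * z ^ 6 + 235455289344 * z ^ 7 + 78485096448 * z ^ 8) * U ^ 5 * V ^ 3 + (3535591680 + 55586891520 * z + (-126911784960) * z ^ 2 + (-133697433600) * z ^ 3 + 65765364480 * z ^ 4 + (-87927897600) * z ^ 5 + 398925596160 * z ^ 6 + 598388394240 * z ^ 7 + 199462798080 * z ^ 8) * U ^ 4 * V ^ 4 + (122422171392 + (-39398752512) * z + (-137710036224) * z ^ 2 + 1444469760 * z ^ 3 + (-295054783488) * z ^ 4 + (-241260042240) * z ^ 5 + (-156970192896) * z ^ 6 + (-235455289344) * z ^ 7 + (-78485096448) * z ^ 8) * U ^ 3 * V ^ 5 + (63460931328 + (-52005950208) * z + 139868342784 * z ^ 2 + 7793418240 * z ^ 3 + 79341700608 * z ^ 4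 + 71030960640 * z ^ 5 + 21828289536 * z ^ 6 + 32742434304 * z ^ 7 + 10914144768 * z ^ 8) * U ^ 2 * V ^ 6 + ((-14429581056) + 10163356416 * z + (-21495725568) * z ^ 2 + (-974177280) * z ^ 3 + (-7182038016) * z ^ 4 + (-6600890880) * z ^ 5 + (-1330255872) * z ^ 6 + (-1995383808) * z ^ 7 + (-665127936) * z ^ 8) * U ^ 1 * V ^ 7 + (695361024 + (-468612864) * z + 910351872 * z ^ 2 + 33592320 * z ^ 3 + 216670464 * z ^ 4 + 201553920 * z ^ 5 + 30233088 * z ^ 6 + 45349632 * z ^ 7 + 15116544 * z ^ 8) * V ^ 8) * hz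

theorem kY5_double (z U V : R) (hz : z ^ 4 + z ^ 3 + z ^ 2 + z + 1 = 0) :
    (3 * kX5 z U V ^ 2 - 675 * kH5 U V) * (kX5 z U V - kX5 z (-V) U) - 10 * kY5 z U V * (kY5 z U V + kY5 z (-V) U) = 0 := by
  simp only [kX5, kY5, kH5]
  linear_combination ((93312 + (-1026432) * z + (-1073088) * z ^ 2 + 559872 * z ^ 4 + 279936 * z ^ 5) * U ^ 6 + (746496 + (-24541056) * z + (-24914304) * z ^ 2 + 18475776 * z ^ 4 + 9237888 * z ^ 5) * U ^ 5 * V ^ 1 + ((-18895680) + (-165395520) * z + (-158863680) * z ^ 2 + 201553920 * z ^ 4 + 100776960 * z ^ 5) * U ^ 4 * V ^ 2 + ((-185224320) + (-213684480) * z + (-185224320) * z ^ 2 + 708238080 * z ^ 4 + 354119040 * z ^ 5) * U ^ 3 * V ^ 3 + ((-121072320) + 25427520 * z + (-261040320) * z ^ 2 + (-201553920) * z ^ 4 + (-100776960) * z ^ 5) * U ^ 2 * V ^ 4 + (26407296 + 1119744 * z + 52068096 * z ^ 2 + 18475776 * z ^ 4 + 9237888 * z ^ 5) * U ^ 1 * V ^ 5 + ((-1259712) + (-139968)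 * z + (-2426112) * z ^ 2 + (-559872) * z ^ 4 + (-279936) * z ^ 5) * V ^ 6) * hz

end FLTAgent.Switch
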