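import Fermat.Agent.Switch.Basic
import Fermat.Agent.Switch.Klein

/-!
# Preimages under `(kH, kT)` and the point of order five

Every nondegenerate pair is `(kH w, kT w)` over an algebraically closed field
(`exists_klein_preimage`); the point `(kX5/5, kY5/5)` doubles to the one at rotated parameters
(`klein_double`) and so has order five (`klein_five`).
-/

set_option autoImplicit false

namespace FLTAgent.Switch

open Polynomial WeierstrassCurve

noncomputable section

variable {L : Type*} [Field L]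

theorem natDegree_kH5_X : (kH5 (X : L[X]) 1).natDegree ≤ 4 := by
  have e : kH5 (X : L[X]) 1 = X ^ 4 + C (-228) * X ^ 3 + C 494 * X ^ 2 + C 228 * X + 1 := by
    simp only [kH5, map_neg, map_ofNat]; ring
  rw [e]; compute_degree

theorem natDegree_kT5_X : (kT5 (X : L[X]) 1).natDegree ≤ 6 := by
  have e : kT5 (X : L[X]) 1 = C (-1) * X ^ 6 + C (-522) * X ^ 5 + C 10005 * X ^ 4 +
      C 10005 * X ^ 2 + C 522 * X + C (-1) := by
    simp only [kT5, map_neg, map_one, map_ofNat]; ring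
  rw [e]; compute_degree

theorem coeff_kH5_X : (kH5 (X : L[X]) 1).coeff 4 = 1 := by
  have e : kH5 (X : L[X]) 1 = X ^ 4 + C (-228) * X ^ 3 + C 494 * X ^ 2 + C 228 * X + 1 := by
    simp only [kH5, map_neg, map_ofNat]; ring
  rw [e]; simp only [coeff_add, coeff_C_mul, coeff_X_pow, coeff_X, coeff_one]; simp

theorem coeff_kT5_X : (kT5 (X : L[X]) 1).coeff 6 = -1 := by
  have e : kT5 (X : L[X]) 1 = C (-1) * X ^ 6 + C (-522) * X ^ 5 + C 10005 * X ^ 4 +
      C 10005 * X ^ 2 + C 522 * X + C (-1) := by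
    simp only [kT5, map_neg, map_one, map_ofNat]; ring
  rw [e]; simp only [coeff_add, coeff_C_mul, coeff_X_pow, coeff_X, coeff_C]; simp

theorem eval_kH5_X (U : L) : (kH5 (X : L[X]) 1).eval U = kH5 U 1 := by
  simp [kH5]

theorem eval_kT5_X (U : L) : (kT5 (X : L[X]) 1).eval U = kT5 U 1 := by
  simp [kT5]

/-- Every nondegenerate pair is `(kH w, kT w)` for some `w`. -/
theorem exists_klein_preimage [IsAlgClosed L] (h1728 : (1728 : L) ≠ 0) (h5 : (5 : L) ≠ 0) {A B : L}
    (hAB : A ^ 3 ≠ B ^ 2) : ∃ u v : L, kH u v = A ∧ kT u v = B := by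
  set G : L[X] := C (A ^ 3) * (kT5 X 1 * kT5 X 1) - C (B ^ 2) * (kH5 X 1 * (kH5 X 1 * kH5 X 1))
    with hG
  have hG12 : G.coeff 12 = A ^ 3 - B ^ 2 := by
    have h1 : (kT5 (X : L[X]) 1 * kT5 X 1).coeff (6 + 6) = 1 := by
      rw [coeff_mul_add_eq_of_natDegree_le natDegree_kT5_X natDegree_kT5_X, coeff_kT5_X]; ring
    have h2 : (kH5 (X : L[X]) 1 * (kH5 X 1 * kH5 X 1)).coeff (4 + (4 + 4)) = 1 := by
      rw [coeff_mul_add_eq_of_natDegree_le natDegree_kH5_X
        (natDegree_mul_le.trans (add_le_add natDegree_kH5_X natDegree_kH5_X)),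
        coeff_mul_add_eq_of_natDegree_le natDegree_kH5_X natDegree_kH5_X, coeff_kH5_X]; ring
    rw [hG, coeff_sub, coeff_C_mul, coeff_C_mul]
    norm_num at h1 h2
    rw [h1, h2]; ring
  have hdeg : G.degree ≠ 0 := by
    intro h0
    have := eq_C_of_degree_le_zero h0.le
    rw [this, coeff_C, if_neg (by norm_num)] at hG12
    exact hAB (sub_eq_zero.1 hG12.symm)
  obtain ⟨U, hU⟩ := IsAlgClosed.exists_root G hdeg
  obtain ⟨u, hu⟩ := IsAlgClosed.exists_pow_nat_eq U (show 0 < 5 by norm_num)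
  have hrel : A ^ 3 * kT u 1 ^ 2 = B ^ 2 * kH u 1 ^ 3 := by
    rw [IsRoot, hG, eval_sub, eval_mul, eval_mul, eval_mul, eval_mul, eval_mul, eval_C, eval_C,
      eval_kT5_X, eval_kH5_X] at hU
    simp only [kH, kT, hu, one_pow]
    linear_combination hU
  have hne : ¬(kH u 1 = 0 ∧ kT u 1 = 0) := fun h =>
    one_ne_zero (kH_kT_eq_zero h1728 h5 h.1 h.2).2
  by_cases hh : kH u 1 = 0
  · have ht : kT u 1 ≠ 0 := fun h => hne ⟨hh, h⟩
    have hA : A = 0 := by
      rw [hh] at hrel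
      simpa [ht] using hrel
    obtain ⟨l, hl⟩ := IsAlgClosed.exists_pow_nat_eq (B / kT u 1) (show 0 < 30 by norm_num)
    refine ⟨l * u, l * 1, by rw [kH_smul, hh, hA, mul_zero], ?_⟩
    rw [kT_smul, hl, div_mul_cancel₀ _ ht]
  · have hA : A ≠ 0 := by
      intro hA
      apply hAB
      rw [hA] at hrel ⊢
      have : B = 0 := by simpa [hh] using hrel.symm
      rw [this]; ring
    obtain ⟨l, hl⟩ := IsAlgClosed.exists_pow_nat_eq (A / kH u 1) (show 0 < 20 by norm_num)
    have hsq : (l ^ 30 * kT u 1) ^ 2 = B ^ 2 := by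
      rw [mul_pow, ← pow_mul, show 30 * 2 = 20 * 3 by norm_num, pow_mul, hl, div_pow,
        div_mul_eq_mul_div, hrel, mul_div_cancel_right₀ _ (pow_ne_zero 3 hh)]
    have hH : kH (l * u) (l * 1) = A := by rw [kH_smul, hl, div_mul_cancel₀ _ hh]
    rcases sq_eq_sq_iff_eq_or_eq_neg.1 hsq with h | h
    · exact ⟨l * u, l * 1, hH, by rw [kT_smul, h]⟩
    · obtain ⟨i, hi⟩ := IsAlgClosed.exists_pow_nat_eq (-1 : L) (show 0 < 2 by norm_num)
      refine ⟨i * (l * u), i * (l * 1), ?_, ?_⟩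
      · rw [kH_smul, hH, show i ^ 20 = (i ^ 2) ^ 10 by ring, hi]; ring
      · rw [kT_smul, kT_smul, h, show i ^ 30 = (i ^ 2) ^ 15 by ring, hi]; ring

variable [DecidableEq L]

theorem klein_disc (h6 : (6 : L) ≠ 0) (U V : L) (h : kH5 U V ^ 3 ≠ kT5 U V ^ 2) :
    4 * (-27 * kH5 U V) ^ 3 + 27 * (-54 * kT5 U V) ^ 2 ≠ 0 := by
  rw [show 4 * (-27 * kH5 U V) ^ 3 + 27 * (-54 * kT5 U V) ^ 2 =
    -(2 ^ 2 * 3 ^ 9) * (kH5 U V ^ 3 - kT5 U V ^ 2) by ring]
  have h2 : (2 : L) ≠ 0 := fun h => h6 (by linear_combination 3 * h)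
  have h3 : (3 : L) ≠ 0 := fun h => h6 (by linear_combination 2 * h)
  exact mul_ne_zero (neg_ne_zero.2 (mul_ne_zero (pow_ne_zero _ h2) (pow_ne_zero _ h3)))
    (sub_ne_zero.2 h)

variable {z : L} (hz : z ^ 4 + z ^ 3 + z ^ 2 + z + 1 = 0) (h6 : (6 : L) ≠ 0) (h5 : (5 : L) ≠ 0)
  {U V : L} (h : kH5 U V ^ 3 ≠ kT5 U V ^ 2)

include hz h6 h5 h

theorem klein_nonsingular :
    (short (-27 * kH5 U V) (-54 * kT5 U V)).Nonsingular (kX5 z U V / 5) (kY5 z U V / 5) := by
  have h2 : (2 : L) ≠ 0 := fun h => h6 (by linear_combination 3 * h)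
  rw [short_nonsingular_iff h2 (klein_disc h6 U V h)]
  field_simp
  linear_combination kX5_curve z U V hz

theorem klein_y_ne_zero : kY5 z U V ≠ 0 := by
  intro hy
  have hd := klein_disc h6 U V h
  have h2 : (2 : L) ≠ 0 := fun h => h6 (by linear_combination 3 * h)
  have hn := klein_nonsingular hz h6 h5 h
  rw [short_nonsingular_iff h2 hd, hy, zero_div, zero_pow two_ne_zero] at hn
  have hdd := kX5_double z U V hz
  rw [hy] at hdd
  have hw : 3 * (kX5 z U V / 5) ^ 2 + -27 * kH5 U V = 0 := by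
    have : 3 * kX5 z U V ^ 2 - 675 * kH5 U V = 0 := by
      have : (3 * kX5 z U V ^ 2 - 675 * kH5 U V) ^ 2 = 0 := by linear_combination hdd
      exact pow_eq_zero_iff two_ne_zero |>.1 this
    field_simp
    linear_combination this
  set x := kX5 z U V / 5
  set a := -27 * kH5 U V
  set b := -54 * kT5 U V
  exact hd (by linear_combination (-27 * x ^ 3 - 27 * a * x + 27 * b) * hn.symm +
    (4 * a ^ 2 + 15 * a * x ^ 2 + 9 * x ^ 4) * hw)

/-- The double of the point is the point at rotated parameters. -/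
theorem klein_double :
    ∃ hn hn', (Affine.Point.some (kX5 z U V / 5) (kY5 z U V / 5) hn :
        (short (-27 * kH5 U V) (-54 * kT5 U V)).Point) + .some (kX5 z U V / 5) (kY5 z U V / 5) hn =
      .some (kX5 z (-V) U / 5) (kY5 z (-V) U / 5) hn' := by
  have hn := klein_nonsingular hz h6 h5 h
  have h' : kH5 (-V) U ^ 3 ≠ kT5 (-V) U ^ 2 := by rw [kH5_rot, kT5_rot]; exact h
  have hn' := klein_nonsingular hz h6 h5 h'
  rw [kH5_rot, kT5_rot] at hn'
  refine ⟨hn, hn', ?_⟩
  have h2 : (2 : L) ≠ 0 := fun h => h6 (by linear_combination 3 * h)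
  have hy := klein_y_ne_zero hz h6 h5 h
  have hne : kY5 z U V / 5 ≠
      (short (-27 * kH5 U V) (-54 * kT5 U V)).negY (kX5 z U V / 5) (kY5 z U V / 5) := by
    rw [short_negY]
    intro hh
    exact hy (by
      have : 2 * (kY5 z U V / 5) = 0 := by linear_combination hh
      simpa [h2, h5] using this)
  rw [Affine.Point.add_of_Y_ne hne]
  have hyy : kY5 z U V / 5 + kY5 z U V / 5 ≠ 0 := by
    rw [← two_mul]; exact mul_ne_zero h2 (div_ne_zero hy h5)
  have hsl : (short (-27 * kH5 U V) (-54 * kT5 U V)).slope (kX5 z U V / 5) (kX5 z U V / 5)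
      (kY5 z U V / 5) (kY5 z U V / 5) =
        (3 * kX5 z U V ^ 2 - 675 * kH5 U V) / (10 * kY5 z U V) := by
    rw [Affine.slope_of_Y_ne rfl hne, short_negY, sub_neg_eq_add,
      div_eq_div_iff hyy (mul_ne_zero (show (10 : L) ≠ 0 by
        rw [show (10 : L) = 2 * 5 by norm_num]; exact mul_ne_zero h2 h5) hy)]
    field_simp
    ring
  have h10 : (10 : L) ≠ 0 := by
    rw [show (10 : L) = 2 * 5 by norm_num]; exact mul_ne_zero h2 h5
  have ex : ((3 * kX5 z U V ^ 2 - 675 * kH5 U V) / (10 * kY5 z U V)) ^ 2 - kX5 z U V / 5 -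
      kX5 z U V / 5 = kX5 z (-V) U / 5 := by
    field_simp
    linear_combination 5 * kX5_double z U V hz
  apply some_eq_some
  · rw [short_addX, hsl, ex]
  · rw [short_addY, hsl, ex]
    field_simp
    linear_combination kY5_double z U V hz

/-- The point has order five. -/
theorem klein_five :
    ∃ hn, (5 : ℕ) • (Affine.Point.some (kX5 z U V / 5) (kY5 z U V / 5) hn :
      (short (-27 * kH5 U V) (-54 * kT5 U V)).Point) = 0 := by
  obtain ⟨hn, hn', e⟩ := klein_double hz h6 h5 h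
  have h' : kH5 (-V) U ^ 3 ≠ kT5 (-V) U ^ 2 := by rw [kH5_rot, kT5_rot]; exact h
  have key : ∃ hm hm', (Affine.Point.some (kX5 z (-V) U / 5) (kY5 z (-V) U / 5) hm :
      (short (-27 * kH5 U V) (-54 * kT5 U V)).Point) +
        .some (kX5 z (-V) U / 5) (kY5 z (-V) U / 5) hm =
      .some (kX5 z U V / 5) (-kY5 z U V / 5) hm' := by
    have := klein_double hz h6 h5 h'
    rw [kH5_rot, kT5_rot, kX5_neg, kY5_neg] at this
    exact this
  obtain ⟨hm, hm', e'⟩ := key
  refine ⟨hn, ?_⟩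
  set P : (short (-27 * kH5 U V) (-54 * kT5 U V)).Point :=
    Affine.Point.some (kX5 z U V / 5) (kY5 z U V / 5) hn
  have e4 : (2 : ℕ) • ((2 : ℕ) • P) = -P := by
    rw [two_nsmul P, e, two_nsmul, e', Affine.Point.neg_some]
    exact some_eq_some rfl (by rw [short_negY]; ring)
  rw [show (5 : ℕ) = 2 * 2 + 1 from rfl, succ_nsmul, mul_nsmul, e4, neg_add_cancel]

end

end FLTAgent.Switch
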