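import Fermat.Agent.Switch.FrobCharpoly
import Fermat.Agent.Switch.KleinPoint
import Fermat.Agent.Switch.KleinLine

/-!
# Curves on a Klein line have the same number of points modulo `5`

Over `k = F_q` let `(A, B)` be nondegenerate and `(A₁, B₁)` another nondegenerate point of the line
attached to it. Then the two curves `y² = x³ - 27 A x - 54 B` have congruent numbers of points mod `5`.

Main declarations: `klein_line_congr`.
-/

set_option autoImplicit false

namespace FLTAgent.Switch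

open Polynomial WeierstrassCurve

noncomputable section

universe u

variable {k : Type u} [Field k] [Fintype k] [DecidableEq k] {L : Type u} [Field L] [Algebra k L]
  [DecidableEq L]

local notation "qq" => Fintype.card k

/-- Coefficientwise `q`-th power on `L(x)`. -/
def coeffFrob : RatFunc L →+* RatFunc L :=
  RatFunc.liftRingHom ((algebraMap L[X] (RatFunc L)).comp (mapRingHom (qPow (k := k) L)))
    (nonZeroDivisors_le_comap_nonZeroDivisors_of_injective _
      ((RatFunc.algebraMap_injective L).comp (map_injective _ (qPow (k := k) L).injective)))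

theorem coeffFrob_algebraMap (p : L[X]) :
    coeffFrob (k := k) (algebraMap L[X] (RatFunc L) p) =
      algebraMap L[X] (RatFunc L) (p.map (qPow (k := k) L)) := by
  simp [coeffFrob]

theorem coeffFrob_X : coeffFrob (k := k) (RatFunc.X : RatFunc L) = RatFunc.X := by
  rw [← RatFunc.algebraMap_X, coeffFrob_algebraMap, map_X]

theorem coeffFrob_C (c : k) :
    coeffFrob (k := k) (RatFunc.C (algebraMap k L c)) = RatFunc.C (algebraMap k L c) := by
  rw [← RatFunc.algebraMap_C, coeffFrob_algebraMap, Polynomial.map_C, qPow_algebraMap]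

theorem eval₂_qPow {x₀ : L} (hx : x₀ ^ qq = x₀) (p : L[X]) :
    eval₂ (RingHom.id L) x₀ (p.map (qPow (k := k) L)) = eval₂ (RingHom.id L) x₀ p ^ qq := by
  show _ = qPow (k := k) L (eval₂ (RingHom.id L) x₀ p)
  rw [eval₂_map, hom_eval₂, RingHom.comp_id, RingHom.id_comp]
  congr 1
  exact hx.symm

/-- Evaluation at a fixed point commutes with Frobenius. -/
theorem Val.coeffFrob {x₀ : L} (hx : x₀ ^ qq = x₀) {r : RatFunc L} {v : L}
    (h : (evalPlace L x₀).Val r v) :
    (evalPlace L x₀).Val (FLTAgent.Switch.coeffFrob (k := k) r) (v ^ qq) := by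
  obtain ⟨hd, hv⟩ := h
  have hd' : eval₂ (RingHom.id L) x₀ r.denom ≠ 0 := hd
  have hv' : eval₂ (RingHom.id L) x₀ r.num / eval₂ (RingHom.id L) x₀ r.denom = v := hv
  rw [← RatFunc.num_div_denom r, map_div₀, coeffFrob_algebraMap, coeffFrob_algebraMap, ← hv',
    div_pow, ← eval₂_qPow hx, ← eval₂_qPow hx]
  refine (evalPlace_algebraMap L x₀ _).div (evalPlace_algebraMap L x₀ _) ?_
  rw [eval₂_qPow hx]
  exact pow_ne_zero _ hd'

variable [DecidableEq (RatFunc L)] {A B : RatFunc L} {α β : k} {x₀ : L}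

theorem two_ne_zero_ratFunc' (h2 : (2 : k) ≠ 0) : (2 : RatFunc L) ≠ 0 :=
  two_ne_zero_ratFunc (two_ne_zero_ext L h2)

/-- Specialisation commutes with Frobenius. -/
theorem sp_coeffFrob (hx : x₀ ^ qq = x₀) (h2 : (2 : k) ≠ 0) (hd : 4 * α ^ 3 + 27 * β ^ 2 ≠ 0)
    (g : GoodPlace (evalPlace L x₀) A B (algebraMap k L α) (algebraMap k L β))
    (σ : ScaleData A B A B) (hσ : σ.φ = coeffFrob (k := k)) (hs : σ.s = 1)
    (P : (short A B).Point) :
    g.spHom (σ.hom P) = (qFrobData L h2 hd).hom (g.spHom P) := by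
  cases P with
  | zero =>
    simp only [← Affine.Point.zero_def, map_zero]
  | some X Y h =>
    rw [ScaleData.hom_some]
    show g.sp (Affine.Point.some _ _ (σ.nonsingular h)) = (qFrobData L h2 hd).hom (g.sp (.some X Y h))
    have eX : σ.φ X / σ.s ^ 2 = coeffFrob (k := k) X := by rw [hσ, hs, one_pow, div_one]
    have eY : σ.φ Y / σ.s ^ 3 = coeffFrob (k := k) Y := by rw [hσ, hs, one_pow, div_one]
    by_cases hX : X ∈ (evalPlace L x₀).O
    · obtain ⟨u, hu⟩ := PlaceData.val_of_mem hX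
      obtain ⟨v, hv, -⟩ := g.val_y h.left hu
      obtain ⟨h1, e1⟩ := g.sp_some h hu hv
      obtain ⟨h2', e2⟩ := g.sp_some (σ.nonsingular h) (eX ▸ Val.coeffFrob hx hu)
        (eY ▸ Val.coeffFrob hx hv)
      obtain ⟨h3, e3⟩ := qFrob_some L h2 hd h1
      rw [e1, e2, e3]
    · rw [g.sp_of_notMem h hX, map_zero]
      apply g.sp_of_notMem
      rw [eX]
      intro hm
      obtain ⟨w, hw⟩ := PlaceData.val_of_mem hm
      have h0 := Val.coeffFrob (k := k) hx (PlaceData.val_inv_of_notMem hX)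
      rw [map_inv₀, zero_pow Fintype.card_ne_zero] at h0
      have h1 := hw.mul h0
      rw [mul_inv_cancel₀ ((_root_.map_ne_zero _).2 (PlaceData.ne_zero_of_notMem hX)), mul_zero] at h1
      exact one_ne_zero ((PlaceData.val_one).unique h1)

theorem disc_short {F : Type*} [Field F] (h6 : (6 : F) ≠ 0) {a b : F} (h : a ^ 3 ≠ b ^ 2) :
    4 * (-27 * a) ^ 3 + 27 * (-54 * b) ^ 2 ≠ 0 := by
  rw [show 4 * (-27 * a) ^ 3 + 27 * (-54 * b) ^ 2 = -(2 ^ 2 * 3 ^ 9) * (a ^ 3 - b ^ 2) by ring]
  have h2 : (2 : F) ≠ 0 := fun h => h6 (by linear_combination 3 * h)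
  have h3 : (3 : F) ≠ 0 := fun h => h6 (by linear_combination 2 * h)
  exact mul_ne_zero (neg_ne_zero.2 (mul_ne_zero (pow_ne_zero _ h2) (pow_ne_zero _ h3)))
    (sub_ne_zero.2 h)

/-- The two numbers of points agree modulo `5`. -/
theorem klein_line_congr [IsAlgClosed L] (h30 : ((Nat.factorial 30 : ℕ) : k) ≠ 0)
    (A₀ B₀ c t : k) (h0 : A₀ ^ 3 ≠ B₀ ^ 2) {A₁ B₁ : k}
    (hA : (Nat.factorial 20 : k) * A₁ = lineValH A₀ B₀ (1 + c * t) t)
    (hB : (Nat.factorial 30 : k) * B₁ = lineValT A₀ B₀ (1 + c * t) t)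
    (h1 : A₁ ^ 3 ≠ B₁ ^ 2) :
    (5 : ℤ) ∣ (Nat.card (short (-27 * A₁) (-54 * B₁)).Point : ℤ) -
      Nat.card (short (-27 * A₀) (-54 * B₀)).Point := by
  have small : ∀ n : ℕ, 0 < n → n ≤ 30 → (n : k) ≠ 0 := fun n hn hn' h => by
    obtain ⟨d, hd⟩ := Nat.dvd_factorial hn hn'
    exact h30 (by rw [hd, Nat.cast_mul, h, zero_mul])
  have h20 : ((Nat.factorial 20 : ℕ) : k) ≠ 0 := fun h => by
    obtain ⟨d, hd⟩ := Nat.factorial_dvd_factorial (show 20 ≤ 30 by norm_num)
    exact h30 (by rw [hd, Nat.cast_mul, h, zero_mul])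
  have h2 : (2 : k) ≠ 0 := by simpa using small 2 (by norm_num) (by norm_num)
  have h6 : (6 : k) ≠ 0 := by simpa using small 6 (by norm_num) (by norm_num)
  have h5 : (5 : k) ≠ 0 := by simpa using small 5 (by norm_num) (by norm_num)
  have h3 : (3 : k) ≠ 0 := by simpa using small 3 (by norm_num) (by norm_num)
  have inj := (algebraMap k L).injective
  have e6 : (6 : L) ≠ 0 := by simpa [map_ofNat] using (_root_.map_ne_zero (algebraMap k L)).2 h6
  have e5 : (5 : L) ≠ 0 := by simpa [map_ofNat] using (_root_.map_ne_zero (algebraMap k L)).2 h5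
  have e3 : (3 : L) ≠ 0 := by simpa [map_ofNat] using (_root_.map_ne_zero (algebraMap k L)).2 h3
  have e1728 : (1728 : L) ≠ 0 := by
    rw [show (1728 : L) = 6 ^ 3 * (2 ^ 3) by norm_num]
    exact mul_ne_zero (pow_ne_zero _ e6) (pow_ne_zero _ (two_ne_zero_ext L h2))
  obtain ⟨u, v, hu, hv⟩ := exists_klein_preimage e1728 e5
    (A := algebraMap k L A₀) (B := algebraMap k L B₀)
    (by rw [← map_pow, ← map_pow]; exact fun h => h0 (inj h))
  obtain ⟨z, hz⟩ := IsAlgClosed.exists_root
    ((X : L[X]) ^ 4 + X ^ 3 + X ^ 2 + X + 1) (by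
      have : ((X : L[X]) ^ 4 + X ^ 3 + X ^ 2 + X + 1).degree = 4 := by compute_degree!
      rw [this]; decide)
  simp only [IsRoot, eval_add, eval_pow, eval_X, eval_one] at hz
  -- the curve over `L(x)`
  set C' : L →+* RatFunc L := RatFunc.C with hC'
  set s : RatFunc L := 1 + C' (algebraMap k L c) * RatFunc.X with hs
  set Wu : RatFunc L := s * C' u + RatFunc.X * kFv (C' u) (C' v) with hWu
  set Wv : RatFunc L := s * C' v - RatFunc.X * kFu (C' u) (C' v) with hWv
  obtain ⟨lH, lT⟩ := kH_kT_line (C' u) (C' v) s RatFunc.X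
  rw [← map_kH, ← map_kT, hu, hv, ← hWu, ← hWv] at lH lT
  have f20 : ((Nat.factorial 20 : ℕ) : RatFunc L) ≠ 0 := by
    rw [← map_natCast C', ← map_natCast (algebraMap k L), _root_.map_ne_zero, _root_.map_ne_zero]; exact h20
  have f30 : ((Nat.factorial 30 : ℕ) : RatFunc L) ≠ 0 := by
    rw [← map_natCast C', ← map_natCast (algebraMap k L), _root_.map_ne_zero, _root_.map_ne_zero]; exact h30
  -- values at a point of `k`
  have key : ∀ τ a b : k, (Nat.factorial 20 : k) * a = lineValH A₀ B₀ (1 + c * τ) τ →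
      (Nat.factorial 30 : k) * b = lineValT A₀ B₀ (1 + c * τ) τ →
      (evalPlace L (algebraMap k L τ)).Val (kH Wu Wv) (algebraMap k L a) ∧
        (evalPlace L (algebraMap k L τ)).Val (kT Wu Wv) (algebraMap k L b) := by
    intro τ a b ha hb
    set τ' := algebraMap k L τ with hτ
    have hC : ∀ w, (evalPlace L τ').Val (C' w) w := fun w => evalPlace_C L τ' w
    have hX := evalPlace_X L τ'
    have hsv : (evalPlace L τ').Val s (1 + algebraMap k L c * τ') :=
      (PlaceData.val_one).add ((hC _).mul hX)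
    have hWuv : (evalPlace L τ').Val Wu ((1 + algebraMap k L c * τ') * u + τ' * kFv u v) := by
      have : (evalPlace L τ').Val (kFv (C' u) (C' v)) (kFv u v) := by
        rw [← map_kFv]; exact hC _
      exact (hsv.mul (hC u)).add (hX.mul this)
    have hWvv : (evalPlace L τ').Val Wv ((1 + algebraMap k L c * τ') * v - τ' * kFu u v) := by
      have : (evalPlace L τ').Val (kFu (C' u) (C' v)) (kFu u v) := by
        rw [← map_kFu]; exact hC _
      exact (hsv.mul (hC v)).sub (hX.mul this)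
    set Wu' := (1 + algebraMap k L c * τ') * u + τ' * kFv u v
    set Wv' := (1 + algebraMap k L c * τ') * v - τ' * kFu u v
    obtain ⟨mH, mT⟩ := kH_kT_line u v (1 + algebraMap k L c * τ') τ'
    rw [hu, hv] at mH mT
    have aH : kH Wu' Wv' = algebraMap k L a := by
      have := congrArg (algebraMap k L) ha
      rw [map_mul, map_natCast, map_lineValH, map_add, map_one, map_mul, ← hτ, ← mH] at this
      refine (mul_left_cancel₀ ?_ this).symm
      rw [← map_natCast (algebraMap k L), _root_.map_ne_zero]; exact h20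
    have aT : kT Wu' Wv' = algebraMap k L b := by
      have := congrArg (algebraMap k L) hb
      rw [map_mul, map_natCast, map_lineValT, map_add, map_one, map_mul, ← hτ, ← mT] at this
      refine (mul_left_cancel₀ ?_ this).symm
      rw [← map_natCast (algebraMap k L), _root_.map_ne_zero]; exact h30
    have hU := hWuv.pow 5
    have hV := hWvv.pow 5
    refine ⟨?_, ?_⟩
    · rw [← aH]
      simp only [kH, kH5]
      exact ((((hU.pow 4).sub (((PlaceData.val_ofNat 228).mul (hU.pow 3)).mul hV)).add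
        (((PlaceData.val_ofNat 494).mul (hU.pow 2)).mul (hV.pow 2))).add
        (((PlaceData.val_ofNat 228).mul hU).mul (hV.pow 3))).add (hV.pow 4)
    · rw [← aT]
      simp only [kT, kT5]
      exact ((((hU.pow 6).add (hV.pow 6)).add ((PlaceData.val_ofNat 522).mul
        (((hU.pow 5).mul hV).sub (hU.mul (hV.pow 5))))).sub ((PlaceData.val_ofNat 10005).mul
        (((hU.pow 4).mul (hV.pow 2)).add ((hU.pow 2).mul (hV.pow 4))))).neg
  have base : (Nat.factorial 20 : k) * A₀ = lineValH A₀ B₀ (1 + c * 0) 0 ∧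
      (Nat.factorial 30 : k) * B₀ = lineValT A₀ B₀ (1 + c * 0) 0 := by
    constructor
    · rw [lineValH, Finset.sum_eq_single 0 (fun n _ hn => by rw [zero_pow hn, mul_zero])
        (fun h => absurd (Finset.mem_range.2 (by norm_num)) h), coeffH, if_pos rfl]
      simp
    · rw [lineValT, Finset.sum_eq_single 0 (fun n _ hn => by rw [zero_pow hn, mul_zero])
        (fun h => absurd (Finset.mem_range.2 (by norm_num)) h), coeffT, if_pos rfl]
      simp
  have good : ∀ τ a b : k, (Nat.factorial 20 : k) * a = lineValH A₀ B₀ (1 + c * τ) τ →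
      (Nat.factorial 30 : k) * b = lineValT A₀ B₀ (1 + c * τ) τ → a ^ 3 ≠ b ^ 2 →
      GoodPlace (evalPlace L (algebraMap k L τ)) (-27 * kH Wu Wv) (-54 * kT Wu Wv)
        (algebraMap k L (-27 * a)) (algebraMap k L (-54 * b)) := by
    intro τ a b ha hb hab
    obtain ⟨va, vb⟩ := key τ a b ha hb
    refine ⟨?_, ?_, two_ne_zero_ext L h2, disc_ne_zero_ext L (disc_short h6 hab)⟩
    · rw [map_mul, map_neg, map_ofNat]
      exact (PlaceData.val_ofNat 27).neg.mul va
    · rw [map_mul, map_neg, map_ofNat]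
      exact (PlaceData.val_ofNat 54).neg.mul vb
  have g0 := good 0 A₀ B₀ base.1 base.2 h0
  have g1 := good t A₁ B₁ hA hB h1
  have hne : kH Wu Wv ^ 3 ≠ kT Wu Wv ^ 2 := by
    intro h
    obtain ⟨va, vb⟩ := key 0 A₀ B₀ base.1 base.2
    have := (va.pow 3).unique (h ▸ vb.pow 2)
    rw [← map_pow, ← map_pow] at this
    exact h0 (inj this)
  have k6 : (6 : RatFunc L) ≠ 0 := by simpa [map_ofNat] using (_root_.map_ne_zero C').2 e6
  have k5 : (5 : RatFunc L) ≠ 0 := by simpa [map_ofNat] using (_root_.map_ne_zero C').2 e5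
  have kz : C' z ^ 4 + C' z ^ 3 + C' z ^ 2 + C' z + 1 = 0 := by
    simpa using congrArg C' hz
  obtain ⟨hn, hT5⟩ := klein_five kz k6 k5 (U := Wu ^ 5) (V := Wv ^ 5) hne
  set T : (short (-27 * kH Wu Wv) (-54 * kT Wu Wv)).Point := Affine.Point.some _ _ hn with hTdef
  replace hT5 : (5 : ℕ) • T = 0 := hT5
  -- Frobenius on the curve over `L(x)`
  have hfix : coeffFrob (k := k) (kH Wu Wv) = kH Wu Wv ∧ coeffFrob (k := k) (kT Wu Wv) = kT Wu Wv := by
    have hsfix : coeffFrob (k := k) s = s := by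
      rw [hs, map_add, map_one, map_mul, coeffFrob_X, hC', coeffFrob_C]
    constructor
    · apply mul_left_cancel₀ f20
      conv_lhs => rw [← map_natCast (coeffFrob (k := k) (L := L)), ← map_mul, lH, map_lineValH]
      rw [lH, hC', coeffFrob_C, coeffFrob_C, coeffFrob_X, hsfix]
    · apply mul_left_cancel₀ f30
      conv_lhs => rw [← map_natCast (coeffFrob (k := k) (L := L)), ← map_mul, lT, map_lineValT]
      rw [lT, hC', coeffFrob_C, coeffFrob_C, coeffFrob_X, hsfix]
  let σ : ScaleData (-27 * kH Wu Wv) (-54 * kT Wu Wv) (-27 * kH Wu Wv) (-54 * kT Wu Wv) :=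
    { φ := coeffFrob (k := k)
      s := 1
      s_ne := one_ne_zero
      two_ne := two_ne_zero_ratFunc' h2
      disc_ne := disc_short k6 hne
      hA := by rw [map_mul, map_neg, map_ofNat, hfix.1]; ring
      hB := by rw [map_mul, map_neg, map_ofNat, hfix.2]; ring }
  have hpow : ∀ τ : k, algebraMap k L τ ^ qq = algebraMap k L τ := fun τ => by
    rw [← map_pow, FiniteField.pow_card]
  have d0 := disc_short h6 h0
  have d1 := disc_short h6 h1
  set N₀ : ℤ := (qq : ℤ) + 1 - Nat.card (short (-27 * A₀) (-54 * B₀)).Point with hN₀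
  set N₁ : ℤ := (qq : ℤ) + 1 - Nat.card (short (-27 * A₁) (-54 * B₁)).Point with hN₁
  set Z := (2 : ℕ) • (σ.hom (σ.hom T) - N₀ • σ.hom T + (qq : ℤ) • T) with hZ
  have hZ5 : (5 : ℕ) • Z = 0 := by
    have h1' : (5 : ℕ) • σ.hom T = 0 := by rw [← map_nsmul, hT5, map_zero]
    have h2' : (5 : ℕ) • σ.hom (σ.hom T) = 0 := by rw [← map_nsmul, h1', map_zero]
    rw [hZ, smul_comm, smul_add, smul_sub, h2', smul_comm, h1', smul_comm, hT5]
    simp
  have hZ0 : g0.spHom Z = 0 := by
    rw [hZ, map_nsmul, map_add, map_sub, map_zsmul, map_zsmul,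
      sp_coeffFrob (hpow 0) h2 d0 g0 σ rfl rfl, sp_coeffFrob (hpow 0) h2 d0 g0 σ rfl rfl]
    exact frob_charpoly L h2 d0 (g0.spHom T)
  have hZz : Z = 0 := g0.eq_zero_of_five e3 e5 hZ5 hZ0
  have hat1 := congrArg g1.spHom hZz
  rw [hZ, map_nsmul, map_add, map_sub, map_zsmul, map_zsmul, map_zero,
    sp_coeffFrob (hpow t) h2 d1 g1 σ rfl rfl, sp_coeffFrob (hpow t) h2 d1 g1 σ rfl rfl] at hat1
  have hch := frob_charpoly L h2 d1 (g1.spHom T)
  set T₁ := g1.spHom T with hT₁
  set S := (qFrobData L h2 d1).hom T₁ with hS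
  have hS5 : (5 : ℕ) • S = 0 := by
    rw [hS, hT₁, ← map_nsmul, ← map_nsmul, hT5, map_zero, map_zero]
  have hS0 : S ≠ 0 := by
    have hT1ne : T₁ ≠ 0 := fun h => Affine.Point.some_ne_zero hn (g1.eq_zero_of_five e3 e5 hT5 h)
    cases hc : T₁ with
    | zero => exact absurd hc hT1ne
    | some x y h =>
      rw [hS, hc, ScaleData.hom_some]
      exact Affine.Point.some_ne_zero _
  have hdiff : (2 * (N₁ - N₀)) • S = 0 := by
    have e : (2 : ℕ) • ((qFrobData L h2 d1).hom S - N₀ • S + (qq : ℤ) • T₁) -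
        (2 : ℕ) • ((qFrobData L h2 d1).hom S - N₁ • S + (qq : ℤ) • T₁) = (2 * (N₁ - N₀)) • S := by
      rw [mul_smul, sub_smul, ← natCast_zsmul, ← natCast_zsmul]
      push_cast
      module
    rw [← e, hat1, hch, sub_zero]
  have hord : addOrderOf S = 5 :=
    haveI : Fact (Nat.Prime 5) := ⟨Nat.prime_five⟩
    addOrderOf_eq_prime hS5 hS0
  have h5dvd : (5 : ℤ) ∣ 2 * (N₁ - N₀) := by
    have := addOrderOf_dvd_iff_zsmul_eq_zero.2 hdiff
    rwa [hord] at this
  have := (Int.Prime.dvd_mul' Nat.prime_five h5dvd).resolve_left (by norm_num)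
  rw [hN₁, hN₀] at this
  obtain ⟨w, hw⟩ := this
  exact ⟨-w, by push_cast at hw; linarith⟩

end

end FLTAgent.Switch
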