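import Mathlib

/-!
# Finite differences of a Laurent tail

If `F(m) = ∑ r_j m^{-j}` has first nonzero coefficient at `j = k ≥ 1`, then an order `11` difference
on any `12` fixed nodes is asymptotic to a nonzero multiple of `m^{-(k+11)}`.

Main declarations: `exists_weights`, `tendsto_diff`.
-/

set_option autoImplicit false

namespace FLTAgent.Switch

open Polynomial Filter Topology

noncomputable section

/-- Truncated geometric series to the power `j`, with natural coefficients. -/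
def geomPow (j : ℕ) : ℕ[X] := (∑ i ∈ Finset.range 12, (X : ℕ[X]) ^ i) ^ j

theorem coeff_geom (i : ℕ) (hi : i < 12) :
    (∑ l ∈ Finset.range 12, (X : ℕ[X]) ^ l).coeff i = 1 := by
  simp [coeff_X_pow, hi]

theorem coeff_geomPow_pos (j : ℕ) {i : ℕ} (hi : i < 12) : 0 < (geomPow (j + 1)).coeff i := by
  induction j generalizing i with
  | zero => simp [geomPow, coeff_geom i hi]
  | succ j ih =>
    rw [geomPow, pow_succ, ← geomPow, coeff_mul]
    refine lt_of_lt_of_le ?_ (Finset.single_le_sum (f := fun p : ℕ × ℕ =>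
      (geomPow (j + 1)).coeff p.1 * (∑ l ∈ Finset.range 12, (X : ℕ[X]) ^ l).coeff p.2)
      (fun _ _ => Nat.zero_le _) (a := (i, 0)) (by simp))
    rw [coeff_geom 0 (by norm_num), mul_one]
    exact ih hi

/-- `geomPow j` over `ℂ`. -/
def geomPowC (j : ℕ) : ℂ[X] := (geomPow j).map (Nat.castRingHom ℂ)

theorem geomPowC_eq (j : ℕ) : geomPowC j = (∑ i ∈ Finset.range 12, (X : ℂ[X]) ^ i) ^ j := by
  simp [geomPowC, geomPow, Polynomial.map_pow, Polynomial.map_sum]

theorem coeff_geomPowC_ne_zero {j : ℕ} (hj : 1 ≤ j) : (geomPowC j).coeff 11 ≠ 0 := by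
  obtain ⟨j, rfl⟩ : ∃ j', j = j' + 1 := ⟨j - 1, by omega⟩
  rw [geomPowC, coeff_map]
  exact Nat.cast_ne_zero.2 (coeff_geomPow_pos j (by norm_num)).ne'

/-- `(1 - y)^{-j}` up to order `11`, with an explicit continuous remainder. -/
theorem exists_inv_pow_expansion (j : ℕ) :
    ∃ R : ℂ → ℂ, ContinuousAt R 0 ∧ ∀ y : ℂ, y ≠ 1 →
      ((1 - y) ^ j)⁻¹ = (∑ i ∈ Finset.range 12, (geomPowC j).coeff i * y ^ i) + y ^ 12 * R y := by
  obtain ⟨q, hq⟩ : (X : ℂ[X]) ^ 12 ∣ (1 - X) ^ j * geomPowC j - 1 := by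
    rw [geomPowC_eq, ← mul_pow, mul_neg_geom_sum (X : ℂ[X]) 12]
    have := sub_dvd_pow_sub_pow (1 - (X : ℂ[X]) ^ 12) 1 j
    rw [one_pow, show 1 - (X : ℂ[X]) ^ 12 - 1 = -X ^ 12 by ring, neg_dvd] at this
    exact this
  obtain ⟨t, ht⟩ : ∃ t : ℂ[X],
      geomPowC j = (∑ i ∈ Finset.range 12, C ((geomPowC j).coeff i) * X ^ i) + X ^ 12 * t := by
    obtain ⟨t, ht⟩ : (X : ℂ[X]) ^ 12 ∣
        geomPowC j - ∑ i ∈ Finset.range 12, C ((geomPowC j).coeff i) * X ^ i := by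
      rw [X_pow_dvd_iff]
      intro d hd
      simp [coeff_sub, hd]
    exact ⟨t, by rw [← ht]; ring⟩
  refine ⟨fun y => t.eval y - q.eval y / (1 - y) ^ j, ?_, fun y hy => ?_⟩
  · exact t.continuous.continuousAt.sub (q.continuous.continuousAt.div
      ((continuous_const.sub continuous_id).pow j).continuousAt (by simp))
  have hy' : (1 - y) ^ j ≠ 0 := pow_ne_zero j (sub_ne_zero.2 (Ne.symm hy))
  have e1 := congrArg (eval y) hq
  simp only [eval_sub, eval_mul, eval_pow, eval_X, eval_one] at e1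
  have e2 := congrArg (eval y) ht
  simp only [eval_add, eval_mul, eval_pow, eval_X, eval_finsetSum, eval_C] at e2
  show ((1 - y) ^ j)⁻¹ = _ + y ^ 12 * (t.eval y - q.eval y / (1 - y) ^ j)
  field_simp
  linear_combination (1 - y) ^ j * e2 - e1

/-- Weights killing polynomials of degree `≤ 10` on `12` nodes. -/
theorem exists_weights (S : Finset ℕ) (hS : S.card = 12) :
    ∃ w : ℕ → ℤ, (∀ P : ℂ[X], P.natDegree ≤ 10 → ∑ h ∈ S, (w h : ℂ) * P.eval (h : ℂ) = 0) ∧
      ∑ h ∈ S, (w h : ℂ) * (h : ℂ) ^ 11 ≠ 0 := by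
  classical
  set d : ℕ → ℤ := fun h => ∏ j ∈ S.erase h, ((h : ℤ) - j) with hd
  have hd0 : ∀ h, d h ≠ 0 := fun h => Finset.prod_ne_zero_iff.2 fun j hj =>
    sub_ne_zero.2 (by exact_mod_cast (Finset.ne_of_mem_erase hj).symm)
  set W : ℤ := ∏ h ∈ S, d h with hW
  have hW0 : W ≠ 0 := Finset.prod_ne_zero_iff.2 fun h _ => hd0 h
  set w : ℕ → ℤ := fun h => ∏ j ∈ S.erase h, d j with hw
  have key : ∀ P : ℂ[X], P.degree < (12 : ℕ) →
      ∑ h ∈ S, (w h : ℂ) * P.eval (h : ℂ) = (W : ℂ) * P.coeff 11 := by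
    intro P hP
    have := Lagrange.coeff_eq_sum (s := S) (v := fun h : ℕ => (h : ℂ))
      (fun x _ y _ h => Nat.cast_injective h) (P := P) (by rw [hS]; exact hP)
    rw [hS] at this
    rw [this, Finset.mul_sum]
    refine Finset.sum_congr rfl fun h hh => ?_
    have e : (W : ℂ) = (d h : ℂ) * (w h : ℂ) := by
      rw [hW, hw, ← Int.cast_mul, Finset.mul_prod_erase S d hh]
    have e' : ∏ j ∈ S.erase h, ((h : ℂ) - (j : ℂ)) = (d h : ℂ) := by simp [hd]
    rw [e', e]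
    have : (d h : ℂ) ≠ 0 := Int.cast_ne_zero.2 (hd0 h)
    field_simp
  refine ⟨w, fun P hP => ?_, ?_⟩
  · rw [key P (lt_of_le_of_lt degree_le_natDegree (by exact_mod_cast (by omega : P.natDegree < 12))),
      coeff_eq_zero_of_natDegree_lt (by omega), mul_zero]
  · have := key (X ^ 11) (by rw [degree_X_pow]; norm_num)
    simp only [eval_pow, eval_X, coeff_X_pow, if_true, mul_one] at this
    rw [this]
    exact Int.cast_ne_zero.2 hW0

/-- The asymptotics of the difference of a Laurent tail. -/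
theorem tendsto_diff (S : Finset ℕ) (w : ℕ → ℤ)
    (hw : ∀ P : ℂ[X], P.natDegree ≤ 10 → ∑ h ∈ S, (w h : ℂ) * P.eval (h : ℂ) = 0)
    (r : ℕ → ℂ) {k n : ℕ} (hk : 1 ≤ k) (hn : k < n) (hr : ∀ j < k, r j = 0) :
    Tendsto (fun M : ℕ => (M : ℂ) ^ (k + 11) *
        ∑ h ∈ S, (w h : ℂ) * ∑ j ∈ Finset.range n, r j * (((M : ℂ) + (h : ℂ)) ^ j)⁻¹) atTop
      (𝓝 (-(r k * (geomPowC k).coeff 11 * ∑ h ∈ S, (w h : ℂ) * (h : ℂ) ^ 11))) := by
  choose R hRc hR using exists_inv_pow_expansion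
  set Ψ : ℕ → ℂ → ℂ := fun j ε => (geomPowC j).coeff 11 * (-∑ h ∈ S, (w h : ℂ) * (h : ℂ) ^ 11) +
    ε * ∑ h ∈ S, (w h : ℂ) * (h : ℂ) ^ 12 * R j (-(h : ℂ) * ε) with hΨ
  have hΨc : ∀ j, ContinuousAt (Ψ j) 0 := fun j => by
    refine continuousAt_const.add (continuousAt_id.mul ?_)
    refine tendsto_finsetSum _ fun h _ => ?_
    refine tendsto_const_nhds.mul ?_
    exact ContinuousAt.comp (f := fun ε : ℂ => -(h : ℂ) * ε) (by simpa using hRc j)
      (continuous_const.mul continuous_id).continuousAt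
  set G : ℂ → ℂ := fun ε => ∑ j ∈ Finset.Ico k n, r j * ε ^ (j - k) * Ψ j ε with hG
  have hGc : ContinuousAt G 0 := tendsto_finsetSum _ fun j _ =>
    (continuousAt_const.mul (continuous_id.pow _).continuousAt).mul (hΨc j)
  have hG0 : G 0 = -(r k * (geomPowC k).coeff 11 * ∑ h ∈ S, (w h : ℂ) * (h : ℂ) ^ 11) := by
    rw [hG]
    show ∑ j ∈ Finset.Ico k n, r j * (0 : ℂ) ^ (j - k) * Ψ j 0 = _
    rw [Finset.sum_eq_single_of_mem k (Finset.left_mem_Ico.2 hn) (fun j hj hne => by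
      rw [zero_pow (by have := (Finset.mem_Ico.1 hj).1; omega)]; ring)]
    simp only [hΨ, zero_mul, add_zero, Nat.sub_self, pow_zero, mul_one]
    ring
  have hlim : Tendsto (fun M : ℕ => G ((M : ℂ))⁻¹) atTop (𝓝 (G 0)) :=
    hGc.tendsto.comp ((tendsto_inv₀_cobounded (α := ℂ)).comp tendsto_natCast_atTop_cobounded)
  rw [hG0] at hlim
  refine hlim.congr' ?_
  filter_upwards [eventually_gt_atTop 0] with M hM
  have hMne : (M : ℂ) ≠ 0 := Nat.cast_ne_zero.2 hM.ne'
  have term : ∀ j, (M : ℂ) ^ (j + 11) * ∑ h ∈ S, (w h : ℂ) * (((M : ℂ) + (h : ℂ)) ^ j)⁻¹ =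
      Ψ j (M : ℂ)⁻¹ := by
    intro j
    set ε := (M : ℂ)⁻¹ with hε
    have hMε : (M : ℂ) * ε = 1 := mul_inv_cancel₀ hMne
    have e : ∀ h : ℕ, (((M : ℂ) + (h : ℂ)) ^ j)⁻¹ = ε ^ j *
        ((∑ i ∈ Finset.range 12, (geomPowC j).coeff i * (-(h : ℂ) * ε) ^ i) +
          (-(h : ℂ) * ε) ^ 12 * R j (-(h : ℂ) * ε)) := by
      intro h
      have hne : -(h : ℂ) * ε ≠ 1 := by
        intro he
        have : ((M + h : ℕ) : ℂ) = 0 := by
          push_cast
          linear_combination (-(M : ℂ)) * he - (h : ℂ) * hMε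
        exact hM.ne' (by have := Nat.cast_eq_zero.1 this; omega)
      rw [← hR j _ hne, hε, inv_pow, ← mul_inv, ← mul_pow]
      congr 2
      field_simp
      ring
    simp_rw [e]
    simp only [Finset.sum_range_succ_comm _ 11]
    simp only [mul_add, Finset.sum_add_distrib, Finset.mul_sum]
    have low : ∑ h ∈ S, ∑ i ∈ Finset.range 11,
        (M : ℂ) ^ (j + 11) * ((w h : ℂ) * (ε ^ j * ((geomPowC j).coeff i * (-(h : ℂ) * ε) ^ i))) = 0 := by
      rw [Finset.sum_comm]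
      refine Finset.sum_eq_zero fun i hi => ?_
      have h0 := hw (X ^ i) (by rw [natDegree_X_pow]; have := Finset.mem_range.1 hi; omega)
      simp only [eval_pow, eval_X] at h0
      calc ∑ h ∈ S, (M : ℂ) ^ (j + 11) *
            ((w h : ℂ) * (ε ^ j * ((geomPowC j).coeff i * (-(h : ℂ) * ε) ^ i)))
          = ((M : ℂ) ^ (j + 11) * ε ^ j * (geomPowC j).coeff i * (-ε) ^ i) *
              ∑ h ∈ S, (w h : ℂ) * (h : ℂ) ^ i := by
            rw [Finset.mul_sum]
            refine Finset.sum_congr rfl fun h _ => ?_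
            rw [show -(h : ℂ) * ε = -ε * h by ring, mul_pow]
            ring
        _ = 0 := by rw [h0, mul_zero]
    rw [low, add_zero]
    have hpow : (M : ℂ) ^ (j + 11) * ε ^ (j + 11) = 1 := by rw [← mul_pow, hMε, one_pow]
    simp only [hΨ, Finset.mul_sum, ← Finset.sum_neg_distrib]
    rw [← Finset.sum_add_distrib, ← Finset.sum_add_distrib]
    refine Finset.sum_congr rfl fun h _ => ?_
    linear_combination ((w h : ℂ) * ((geomPowC j).coeff 11 * (-(h : ℂ) ^ 11)) +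
      ε * (w h : ℂ) * (h : ℂ) ^ 12 * R j (-(h : ℂ) * ε)) * hpow
  rw [hG]
  show ∑ j ∈ Finset.Ico k n, r j * ((M : ℂ)⁻¹) ^ (j - k) * Ψ j (M : ℂ)⁻¹ = _
  rw [Finset.sum_congr rfl fun h (_ : h ∈ S) => Finset.mul_sum _ _ _, Finset.sum_comm, Finset.mul_sum,
    ← Finset.sum_subset (fun j hj => Finset.mem_range.2 (Finset.mem_Ico.1 hj).2)]
  · refine Finset.sum_congr rfl fun j hj => ?_
    rw [← term, Finset.mul_sum, Finset.mul_sum, Finset.mul_sum]
    refine Finset.sum_congr rfl fun h _ => ?_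
    have hjk : (M : ℂ) ^ (j + 11) = (M : ℂ) ^ (k + 11) * (M : ℂ) ^ (j - k) := by
      rw [← pow_add]; congr 1; have := (Finset.mem_Ico.1 hj).1; omega
    rw [hjk, inv_pow]
    field_simp
  · intro j hj hj'
    have : j < k := by
      by_contra hle
      exact hj' (Finset.mem_Ico.2 ⟨by omega, Finset.mem_range.1 hj⟩)
    simp [hr j this]

end

end FLTAgent.Switch
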