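import Fermat.Agent.Switch.Manin

/-!
# The characteristic equation of Frobenius as an identity between points over `k(x)`

The generic point `genPt` and its Frobenius transform `frobPt` have `hdeg` one and `q`, and
`hdeg (frobPt - genPt)` is the number of points (`hdeg_frobPt_sub`). As `hdeg` is a quadratic
form, twice `φ² - (q + 1 - #E) φ + q` kills the generic point (`frob_charpoly_generic`).
-/

set_option autoImplicit false

namespace FLTAgent.Switch

open Polynomial WeierstrassCurve

noncomputable section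

variable {k : Type*} [Field k] [Fintype k] [DecidableEq k] [DecidableEq (RatFunc k)] {a b : k}

local notation "qq" => Fintype.card k

theorem disc_ne_twist (hd : 4 * a ^ 3 + 27 * b ^ 2 ≠ 0) :
    4 * (RatFunc.C a * twistBy a b ^ 2) ^ 3 + 27 * (RatFunc.C b * twistBy a b ^ 3) ^ 2 ≠ 0 := by
  rw [show 4 * (RatFunc.C a * twistBy a b ^ 2) ^ 3 + 27 * (RatFunc.C b * twistBy a b ^ 3) ^ 2 =
    (4 * RatFunc.C a ^ 3 + 27 * RatFunc.C b ^ 2) * twistBy a b ^ 6 by ring]
  exact mul_ne_zero (disc_ne_zero_ratFunc hd) (pow_ne_zero 6 (twistBy_ne_zero a b))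

theorem pow_twistBy : twistBy a b ^ qq =
    RatFunc.X ^ (3 * qq) + RatFunc.C a * RatFunc.X ^ qq + RatFunc.C b := by
  rw [twistBy, ← map_pow, ← FiniteField.expand_card, cubic]
  simp [pow_mul', RatFunc.algebraMap_C, RatFunc.algebraMap_X]

variable (h2 : (2 : k) ≠ 0) (hd : 4 * a ^ 3 + 27 * b ^ 2 ≠ 0)

/-- The generic point. -/
def genPt : TwistPoint a b :=
  .some (twistBy a b * RatFunc.X) (twistBy a b ^ 2) (by
    rw [short_nonsingular_iff (two_ne_zero_ratFunc h2) (disc_ne_twist hd)]
    linear_combination twistBy a b ^ 3 * twistBy_eq a b)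

/-- The Frobenius point. -/
def frobPt : TwistPoint a b :=
  .some (twistBy a b * RatFunc.X ^ qq) (twistBy a b ^ (qq / 2 + 2)) (by
    rw [short_nonsingular_iff (two_ne_zero_ratFunc h2) (disc_ne_twist hd), ← pow_mul,
      show (qq / 2 + 2) * 2 = qq + 3 by have := two_mul_half_add_one (k := k) h2; omega, pow_add,
      pow_twistBy]
    ring)

theorem hdeg_some {X Y : RatFunc k} (h : (twist a b (twistBy a b)).Nonsingular X Y) {p r : k[X]}
    (hr : r ≠ 0) (hc : IsCoprime p r)
    (hX : X = twistBy a b * (algebraMap k[X] (RatFunc k) p / algebraMap k[X] (RatFunc k) r)) :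
    hdeg (Affine.Point.some X Y h : TwistPoint a b) = max p.natDegree r.natDegree := by
  simp only [hdeg, polyPair]
  refine max_natDegree_num_denom hr hc ?_
  rw [hX, mul_div_cancel_left₀ _ (twistBy_ne_zero a b)]

theorem hdeg_genPt : hdeg (genPt h2 hd) = 1 := by
  rw [genPt, hdeg_some _ one_ne_zero (p := Polynomial.X) isCoprime_one_right (by simp)]
  simp

theorem hdeg_frobPt : hdeg (frobPt h2 hd) = qq := by
  rw [frobPt, hdeg_some _ one_ne_zero (p := Polynomial.X ^ qq) isCoprime_one_right (by simp)]
  simp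

theorem X_ne_frob : twistBy a b * RatFunc.X ^ qq ≠ twistBy a b * RatFunc.X := by
  intro h
  have h' := mul_left_cancel₀ (twistBy_ne_zero a b) h
  have h1 : 1 < qq := Fintype.one_lt_card
  rw [← RatFunc.algebraMap_X, ← map_pow] at h'
  have := congrArg natDegree (RatFunc.algebraMap_injective k h')
  simp at this
  omega

/-- The degree of Frobenius minus the identity is the number of points. -/
theorem hdeg_frobPt_sub : hdeg (frobPt h2 hd - genPt h2 hd) = Nat.card (short a b).Point := by
  obtain ⟨n, hn, hco, hdeg'⟩ := exists_maninQuot (a := a) (b := b) h2 hd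
  rw [sub_eq_add_neg, frobPt, genPt, Affine.Point.neg_some,
    Affine.Point.add_of_X_ne X_ne_frob, hdeg_some _ (monic_maninDen (a := a) (b := b)).ne_zero hco,
    hdeg']
  rw [Affine.slope_of_X_ne X_ne_frob, short_addX, short_negY, sub_neg_eq_add]
  have hD := twistBy_ne_zero a b
  have hgd : algebraMap k[X] (RatFunc k) (maninDen a b) ≠ 0 :=
    RatFunc.algebraMap_ne_zero monic_maninDen.ne_zero
  have hg : algebraMap k[X] (RatFunc k) (maninGcd a b) ≠ 0 :=
    RatFunc.algebraMap_ne_zero monic_maninGcd.ne_zero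
  have hsub : RatFunc.X ^ qq - RatFunc.X ≠ (0 : RatFunc k) := fun h =>
    X_ne_frob (a := a) (b := b) (by rw [sub_eq_zero.1 h])
  rw [show algebraMap k[X] (RatFunc k) n / algebraMap k[X] (RatFunc k) (maninDen a b) =
    algebraMap k[X] (RatFunc k) (maninNum a b) /
      algebraMap k[X] (RatFunc k) (((Polynomial.X : k[X]) ^ qq - Polynomial.X) ^ 2) by
    rw [hn, ← maninGcd_mul_maninDen (a := a) (b := b) h2, map_mul, map_mul, mul_div_mul_left _ _ hg]]
  simp only [maninNum, map_sub, map_mul, map_pow, map_add, map_one, RatFunc.algebraMap_X,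
    ← show twistBy a b = algebraMap k[X] (RatFunc k) (cubic a b) from rfl]
  rw [← mul_sub]
  field_simp
  ring

theorem hdeg_sum_pos : 0 < hdeg (frobPt h2 hd + genPt h2 hd) := by
  have h := hdeg_parallelogram (twistBy_ne_zero a b) h2 hd (frobPt h2 hd) (genPt h2 hd)
  rw [hdeg_frobPt, hdeg_genPt, hdeg_frobPt_sub] at h
  have := natCard_point_le (a := a) (b := b) h2 hd
  omega

theorem hdeg_frobPt_pos : 0 < hdeg (frobPt h2 hd) := by
  rw [hdeg_frobPt]; exact Fintype.card_pos

/-- Pull-back along Frobenius. -/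
def frobHom : TwistPoint a b →+ TwistPoint a b :=
  (pullData hd h2 _ (hdeg_frobPt_pos h2 hd)).hom

/-- The square of the Frobenius point. -/
def frobSqPt : TwistPoint a b := frobHom h2 hd (frobPt h2 hd)

theorem frobHom_genPt : frobHom h2 hd (genPt h2 hd) = frobPt h2 hd := by
  have hD := twistBy_ne_zero a b
  have hi := injective_of_hdeg_pos _ (hdeg_frobPt_pos h2 hd)
  have hsD := subst_twistBy (a := a) (b := b) (XQ := twistBy a b * RatFunc.X ^ qq)
    (YQ := twistBy a b ^ (qq / 2 + 2)) (Affine.Point.some.inj (rfl : frobPt h2 hd = _) |>.1 |> fun _ =>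
      (short_equation _ _ _ _).2 (by
        rw [← pow_mul, show (qq / 2 + 2) * 2 = qq + 3 by
          have := two_mul_half_add_one (k := k) h2; omega, pow_add, pow_twistBy]
        ring)) hi
  rw [frobHom, genPt, ScaleData.hom_some, frobPt]
  apply some_eq_some
  · simp only [pullData, map_mul, hsD, subst_X]
    field_simp
  · simp only [pullData, map_pow, hsD]
    field_simp

theorem subst_frob {R : RatFunc k} (hR : R = RatFunc.X ^ qq)
    (h : Function.Injective (aeval (R := k) R)) (z : RatFunc k) : subst R h z = z ^ qq := by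
  obtain ⟨p, hp⟩ := CharP.exists k
  have := hp
  have : Fact p.Prime := ⟨CharP.char_is_prime k p⟩
  have : CharP (RatFunc k) p := charP_of_injective_ringHom (RatFunc.C (K := k)).injective p
  obtain ⟨m, -, hm⟩ := FiniteField.card k p
  have : subst R h = iterateFrobenius (RatFunc k) p m := by
    refine ratFunc_ringHom_ext (fun c => ?_) ?_
    · rw [subst_C, iterateFrobenius_def, ← map_pow, ← hm, FiniteField.pow_card]
    · rw [subst_X, iterateFrobenius_def, hR, hm]
  rw [this, iterateFrobenius_def, hm]

/-- The characteristic equation, up to a `2`-torsion point. -/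
theorem frob_charpoly_generic :
    (2 : ℕ) • (frobSqPt h2 hd - ((qq : ℤ) + 1 - Nat.card (short a b).Point) • frobPt h2 hd +
      (qq : ℤ) • genPt h2 hd) = 0 := by
  have hD := twistBy_ne_zero a b
  set P0 := genPt h2 hd with hP0
  set P1 := frobPt h2 hd with hP1
  set P2 := frobSqPt h2 hd with hP2
  set t : ℤ := (qq : ℤ) + 1 - Nat.card (short a b).Point with ht
  have e0 : (hdeg P0 : ℤ) = 1 := by rw [hP0, hdeg_genPt]; rfl
  have e1 : (hdeg P1 : ℤ) = qq := by rw [hP1, hdeg_frobPt]
  have e10 : (hdeg (P1 - P0) : ℤ) = Nat.card (short a b).Point := by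
    rw [hP1, hP0, hdeg_frobPt_sub]
  have par : ∀ P Q : TwistPoint a b,
      (hdeg (P + Q) : ℤ) + hdeg (P - Q) = 2 * hdeg P + 2 * hdeg Q := fun P Q => by
    exact_mod_cast hdeg_parallelogram hD h2 hd P Q
  have b10 : pairing P1 P0 = t := by
    have := par P1 P0
    simp only [pairing]; linarith
  have esum : (hdeg (P1 + P0) : ℤ) = qq + 1 + t := by
    have := par P1 P0; linarith
  -- Frobenius multiplies degrees by q
  have hF : ∀ P : TwistPoint a b, (hdeg (frobHom h2 hd P) : ℤ) = hdeg P * qq := fun P => by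
    have := hdeg_pull hd h2 _ (hdeg_frobPt_pos h2 hd) P
    rw [show hdeg (Affine.Point.some _ _ _ : TwistPoint a b) = qq from hdeg_frobPt h2 hd] at this
    exact_mod_cast this
  have e2 : (hdeg P2 : ℤ) = qq * qq := by
    rw [hP2, frobSqPt, hF, ← hP1, e1]
  have b21 : pairing P2 P1 = qq * t := by
    have h := hF (P1 + P0)
    rw [map_add, hP0, frobHom_genPt, ← hP0, ← hP1, show frobHom h2 hd P1 = P2 from rfl, esum] at h
    simp only [pairing]
    rw [h, e1, e2]; ring
  -- composing with `P1 + P0`
  obtain ⟨XQ, YQ, hQ, heQ⟩ : ∃ X Y h, P1 + P0 = (Affine.Point.some X Y h : TwistPoint a b) := by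
    cases hc : P1 + P0 with
    | zero =>
      exfalso
      have := hdeg_sum_pos h2 hd
      rw [← hP0, ← hP1, hc] at this
      simp [← Affine.Point.zero_def] at this
    | some X Y h => exact ⟨X, Y, h, rfl⟩
  have hpos : 0 < hdeg (Affine.Point.some XQ YQ hQ : TwistPoint a b) := by
    rw [← heQ]; exact hdeg_sum_pos h2 hd
  set Qh := (pullData hd h2 hQ hpos).hom with hQh
  have hi := injective_of_hdeg_pos hQ hpos
  have hsD := subst_twistBy hQ.left hi
  have q0 : Qh P0 = P1 + P0 := by
    rw [heQ, hP0, hQh, genPt, ScaleData.hom_some]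
    have hy := y_ne_zero_of_hdeg_pos hQ hpos
    apply some_eq_some
    · simp only [pullData, map_mul, hsD, subst_X]
      field_simp
    · simp only [pullData, map_pow, hsD]
      field_simp
  have q1 : Qh P1 = frobHom h2 hd (P1 + P0) := by
    rw [heQ, hP1, hQh, frobHom, ScaleData.hom_some]
    show (pullData hd h2 hQ hpos).hom (frobPt h2 hd) = _
    rw [frobPt, ScaleData.hom_some]
    have hy := y_ne_zero_of_hdeg_pos hQ hpos
    have hq := two_mul_half_add_one (k := k) h2
    set e := qq / 2 with he
    have hsF : ∀ z, subst (twistBy a b * RatFunc.X ^ qq / twistBy a b)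
        (injective_of_hdeg_pos _ (hdeg_frobPt_pos h2 hd)) z = z ^ qq := fun z =>
      subst_frob (by rw [mul_div_cancel_left₀ _ hD]) _ z
    apply some_eq_some
    · simp only [pullData, map_mul, map_pow, hsD, subst_X, hsF]
      simp only [← hq, show (2 * e + 1) / 2 = e by omega, div_pow]
      field_simp
      ring
    · simp only [pullData, map_pow, hsD, hsF]
      simp only [← hq, show (2 * e + 1) / 2 = e by omega, mul_pow, div_pow]
      field_simp
      ring
  have e20 : (hdeg (P2 - P0) : ℤ) = Nat.card (short a b).Point * (qq + 1 + t) := by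
    have h : (hdeg (Qh (P1 - P0)) : ℤ) = hdeg (P1 - P0) * hdeg (P1 + P0) := by
      rw [heQ]; exact_mod_cast hdeg_pull hd h2 hQ hpos (P1 - P0)
    rw [map_sub, q0, q1, map_add, hP0, frobHom_genPt, ← hP0, ← hP1,
      show frobHom h2 hd P1 = P2 from rfl, show P2 + P1 - (P1 + P0) = P2 - P0 by abel, e10, esum] at h
    exact h
  have b20 : pairing P2 P0 = t ^ 2 - 2 * qq := by
    have := par P2 P0
    have hN : (Nat.card (short a b).Point : ℤ) = qq + 1 - t := by rw [ht]; ring
    rw [e20, e0, e2, hN] at this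
    simp only [pairing]
    rw [e0, e2]
    linear_combination this
  set Z := P2 - t • P1 + (qq : ℤ) • P0 with hZ
  have hsub : ∀ P Q R : TwistPoint a b, pairing (P - Q) R = pairing P R - pairing Q R := by
    intro P Q R
    rw [eq_sub_iff_add_eq, ← pairing_add_left hD h2 hd, sub_add_cancel]
  have expand : ∀ R : TwistPoint a b,
      pairing Z R = pairing P2 R - t * pairing P1 R + qq * pairing P0 R := by
    intro R
    rw [hZ, pairing_add_left hD h2 hd, hsub, pairing_zsmul_left hD h2 hd,
      pairing_zsmul_left hD h2 hd]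
  have z0 : pairing Z P0 = 0 := by
    rw [expand, b20, b10, pairing_self hD h2 hd, e0]; ring
  have z1 : pairing Z P1 = 0 := by
    rw [expand, b21, pairing_self hD h2 hd, e1, pairing_comm hD h2 hd P0, b10]; ring
  have z2 : pairing Z P2 = 0 := by
    rw [expand, pairing_self hD h2 hd, pairing_comm hD h2 hd P1, b21, pairing_comm hD h2 hd P0,
      b20, e2]; ring
  have zz : pairing Z Z = 0 := by
    rw [expand, pairing_comm hD h2 hd P2, pairing_comm hD h2 hd P1, pairing_comm hD h2 hd P0, z0,
      z1, z2]; ring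
  have hz : hdeg Z = 0 := by
    rw [pairing_self hD h2 hd] at zz; omega
  -- degree zero forces `2`-torsion
  cases hcz : Z with
  | zero => simp [← Affine.Point.zero_def]
  | some X Y h =>
    rw [hcz] at hz
    simp only [hdeg, polyPair, Nat.max_eq_zero_iff] at hz
    obtain ⟨c, hc⟩ : ∃ c : k, X = twistBy a b * RatFunc.C c := by
      obtain ⟨u, hu⟩ := natDegree_eq_zero.1 hz.1
      obtain ⟨v, hv⟩ := natDegree_eq_zero.1 hz.2
      refine ⟨u / v, ?_⟩
      rw [map_div₀, ← RatFunc.algebraMap_C u, ← RatFunc.algebraMap_C v, hu, hv,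
        RatFunc.num_div_denom, mul_div_cancel₀ _ hD]
    have e := (short_equation _ _ _ _).1 h.left
    rw [hc] at e
    have hY : Y = 0 := by
      by_contra hY
      have e' : Y ^ 2 = twistBy a b ^ 3 * RatFunc.C ((cubic a b).eval c) := by
        rw [e, eval_cubic]; simp; ring
      have hc0 : RatFunc.C ((cubic a b).eval c) ≠ 0 := fun h0 => hY (by simpa [h0] using e')
      have := congrArg RatFunc.intDegree e'
      rw [sq, pow_succ, pow_two, RatFunc.intDegree_mul hY hY,
        RatFunc.intDegree_mul (mul_ne_zero (mul_ne_zero hD hD) hD) hc0,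
        RatFunc.intDegree_mul (mul_ne_zero hD hD) hD, RatFunc.intDegree_mul hD hD,
        RatFunc.intDegree_C, twistBy, RatFunc.intDegree_polynomial, natDegree_cubic] at this
      omega
    rw [two_nsmul, Affine.Point.add_of_Y_eq rfl (by rw [short_negY, hY, neg_zero])]

end

end FLTAgent.Switch
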