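import Fermat.Agent.Switch.Basic

/-!
# The degree of `x/D` is a quadratic form: degrees of unimodular triples

For the parallelogram law on `Y² = X³ + a D² X + b D³` over `k(x)`: the symmetric product of two
coprime pairs is unimodular with the sum of their degrees (`mdeg_symPair`), `pmMap` doubles the
degree (`mdeg_pmMap`), and proportional unimodular triples have the same degree
(`mdeg_eq_of_proportional`).
-/

set_option autoImplicit false

namespace FLTAgent.Switch

open Polynomial WeierstrassCurve

noncomputable section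

variable {k : Type*} [Field k]

/-- Unimodular triples of polynomials. -/
def Unimod (v : Fin 3 → k[X]) : Prop :=
  ∀ M : Ideal k[X], M.IsMaximal → ∃ i, v i ∉ M

/-- The largest degree in a triple. -/
def mdeg (v : Fin 3 → k[X]) : ℕ :=
  max (max (v 0).natDegree (v 1).natDegree) (v 2).natDegree

theorem natDegree_le_mdeg (v : Fin 3 → k[X]) (i : Fin 3) : (v i).natDegree ≤ mdeg v := by
  fin_cases i <;> simp [mdeg]

theorem exists_coeff_mdeg_ne_zero {v : Fin 3 → k[X]} (hv : Unimod v) :
    ∃ i, (v i).coeff (mdeg v) ≠ 0 := by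
  obtain ⟨M, hM⟩ := Ideal.exists_maximal k[X]
  obtain ⟨j, hj⟩ := hv M hM
  have hj0 : v j ≠ 0 := fun h => hj (h ▸ M.zero_mem)
  obtain ⟨i, hi⟩ : ∃ i, (v i).natDegree = mdeg v := by
    simp only [mdeg]
    rcases max_choice (max (v 0).natDegree (v 1).natDegree) (v 2).natDegree with h | h
    · rcases max_choice (v 0).natDegree (v 1).natDegree with h' | h'
      · exact ⟨0, by rw [h, h']⟩
      · exact ⟨1, by rw [h, h']⟩
    · exact ⟨2, h.symm⟩
  rcases eq_or_ne (v i) 0 with h0 | h0
  · have hm : mdeg v = 0 := by rw [← hi, h0, natDegree_zero]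
    refine ⟨j, ?_⟩
    have hd : (v j).natDegree = 0 := Nat.le_zero.1 (hm ▸ natDegree_le_mdeg v j)
    rw [hm, ← hd]
    exact leadingCoeff_ne_zero.2 hj0
  · exact ⟨i, hi ▸ leadingCoeff_ne_zero.2 h0⟩

theorem mdeg_eq_of_coeff {v : Fin 3 → k[X]} {n : ℕ} (hle : ∀ i, (v i).natDegree ≤ n)
    (hne : ∃ i, (v i).coeff n ≠ 0) : mdeg v = n := by
  refine le_antisymm ?_ ?_
  · simp only [mdeg, max_le_iff]
    exact ⟨⟨hle 0, hle 1⟩, hle 2⟩
  · obtain ⟨i, hi⟩ := hne
    exact le_trans (le_natDegree_of_ne_zero hi) (natDegree_le_mdeg v i)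

/-- The symmetric product of two pairs. -/
def symPair {R : Type*} [CommRing R] (p r q s : R) : Fin 3 → R := ![p * q, p * s + r * q, r * s]

theorem unimod_symPair {p r q s : k[X]} (h₁ : IsCoprime p r) (h₂ : IsCoprime q s) :
    Unimod (symPair p r q s) := by
  intro M hM
  by_contra hall
  push Not at hall
  have h0 : p * q ∈ M := by simpa [symPair] using hall 0
  have h1 : p * s + r * q ∈ M := by simpa [symPair] using hall 1
  have h2 : r * s ∈ M := by simpa [symPair] using hall 2
  have key : ∀ {u w : k[X]}, IsCoprime u w → u ∈ M → w ∈ M → False := by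
    intro u w huw hu hw
    obtain ⟨c, d, hcd⟩ := huw
    exact hM.ne_top ((Ideal.eq_top_iff_one _).2
      (hcd ▸ M.add_mem (M.mul_mem_left c hu) (M.mul_mem_left d hw)))
  rcases hM.isPrime.mem_or_mem h0 with hp | hq
  · rcases hM.isPrime.mem_or_mem h2 with hr | hs
    · exact key h₁ hp hr
    · have : r * q ∈ M := by
        have := M.sub_mem h1 (M.mul_mem_left p hs)
        simpa using this
      rcases hM.isPrime.mem_or_mem this with hr | hq
      · exact key h₁ hp hr
      · exact key h₂ hq hs
  · rcases hM.isPrime.mem_or_mem h2 with hr | hs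
    · have : p * s ∈ M := by
        have := M.sub_mem h1 (M.mul_mem_left r hq)
        simpa using this
      rcases hM.isPrime.mem_or_mem this with hp | hs
      · exact key h₁ hp hr
      · exact key h₂ hq hs
    · exact key h₂ hq hs

theorem mdeg_symPair {p r q s : k[X]} (h₁ : IsCoprime p r) (h₂ : IsCoprime q s) :
    mdeg (symPair p r q s) = max p.natDegree r.natDegree + max q.natDegree s.natDegree := by
  set m := max p.natDegree r.natDegree with hm
  set n := max q.natDegree s.natDegree with hn
  have hp : p.natDegree ≤ m := le_max_left _ _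
  have hr : r.natDegree ≤ m := le_max_right _ _
  have hq : q.natDegree ≤ n := le_max_left _ _
  have hs : s.natDegree ≤ n := le_max_right _ _
  have top : ∀ {u w : k[X]} {l : ℕ}, IsCoprime u w → l = max u.natDegree w.natDegree →
      u.coeff l ≠ 0 ∨ w.coeff l ≠ 0 := by
    intro u w l huw hl
    by_cases hu : u = 0
    · subst hu
      have : IsUnit w := isCoprime_zero_left.1 huw
      right
      have hd := Polynomial.natDegree_eq_zero_of_isUnit this
      rw [hl, natDegree_zero, hd, max_self, ← hd]
      exact leadingCoeff_ne_zero.2 this.ne_zero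
    by_cases hw : w = 0
    · subst hw
      left
      have hd := Polynomial.natDegree_eq_zero_of_isUnit (isCoprime_zero_right.1 huw)
      rw [hl, natDegree_zero, hd, max_self, ← hd]
      exact leadingCoeff_ne_zero.2 hu
    rcases max_choice u.natDegree w.natDegree with h | h
    · left; rw [hl, h]; exact leadingCoeff_ne_zero.2 hu
    · right; rw [hl, h]; exact leadingCoeff_ne_zero.2 hw
  refine mdeg_eq_of_coeff (fun i => ?_) ?_
  · fin_cases i <;> simp only [symPair, Fin.zero_eta, Fin.mk_one, Fin.reduceFinMk,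
      Matrix.cons_val_zero, Matrix.cons_val_one, Matrix.cons_val]
    · exact natDegree_mul_le.trans (add_le_add hp hq)
    · exact natDegree_add_le_of_degree_le (natDegree_mul_le.trans (add_le_add hp hs))
        (natDegree_mul_le.trans (add_le_add hr hq))
    · exact natDegree_mul_le.trans (add_le_add hr hs)
  · by_contra hall
    push Not at hall
    have c0 : p.coeff m * q.coeff n = 0 := by
      simpa [symPair, coeff_mul_add_eq_of_natDegree_le hp hq] using hall 0
    have c1 : p.coeff m * s.coeff n + r.coeff m * q.coeff n = 0 := by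
      simpa [symPair, coeff_mul_add_eq_of_natDegree_le hp hs,
        coeff_mul_add_eq_of_natDegree_le hr hq] using hall 1
    have c2 : r.coeff m * s.coeff n = 0 := by
      simpa [symPair, coeff_mul_add_eq_of_natDegree_le hr hs] using hall 2
    rcases mul_eq_zero.1 c0 with hp0 | hq0
    · have hr0 := (top h₁ hm).resolve_left (not_not.2 hp0)
      have hs0 := (mul_eq_zero.1 c2).resolve_left hr0
      have hq0 : q.coeff n = 0 := by
        rw [hp0, hs0] at c1; simpa [hr0] using c1
      exact (top h₂ hn).elim (fun h => h hq0) fun h => h hs0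
    · have hs0 := (top h₂ hn).resolve_left (not_not.2 hq0)
      have hr0 := (mul_eq_zero.1 c2).resolve_right hs0
      have hp0 : p.coeff m = 0 := by
        rw [hq0, hr0] at c1; simpa [hs0] using c1
      exact (top h₁ hm).elim (fun h => h hp0) fun h => h hr0

variable {a b : k}

theorem unimod_pmMap (h2 : (2 : k) ≠ 0) (hd : 4 * a ^ 3 + 27 * b ^ 2 ≠ 0) {v : Fin 3 → k[X]}
    (hv : Unimod v) : Unimod (pmMap (C a) (C b) v) := by
  intro M hM
  by_contra hall
  push Not at hall
  have := hM
  let _ : Field (k[X] ⧸ M) := Ideal.Quotient.field M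
  set φ : k[X] →+* k[X] ⧸ M := Ideal.Quotient.mk M
  have h2' : (2 : k[X] ⧸ M) ≠ 0 := by
    have := (map_ne_zero (φ.comp C)).2 h2
    simpa [map_ofNat] using this
  have hd' : 4 * φ (C a) ^ 3 + 27 * φ (C b) ^ 2 ≠ 0 := by
    have := (map_ne_zero (φ.comp C)).2 hd
    simpa [map_ofNat] using this
  have h0 : (fun i => φ (v i)) = 0 :=
    pmMap_eq_zero h2' hd' fun i => by
      rw [← pmMap_map]; exact Ideal.Quotient.eq_zero_iff_mem.2 (hall i)
  obtain ⟨i, hi⟩ := hv M hM
  exact hi (Ideal.Quotient.eq_zero_iff_mem.1 (congrFun h0 i))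

theorem mdeg_pmMap (h2 : (2 : k) ≠ 0) (hd : 4 * a ^ 3 + 27 * b ^ 2 ≠ 0) {v : Fin 3 → k[X]}
    (hv : Unimod v) : mdeg (pmMap (C a) (C b) v) = 2 * mdeg v := by
  set n := mdeg v with hn
  have hb := natDegree_le_mdeg v
  rw [← hn] at hb
  have two : ∀ i j, ((v i) * (v j)).natDegree ≤ n + n := fun i j =>
    natDegree_mul_le.trans (add_le_add (hb i) (hb j))
  have coeff2 : ∀ i j, ((v i) * (v j)).coeff (n + n) = (v i).coeff n * (v j).coeff n := fun i j =>
    coeff_mul_add_eq_of_natDegree_le (hb i) (hb j)
  have e0 : pmMap (C a) (C b) v 0 = v 0 * v 0 + C (-2 * a) * (v 0 * v 2) + C (a * a) * (v 2 * v 2)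
      + C (-4 * b) * (v 1 * v 2) := by
    simp [pmMap, map_mul, map_neg, map_ofNat]; ring
  have e1 : pmMap (C a) (C b) v 1 = C 2 * (v 1 * v 0) + C (2 * a) * (v 1 * v 2)
      + C (4 * b) * (v 2 * v 2) := by
    simp [pmMap, map_mul, map_ofNat]; ring
  have e2 : pmMap (C a) (C b) v 2 = v 1 * v 1 + C (-4) * (v 0 * v 2) := by
    simp [pmMap, map_neg, map_ofNat]; ring
  have hle : ∀ i, (pmMap (C a) (C b) v i).natDegree ≤ n + n := by
    have scal : ∀ (c : k) i j, (C c * (v i * v j)).natDegree ≤ n + n := fun c i j =>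
      (natDegree_C_mul_le _ _).trans (two i j)
    intro i
    fin_cases i
    · simp only [Fin.zero_eta]
      rw [e0]
      exact natDegree_add_le_of_degree_le (natDegree_add_le_of_degree_le
        (natDegree_add_le_of_degree_le (two _ _) (scal _ _ _)) (scal _ _ _)) (scal _ _ _)
    · simp only [Fin.mk_one]
      rw [e1]
      exact natDegree_add_le_of_degree_le
        (natDegree_add_le_of_degree_le (scal _ _ _) (scal _ _ _)) (scal _ _ _)
    · simp only [Fin.reduceFinMk]
      rw [e2]
      exact natDegree_add_le_of_degree_le (two _ _) (scal _ _ _)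
  rw [two_mul]
  refine mdeg_eq_of_coeff hle ?_
  by_contra hall
  push Not at hall
  have q0 := hall 0
  have q1 := hall 1
  have q2 := hall 2
  rw [e0] at q0
  rw [e1] at q1
  rw [e2] at q2
  simp only [coeff_add, coeff_C_mul, coeff2] at q0 q1 q2
  have h0 : (fun i => (v i).coeff n) = 0 := pmMap_eq_zero h2 hd fun i => by
    fin_cases i <;> simp [pmMap]
    · linear_combination q0
    · linear_combination q1
    · linear_combination q2
  obtain ⟨i, hi⟩ := exists_coeff_mdeg_ne_zero hv
  exact hi (congrFun h0 i)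

/-- Proportional unimodular triples have the same degree. -/
theorem mdeg_eq_of_proportional {v w : Fin 3 → k[X]} (hv : Unimod v) (hw : Unimod w)
    {c : RatFunc k}
    (h : ∀ i, algebraMap k[X] (RatFunc k) (w i) = c * algebraMap k[X] (RatFunc k) (v i)) :
    mdeg w = mdeg v := by
  have hd0 : algebraMap k[X] (RatFunc k) c.denom ≠ 0 :=
    RatFunc.algebraMap_ne_zero (RatFunc.denom_ne_zero c)
  have h' : ∀ i, c.denom * w i = c.num * v i := fun i => by
    apply RatFunc.algebraMap_injective k
    rw [map_mul, map_mul, h i]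
    nth_rw 2 [← RatFunc.num_div_denom c]
    field_simp
  have hco := RatFunc.isCoprime_num_denom c
  have key : ∀ {M : Ideal k[X]}, M.IsMaximal → c.num ∈ M → c.denom ∈ M → False := by
    intro M hM hu hw'
    obtain ⟨s, t, hst⟩ := hco
    exact hM.ne_top ((Ideal.eq_top_iff_one _).2
      (hst ▸ M.add_mem (M.mul_mem_left s hu) (M.mul_mem_left t hw')))
  have hdu : IsUnit c.denom := by
    by_contra hnu
    obtain ⟨M, hM, hmem⟩ := exists_max_ideal_of_mem_nonunits hnu
    obtain ⟨i, hi⟩ := hv M hM
    have : c.num * v i ∈ M := h' i ▸ M.mul_mem_right (w i) hmem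
    exact key hM ((hM.isPrime.mem_or_mem this).resolve_right hi) hmem
  have hnu : IsUnit c.num := by
    by_contra hnu
    obtain ⟨M, hM, hmem⟩ := exists_max_ideal_of_mem_nonunits hnu
    obtain ⟨i, hi⟩ := hw M hM
    have : c.denom * w i ∈ M := (h' i).symm ▸ M.mul_mem_right (v i) hmem
    exact key hM hmem ((hM.isPrime.mem_or_mem this).resolve_right hi)
  obtain ⟨u, hu, hun⟩ := Polynomial.isUnit_iff.1 hnu
  obtain ⟨u', hu', hud⟩ := Polynomial.isUnit_iff.1 hdu
  have hdeg : ∀ i, (w i).natDegree = (v i).natDegree := fun i => by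
    have := congrArg natDegree (h' i)
    rwa [← hun, ← hud, natDegree_C_mul hu'.ne_zero, natDegree_C_mul hu.ne_zero] at this
  simp [mdeg, hdeg]

end

end FLTAgent.Switch
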