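import Fermat.Agent.Switch.KleinLine

/-!
# Integral values on the line

With `N = 30!·N₀`, `s = 1 + a·(N·m)` and `t = N·m`, the quotient `lineValH A B s t / 20!` is
`A + N₀·(integral polynomial in A, B, N₀, a, m)`, and similarly for `lineValT`.

Main declarations: `factorial_mul_lineAlpha`, `factorial_mul_lineBeta`.
-/

set_option autoImplicit false

namespace FLTAgent.Switch

open MvPolynomial

noncomputable section

variable {R : Type*} [CommRing R]

/-- `(lineValH A B (1 + a t) t / 20! - A) / N₀` with `t = 30!·N₀·m`. -/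
def lineAlpha (A B N₀ a m : R) : R :=
  a * (Nat.factorial 30 : R) * m *
      (∑ i ∈ Finset.range 20, (1 + a * ((Nat.factorial 30 : R) * N₀ * m)) ^ i) * A +
    ∑ j ∈ Finset.range 20, ((Nat.factorial 30 / Nat.factorial (j + 1) : ℕ) : R) *
      ((Nat.factorial 30 : R) * N₀) ^ j * aeval ![A, B] (coeffH (j + 1)) *
      (1 + a * ((Nat.factorial 30 : R) * N₀ * m)) ^ (20 - (j + 1)) * m ^ (j + 1)

/-- `(lineValT A B (1 + a t) t / 30! - B) / N₀` with `t = 30!·N₀·m`. -/
def lineBeta (A B N₀ a m : R) : R :=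
  a * (Nat.factorial 30 : R) * m *
      (∑ i ∈ Finset.range 30, (1 + a * ((Nat.factorial 30 : R) * N₀ * m)) ^ i) * B +
    ∑ j ∈ Finset.range 30, ((Nat.factorial 30 / Nat.factorial (j + 1) : ℕ) : R) *
      ((Nat.factorial 30 : R) * N₀) ^ j * aeval ![A, B] (coeffT (j + 1)) *
      (1 + a * ((Nat.factorial 30 : R) * N₀ * m)) ^ (30 - (j + 1)) * m ^ (j + 1)

theorem map_lineAlpha {S : Type*} [CommRing S] (φ : R →+* S) (A B N₀ a m : R) :
    φ (lineAlpha A B N₀ a m) = lineAlpha (φ A) (φ B) (φ N₀) (φ a) (φ m) := by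
  simp only [lineAlpha, map_add, map_mul, map_pow, map_sum, map_natCast, map_one, map_aeval_pair]

theorem map_lineBeta {S : Type*} [CommRing S] (φ : R →+* S) (A B N₀ a m : R) :
    φ (lineBeta A B N₀ a m) = lineBeta (φ A) (φ B) (φ N₀) (φ a) (φ m) := by
  simp only [lineBeta, map_add, map_mul, map_pow, map_sum, map_natCast, map_one, map_aeval_pair]

theorem line_term (d n j : ℕ) (hd : j + 1 ≤ d) (hn : d ≤ n) (q f N₀ m p : R)
    (hf : f = (Nat.factorial n : R)) :
    (Nat.factorial d : R) * (N₀ * (((Nat.factorial n / Nat.factorial (j + 1) : ℕ) : R) *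
        (f * N₀) ^ j * q * p * m ^ (j + 1))) =
      ((Nat.factorial d / Nat.factorial (j + 1) : ℕ) : R) * q * p * (f * N₀ * m) ^ (j + 1) := by
  have e : (Nat.factorial d : ℕ) * (Nat.factorial n / Nat.factorial (j + 1)) =
      (Nat.factorial d / Nat.factorial (j + 1)) * Nat.factorial n := by
    rw [← Nat.mul_div_assoc _ (Nat.factorial_dvd_factorial (hd.trans hn)),
      mul_comm (Nat.factorial d / Nat.factorial (j + 1)),
      ← Nat.mul_div_assoc _ (Nat.factorial_dvd_factorial hd), mul_comm]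
  have e' := congrArg (Nat.cast : ℕ → R) e
  push_cast at e'
  rw [← hf] at e'
  calc _ = ((Nat.factorial d : R) * ((Nat.factorial n / Nat.factorial (j + 1) : ℕ) : R)) *
        (N₀ * (f * N₀) ^ j * q * p * m ^ (j + 1)) := by ring
    _ = _ := by rw [e']; ring

theorem factorial_mul_lineAlpha (A B N₀ a m : R) :
    (Nat.factorial 20 : R) * (A + N₀ * lineAlpha A B N₀ a m) =
      lineValH A B (1 + a * ((Nat.factorial 30 : R) * N₀ * m))
        ((Nat.factorial 30 : R) * N₀ * m) := by
  set t := (Nat.factorial 30 : R) * N₀ * m with ht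
  set s := 1 + a * t with hs
  rw [lineValH, Finset.sum_range_succ', pow_zero, mul_one, Nat.sub_zero,
    show coeffH 0 = X 0 from if_pos rfl, aeval_X, Nat.factorial_zero, Nat.div_one]
  have hsum : ∑ k ∈ Finset.range 20, ((Nat.factorial 20 / Nat.factorial (k + 1) : ℕ) : R) *
        aeval ![A, B] (coeffH (k + 1)) * s ^ (20 - (k + 1)) * t ^ (k + 1) =
      (Nat.factorial 20 : R) * (N₀ * ∑ j ∈ Finset.range 20,
        ((Nat.factorial 30 / Nat.factorial (j + 1) : ℕ) : R) *
          ((Nat.factorial 30 : R) * N₀) ^ j * aeval ![A, B] (coeffH (j + 1)) *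
          s ^ (20 - (j + 1)) * m ^ (j + 1)) := by
    rw [Finset.mul_sum, Finset.mul_sum]
    refine Finset.sum_congr rfl fun j hj => ?_
    rw [line_term 20 30 j (Finset.mem_range.1 hj) (by norm_num) _ _ N₀ m _ rfl, ← ht]
  rw [hsum, lineAlpha, ← ht, ← hs]
  have hg := geom_sum_mul s 20
  simp only [Matrix.cons_val_zero]
  linear_combination ((Nat.factorial 20 : R) * A) *
    (show s ^ 20 - 1 = a * t * ∑ i ∈ Finset.range 20, s ^ i by rw [← hg, hs]; ring).symm

theorem factorial_mul_lineBeta (A B N₀ a m : R) :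
    (Nat.factorial 30 : R) * (B + N₀ * lineBeta A B N₀ a m) =
      lineValT A B (1 + a * ((Nat.factorial 30 : R) * N₀ * m))
        ((Nat.factorial 30 : R) * N₀ * m) := by
  set t := (Nat.factorial 30 : R) * N₀ * m with ht
  set s := 1 + a * t with hs
  rw [lineValT, Finset.sum_range_succ', pow_zero, mul_one, Nat.sub_zero,
    show coeffT 0 = X 1 from if_pos rfl, aeval_X, Nat.factorial_zero, Nat.div_one]
  have hsum : ∑ k ∈ Finset.range 30, ((Nat.factorial 30 / Nat.factorial (k + 1) : ℕ) : R) *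
        aeval ![A, B] (coeffT (k + 1)) * s ^ (30 - (k + 1)) * t ^ (k + 1) =
      (Nat.factorial 30 : R) * (N₀ * ∑ j ∈ Finset.range 30,
        ((Nat.factorial 30 / Nat.factorial (j + 1) : ℕ) : R) *
          ((Nat.factorial 30 : R) * N₀) ^ j * aeval ![A, B] (coeffT (j + 1)) *
          s ^ (30 - (j + 1)) * m ^ (j + 1)) := by
    rw [Finset.mul_sum, Finset.mul_sum]
    refine Finset.sum_congr rfl fun j hj => ?_
    rw [line_term 30 30 j (Finset.mem_range.1 hj) le_rfl _ _ N₀ m _ rfl, ← ht]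
  rw [hsum, lineBeta, ← ht, ← hs]
  have hg := geom_sum_mul s 30
  simp only [Matrix.cons_val_one, Matrix.cons_val_zero]
  linear_combination ((Nat.factorial 30 : R) * B) *
    (show s ^ 30 - 1 = a * t * ∑ i ∈ Finset.range 30, s ^ i by rw [← hg, hs]; ring).symm

end

end FLTAgent.Switch
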