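import Fermat.Agent.Switch.Compose

/-!
# Manin's count: the degree of `Frobenius - 1` is the number of points

Over a finite field the abscissa of Frobenius minus the identity is `maninNum` over
`(X ^ q - X)²`; after cancelling `maninGcd` the degree is the number of points
(`exists_maninQuot`), which is one plus the sum of the square root counts (`natCard_point`).
-/

set_option autoImplicit false

namespace FLTAgent.Switch

open Polynomial WeierstrassCurve

noncomputable section

variable {k : Type*} [Field k] [Fintype k] [DecidableEq k] {a b : k}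

local notation "qq" => Fintype.card k

/-- The number of square roots of `c³ + a c + b`. -/
def sqrtCount (a b c : k) : ℕ :=
  (Finset.univ.filter fun y : k => y ^ 2 = (cubic a b).eval c).card

theorem two_mul_half_add_one (h2 : (2 : k) ≠ 0) : 2 * (qq / 2) + 1 = qq := by
  have := FiniteField.odd_card_of_char_ne_two (F := k) (fun h => h2 (by
    have := ringChar.charP k
    rw [h] at *
    exact_mod_cast CharP.cast_eq_zero k 2))
  omega

theorem eval_cubic (a b c : k) : (cubic a b).eval c = c ^ 3 + a * c + b := by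
  simp [cubic]

theorem sqrtCount_cases (h2 : (2 : k) ≠ 0) (c : k) :
    (sqrtCount a b c = 0 ∧ (cubic a b).eval c ^ (qq / 2) = -1) ∨
    (sqrtCount a b c = 1 ∧ (cubic a b).eval c = 0) ∨
    (sqrtCount a b c = 2 ∧ (cubic a b).eval c ≠ 0 ∧ (cubic a b).eval c ^ (qq / 2) = 1) := by
  have hchar : ringChar k ≠ 2 := fun h => h2 (by
    have := ringChar.charP k
    rw [h] at *
    exact_mod_cast CharP.cast_eq_zero k 2)
  set v := (cubic a b).eval c with hv
  unfold sqrtCount
  rw [← hv]
  by_cases h0 : v = 0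
  · refine Or.inr (Or.inl ⟨?_, h0⟩)
    rw [Finset.card_eq_one]
    exact ⟨0, by ext y; simp [h0]⟩
  by_cases hs : IsSquare v
  · refine Or.inr (Or.inr ⟨?_, h0, (FiniteField.isSquare_iff hchar h0).1 hs⟩)
    obtain ⟨r, hr⟩ := hs
    have hr0 : r ≠ 0 := fun h => h0 (by rw [hr, h, mul_zero])
    rw [Finset.card_eq_two]
    refine ⟨r, -r, fun h => hr0 ?_, ?_⟩
    · have : 2 * r = 0 := by linear_combination h
      simpa [h2] using this
    · ext y
      simp only [Finset.mem_filter, Finset.mem_univ, true_and, Finset.mem_insert, Finset.mem_singleton]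
      rw [hr, ← pow_two, sq_eq_sq_iff_eq_or_eq_neg]
  · refine Or.inl ⟨?_, ?_⟩
    · rw [Finset.card_eq_zero, Finset.filter_eq_empty_iff]
      intro y _ hy
      exact hs ⟨y, by rw [← hy, sq]⟩
    · rcases FiniteField.pow_dichotomy hchar h0 with h | h
      · exact absurd ((FiniteField.isSquare_iff hchar h0).2 h) hs
      · exact h

/-- Numerator of `x(Frobenius - 1)` before cancellation. -/
def maninNum (a b : k) : k[X] :=
  cubic a b * (cubic a b ^ (qq / 2) + 1) ^ 2 - (Polynomial.X ^ qq + Polynomial.X) * (Polynomial.X ^ qq - Polynomial.X) ^ 2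

/-- The common factor. -/
def maninGcd (a b : k) : k[X] :=
  ∏ c : k, (Polynomial.X - Polynomial.C c) ^ (2 - sqrtCount a b c)

/-- The reduced denominator. -/
def maninDen (a b : k) : k[X] :=
  ∏ c : k, (Polynomial.X - Polynomial.C c) ^ sqrtCount a b c

theorem sqrtCount_le_two (h2 : (2 : k) ≠ 0) (c : k) : sqrtCount a b c ≤ 2 := by
  rcases sqrtCount_cases (a := a) (b := b) h2 c with ⟨h, -⟩ | ⟨h, -⟩ | ⟨h, -⟩ <;> omega

theorem X_pow_card_sub_X_eq_prod :
    (Polynomial.X : k[X]) ^ qq - Polynomial.X = ∏ c : k, (Polynomial.X - Polynomial.C c) := by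
  have h1 : 1 < qq := Fintype.one_lt_card
  have hm : ((Polynomial.X : k[X]) ^ qq - Polynomial.X).Monic := monic_X_pow_sub (by
    rw [degree_X]; exact_mod_cast h1)
  have hroots := FiniteField.roots_X_pow_card_sub_X k
  have hs : ((Polynomial.X : k[X]) ^ qq - Polynomial.X).roots.card =
      ((Polynomial.X : k[X]) ^ qq - Polynomial.X).natDegree := by
    rw [hroots, FiniteField.X_pow_card_sub_X_natDegree_eq k h1]; rfl
  conv_lhs => rw [← prod_multiset_X_sub_C_of_monic_of_roots_card_eq hm hs, hroots]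
  rfl

theorem maninGcd_mul_maninDen (h2 : (2 : k) ≠ 0) :
    maninGcd a b * maninDen a b = ((Polynomial.X : k[X]) ^ qq - Polynomial.X) ^ 2 := by
  rw [X_pow_card_sub_X_eq_prod, ← Finset.prod_pow, maninGcd, maninDen, ← Finset.prod_mul_distrib]
  refine Finset.prod_congr rfl fun c _ => ?_
  rw [← pow_add, Nat.sub_add_cancel (sqrtCount_le_two h2 c)]

theorem X_sub_C_dvd_frob (c : k) :
    Polynomial.X - Polynomial.C c ∣ (Polynomial.X : k[X]) ^ qq - Polynomial.X := by
  rw [dvd_iff_isRoot, IsRoot, eval_sub, eval_pow, eval_X, FiniteField.pow_card, sub_self]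

theorem X_sub_C_dvd_iff (c : k) (p : k[X]) : Polynomial.X - Polynomial.C c ∣ p ↔ p.eval c = 0 :=
  dvd_iff_isRoot

theorem maninGcd_dvd (h2 : (2 : k) ≠ 0) : maninGcd a b ∣ maninNum a b := by
  refine Fintype.prod_dvd_of_coprime ?_ fun c => ?_
  · intro c d hcd
    exact (isCoprime_X_sub_C_of_isUnit_sub (sub_ne_zero.2 hcd).isUnit).pow
  rw [maninNum]
  refine dvd_sub ?_ ((pow_dvd_pow_of_dvd (X_sub_C_dvd_frob c) _).trans
    (Dvd.dvd.mul_left (pow_dvd_pow _ (by omega)) _))
  rcases sqrtCount_cases (a := a) (b := b) h2 c with ⟨h, h'⟩ | ⟨h, h'⟩ | ⟨h, -⟩ <;> rw [h]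
  · exact dvd_mul_of_dvd_right (pow_dvd_pow_of_dvd
      ((X_sub_C_dvd_iff _ _).2 (by simp [h'])) 2) _
  · rw [show (2 - 1 : ℕ) = 1 from rfl, pow_one]
    exact dvd_mul_of_dvd_left ((X_sub_C_dvd_iff _ _).2 h') _
  · simp

theorem disc_deriv (hd : 4 * a ^ 3 + 27 * b ^ 2 ≠ 0) {c : k} (hc : (cubic a b).eval c = 0) :
    3 * c ^ 2 + a ≠ 0 := by
  intro h
  rw [eval_cubic] at hc
  exact hd (by linear_combination (-27 * c ^ 3 - 27 * a * c + 27 * b) * hc +
    (4 * a ^ 2 + 15 * a * c ^ 2 + 9 * c ^ 4) * h)

theorem eval_maninQuot_ne_zero (h2 : (2 : k) ≠ 0) (hd : 4 * a ^ 3 + 27 * b ^ 2 ≠ 0) {n : k[X]}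
    (hn : maninNum a b = maninGcd a b * n) {c : k} (hc : sqrtCount a b c ≠ 0) : n.eval c ≠ 0 := by
  intro h0
  have hfrob : ((Polynomial.X : k[X]) ^ qq - Polynomial.X).eval c = 0 := by
    simp [FiniteField.pow_card]
  rcases sqrtCount_cases (a := a) (b := b) h2 c with ⟨h, -⟩ | ⟨h, h'⟩ | ⟨h, h', h''⟩
  · exact hc h
  · -- simple root
    have hdvd : (Polynomial.X - Polynomial.C c) ^ 2 ∣ maninNum a b := by
      rw [hn, sq]
      refine mul_dvd_mul (dvd_trans ?_ (Finset.dvd_prod_of_mem _ (Finset.mem_univ c)))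
        ((X_sub_C_dvd_iff _ _).2 h0)
      simp [h]
    have h1 : (Polynomial.X - Polynomial.C c) ^ 2 ∣ cubic a b * (cubic a b ^ (qq / 2) + 1) ^ 2 := by
      have := dvd_add hdvd (Dvd.dvd.mul_left (pow_dvd_pow_of_dvd (X_sub_C_dvd_frob c) 2)
        ((Polynomial.X : k[X]) ^ qq + Polynomial.X))
      rwa [maninNum, sub_add_cancel] at this
    have hq : qq / 2 ≠ 0 := by
      have := two_mul_half_add_one (k := k) h2
      have := Fintype.one_lt_card (α := k)
      omega
    have hcop : IsCoprime ((Polynomial.X - Polynomial.C c) ^ 2) ((cubic a b ^ (qq / 2) + 1) ^ 2) := by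
      apply IsCoprime.pow
      rw [(irreducible_X_sub_C c).coprime_iff_not_dvd, X_sub_C_dvd_iff]
      simp [h', hq]
    obtain ⟨r, hr⟩ := hcop.dvd_of_dvd_mul_right h1
    have := congrArg (fun p => (derivative p).eval c) hr
    simp [cubic, derivative_mul, derivative_pow] at this
    exact disc_deriv hd h' (by linear_combination this)
  · have := congrArg (eval c) hn
    rw [eval_mul, h0, mul_zero, maninNum, eval_sub, eval_mul, eval_mul, eval_pow, eval_pow, hfrob,
      eval_add, eval_pow, h''] at this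
    simp at this
    rcases this with h | h
    · exact h' h
    · exact h2 (by linear_combination h)

theorem natDegree_maninDen : (maninDen a b).natDegree = ∑ c : k, sqrtCount a b c := by
  rw [maninDen, natDegree_prod_of_monic _ _ fun c _ => (monic_X_sub_C c).pow _]
  simp

theorem natDegree_maninGcd : (maninGcd a b).natDegree = ∑ c : k, (2 - sqrtCount a b c) := by
  rw [maninGcd, natDegree_prod_of_monic _ _ fun c _ => (monic_X_sub_C c).pow _]
  simp

theorem monic_maninGcd : (maninGcd a b).Monic :=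
  monic_prod_of_monic _ _ fun c _ => (monic_X_sub_C c).pow _

theorem monic_maninDen : (maninDen a b).Monic :=
  monic_prod_of_monic _ _ fun c _ => (monic_X_sub_C c).pow _

theorem natDegree_maninNum (h2 : (2 : k) ≠ 0) : (maninNum a b).natDegree = 2 * qq + 1 := by
  set e := qq / 2 with he
  have hq := two_mul_half_add_one (k := k) h2
  have h1 : 1 < qq := Fintype.one_lt_card
  have hfq : cubic a b ^ qq = (Polynomial.X : k[X]) ^ (3 * qq) + Polynomial.C a * Polynomial.X ^ qq + Polynomial.C b := by
    rw [← FiniteField.expand_card, cubic]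
    simp [pow_mul']
  have hexp : maninNum a b = (Polynomial.X : k[X]) ^ (2 * qq + 1) + (Polynomial.X ^ (qq + 2) + Polynomial.C a * Polynomial.X ^ qq + Polynomial.C b
      + Polynomial.C 2 * cubic a b ^ (e + 1) + cubic a b - Polynomial.X ^ 3) := by
    have : cubic a b * (cubic a b ^ e + 1) ^ 2 =
        cubic a b ^ (2 * e + 1) + Polynomial.C 2 * cubic a b ^ (e + 1) + cubic a b := by
      rw [map_ofNat]; ring
    rw [maninNum, this, hq, hfq]
    ring
  rw [hexp]
  have hsmall : (Polynomial.X ^ (qq + 2) + Polynomial.C a * Polynomial.X ^ qq + Polynomial.C b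
      + Polynomial.C 2 * cubic a b ^ (e + 1) + cubic a b - Polynomial.X ^ 3 : k[X]).natDegree ≤ 2 * qq := by
    refine (natDegree_sub_le _ _).trans (max_le ?_ (by rw [natDegree_X_pow]; omega))
    refine natDegree_add_le_of_degree_le (natDegree_add_le_of_degree_le
      (natDegree_add_le_of_degree_le (natDegree_add_le_of_degree_le ?_ ?_) ?_) ?_) ?_
    · rw [natDegree_X_pow]; omega
    · exact (natDegree_C_mul_le _ _).trans (by rw [natDegree_X_pow]; omega)
    · simp
    · refine (natDegree_C_mul_le _ _).trans ?_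
      rw [natDegree_pow, natDegree_cubic]; omega
    · rw [natDegree_cubic]; omega
  rw [natDegree_add_eq_left_of_natDegree_lt (by rw [natDegree_X_pow]; omega), natDegree_X_pow]

/-- The number of affine solutions plus one. -/
theorem natCard_point (h2 : (2 : k) ≠ 0) (hd : 4 * a ^ 3 + 27 * b ^ 2 ≠ 0) :
    Nat.card (short a b).Point = 1 + ∑ c : k, sqrtCount a b c := by
  let e : (short a b).Point ≃ Option {p : k × k // p.2 ^ 2 = (cubic a b).eval p.1} :=
    { toFun := fun P => match P with
        | .zero => none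
        | .some x y h => some ⟨(x, y), by rw [eval_cubic]; exact (short_equation a b x y).1 h.left⟩
      invFun := fun o => match o with
        | none => 0
        | some p => .some p.1.1 p.1.2 (by
            have := p.2; rw [eval_cubic] at this
            rw [short_nonsingular_iff h2 hd]; exact this)
      left_inv := by rintro (_ | ⟨x, y, h⟩) <;> rfl
      right_inv := by rintro (_ | p) <;> rfl }
  rw [Nat.card_congr e, Nat.card_eq_fintype_card, Fintype.card_option, add_comm,
    Fintype.card_congr (Equiv.subtypeProdEquivSigmaSubtype fun x y : k => y ^ 2 = (cubic a b).eval x),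
    Fintype.card_sigma]
  congr 1
  refine Finset.sum_congr rfl fun c _ => ?_
  rw [Fintype.card_subtype]
  rfl

/-- **Manin's count.** -/
theorem exists_maninQuot (h2 : (2 : k) ≠ 0) (hd : 4 * a ^ 3 + 27 * b ^ 2 ≠ 0) :
    ∃ n : k[X], maninNum a b = maninGcd a b * n ∧ IsCoprime n (maninDen a b) ∧
      max n.natDegree (maninDen a b).natDegree = Nat.card (short a b).Point := by
  obtain ⟨n, hn⟩ := maninGcd_dvd (a := a) (b := b) h2
  refine ⟨n, hn, IsCoprime.prod_right fun c _ => ?_, ?_⟩
  · by_cases hc : sqrtCount a b c = 0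
    · rw [hc, pow_zero]; exact isCoprime_one_right
    · apply IsCoprime.pow_right
      rw [isCoprime_comm, (irreducible_X_sub_C c).coprime_iff_not_dvd, X_sub_C_dvd_iff]
      exact eval_maninQuot_ne_zero h2 hd hn hc
  · have hd0 := natDegree_maninNum (a := a) (b := b) h2
    have hn0 : n ≠ 0 := by
      intro h0; rw [hn, h0, mul_zero, natDegree_zero] at hd0; omega
    rw [hn, natDegree_mul monic_maninGcd.ne_zero hn0, natDegree_maninGcd] at hd0
    have hsum : ∑ c : k, (2 - sqrtCount a b c) + ∑ c : k, sqrtCount a b c = 2 * qq := by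
      rw [← Finset.sum_add_distrib, Finset.sum_congr rfl fun c _ =>
        Nat.sub_add_cancel (sqrtCount_le_two (a := a) (b := b) h2 c)]
      simp [mul_comm]
    rw [natDegree_maninDen, natCard_point h2 hd]
    omega

theorem natCard_point_le (h2 : (2 : k) ≠ 0) (hd : 4 * a ^ 3 + 27 * b ^ 2 ≠ 0) :
    Nat.card (short a b).Point ≤ 2 * qq + 1 := by
  rw [natCard_point h2 hd]
  have : ∑ c : k, sqrtCount a b c ≤ ∑ _c : k, 2 :=
    Finset.sum_le_sum fun c _ => sqrtCount_le_two h2 c
  simp at this
  omega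

end

end FLTAgent.Switch
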