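import Fermat.Agent.Switch.LineInt
import Fermat.Agent.Switch.Count
import Fermat.Agent.Switch.Congr

/-!
# The switched curve

`switchCurve W a m` has `(c₄, c₆)` on the Klein line through those of `W` (`switchCurve_line`),
and the same reduction modulo the divisors of `30!·Δ` (`reductionMod_switchCurve`). It is
semistable (`switchCurve_isSemistable`) and has the same traces modulo `5` (`switchCurve_congr`).
-/

set_option autoImplicit false

namespace FLTAgent.Switch

open WeierstrassCurve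

noncomputable section

/-- Primes dividing this integer keep the reduction unchanged. -/
def switchM (W : WeierstrassCurve ℤ) : ℤ := (Nat.factorial 30 : ℤ) * W.Δ

/-- The step `N₀ = 864²·M`. -/
def switchN0 (W : WeierstrassCurve ℤ) : ℤ := 746496 * switchM W

/-- The parameter `t` of the point on the line. -/
def switchT (W : WeierstrassCurve ℤ) (m : ℤ) : ℤ := (Nat.factorial 30 : ℤ) * switchN0 W * m

/-- The curve with `(c₄, c₆)` on the line through those of `W`. -/
def switchCurve (W : WeierstrassCurve ℤ) (a m : ℤ) : WeierstrassCurve ℤ where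
  a₁ := W.a₁
  a₂ := W.a₂
  a₃ := W.a₃
  a₄ := W.a₄ - switchM W * (15552 * lineAlpha W.c₄ W.c₆ (switchN0 W) a m)
  a₆ := W.a₆ - switchM W * (1296 * W.b₂ * lineAlpha W.c₄ W.c₆ (switchN0 W) a m +
    864 * lineBeta W.c₄ W.c₆ (switchN0 W) a m)

variable (W : WeierstrassCurve ℤ) (a m : ℤ)

theorem switchCurve_c₄ :
    (switchCurve W a m).c₄ = W.c₄ + switchN0 W * lineAlpha W.c₄ W.c₆ (switchN0 W) a m := by
  generalize hα : lineAlpha W.c₄ W.c₆ (switchN0 W) a m = α
  simp only [switchCurve, hα]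
  simp only [switchN0, WeierstrassCurve.c₄, WeierstrassCurve.b₂, WeierstrassCurve.b₄]
  ring

theorem switchCurve_c₆ :
    (switchCurve W a m).c₆ = W.c₆ + switchN0 W * lineBeta W.c₄ W.c₆ (switchN0 W) a m := by
  generalize hβ : lineBeta W.c₄ W.c₆ (switchN0 W) a m = β
  generalize hα : lineAlpha W.c₄ W.c₆ (switchN0 W) a m = α
  simp only [switchCurve, hα, hβ]
  simp only [switchN0, WeierstrassCurve.c₆, WeierstrassCurve.b₂, WeierstrassCurve.b₄,
    WeierstrassCurve.b₆]
  ring

/-- In any ring the new invariants are on the line. -/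
theorem switchCurve_line {R : Type*} [CommRing R] (φ : ℤ →+* R) :
    (Nat.factorial 20 : R) * φ (switchCurve W a m).c₄ =
        lineValH (φ W.c₄) (φ W.c₆) (1 + φ a * φ (switchT W m)) (φ (switchT W m)) ∧
      (Nat.factorial 30 : R) * φ (switchCurve W a m).c₆ =
        lineValT (φ W.c₄) (φ W.c₆) (1 + φ a * φ (switchT W m)) (φ (switchT W m)) := by
  constructor
  · rw [switchCurve_c₄, switchT, map_add, map_mul, map_lineAlpha, factorial_mul_lineAlpha]
    simp only [map_mul, map_natCast]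
  · rw [switchCurve_c₆, switchT, map_add, map_mul, map_lineBeta, factorial_mul_lineBeta]
    simp only [map_mul, map_natCast]

/-- The reduction is unchanged modulo the divisors of `switchM`. -/
theorem reductionMod_switchCurve {ℓ : ℕ} (h : (ℓ : ℤ) ∣ switchM W) :
    (switchCurve W a m).reductionMod ℓ = W.reductionMod ℓ := by
  have h0 : Int.castRingHom (ZMod ℓ) (switchM W) = 0 := by
    rw [eq_intCast, ZMod.intCast_zmod_eq_zero_iff_dvd]; exact h
  ext <;>
    simp only [WeierstrassCurve.reductionMod, switchCurve, WeierstrassCurve.map_a₁,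
      WeierstrassCurve.map_a₂, WeierstrassCurve.map_a₃, WeierstrassCurve.map_a₄,
      WeierstrassCurve.map_a₆, map_sub, map_mul, h0, zero_mul, sub_zero]

theorem le_thirty_dvd_switchM {p : ℕ} (hp : p.Prime) (h : p ≤ 30) : (p : ℤ) ∣ switchM W :=
  Dvd.dvd.mul_right (Int.natCast_dvd_natCast.2 (hp.dvd_factorial.2 h)) _

theorem natCast_ne_zero_of_not_dvd_switchM {p : ℕ} (hp : p.Prime) (h : ¬ (p : ℤ) ∣ switchM W)
    {R : Type*} [CommRing R] [Nontrivial R] [CharP R p] :
    ((Nat.factorial 30 : ℕ) : R) ≠ 0 ∧ ((Nat.factorial 20 : ℕ) : R) ≠ 0 ∧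
      (1728 : R) ≠ 0 ∧ (5 : R) ≠ 0 ∧ (6 : R) ≠ 0 := by
  have h31 : 30 < p := by
    by_contra hc
    exact h (le_thirty_dvd_switchM W hp (not_lt.1 hc))
  have fac : ∀ n : ℕ, n ≤ 30 → ((Nat.factorial n : ℕ) : R) ≠ 0 := fun n hn hz => by
    have := hp.dvd_factorial.1 ((CharP.cast_eq_zero_iff R p _).1 hz)
    omega
  have small : ∀ n : ℕ, 0 < n → n < 31 → (n : R) ≠ 0 := fun n h0 hn hz => by
    have := Nat.le_of_dvd h0 ((CharP.cast_eq_zero_iff R p n).1 hz)
    omega
  refine ⟨fac 30 le_rfl, fac 20 (by norm_num), fun hz => ?_, ?_, ?_⟩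
  · have hz' : ((1728 : ℕ) : R) = 0 := by exact_mod_cast hz
    have hd : p ∣ 12 ^ 3 := (CharP.cast_eq_zero_iff R p _).1 hz'
    have := Nat.le_of_dvd (by norm_num) (hp.dvd_of_dvd_pow hd)
    omega
  · exact_mod_cast small 5 (by norm_num) (by norm_num)
  · exact_mod_cast small 6 (by norm_num) (by norm_num)

theorem c_cube_ne_c_sq_mod {p : ℕ} (h : ¬ (p : ℤ) ∣ switchM W) {R : Type*} [CommRing R]
    [IsDomain R] [CharP R p] (h1728 : (1728 : R) ≠ 0) :
    (W.c₄ : R) ^ 3 ≠ (W.c₆ : R) ^ 2 := by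
  intro he
  have hr := congrArg (Int.cast : ℤ → R) W.c_relation
  push_cast at hr
  rw [he, sub_self] at hr
  have : (W.Δ : R) = 0 := (mul_eq_zero.1 hr).resolve_left h1728
  exact h (Dvd.dvd.mul_left ((CharP.intCast_eq_zero_iff R p _).1 this) _)

/-- The switched curve is semistable. -/
theorem switchCurve_isSemistable (hW : W.IsSemistableModel) :
    (switchCurve W a m).IsSemistableModel := by
  intro p hp hΔ' h4'
  have : Fact p.Prime := ⟨hp⟩
  by_cases hM : (p : ℤ) ∣ switchM W
  · have e := reductionMod_switchCurve W a m hM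
    have eΔ := congrArg WeierstrassCurve.Δ e
    have e4 := congrArg WeierstrassCurve.c₄ e
    simp only [WeierstrassCurve.reductionMod, WeierstrassCurve.map_Δ, WeierstrassCurve.map_c₄,
      eq_intCast] at eΔ e4
    rw [(ZMod.intCast_zmod_eq_zero_iff_dvd _ p).2 hΔ'] at eΔ
    rw [(ZMod.intCast_zmod_eq_zero_iff_dvd _ p).2 h4'] at e4
    exact hW p hp ((ZMod.intCast_zmod_eq_zero_iff_dvd _ p).1 eΔ.symm)
      ((ZMod.intCast_zmod_eq_zero_iff_dvd _ p).1 e4.symm)
  set L := AlgebraicClosure (ZMod p)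
  have : CharP L p := charP_of_injective_algebraMap (algebraMap (ZMod p) L).injective p
  obtain ⟨f30, f20, h1728, h5, -⟩ := natCast_ne_zero_of_not_dvd_switchM W hp hM (R := L)
  have h4 : ((switchCurve W a m).c₄ : L) = 0 := (CharP.intCast_eq_zero_iff L p _).2 h4'
  have hd : ((switchCurve W a m).Δ : L) = 0 := (CharP.intCast_eq_zero_iff L p _).2 hΔ'
  have h6 : ((switchCurve W a m).c₆ : L) = 0 := by
    have hr := congrArg (Int.castRingHom L) (switchCurve W a m).c_relation
    rw [map_mul, map_sub, map_pow, map_pow, eq_intCast, eq_intCast, eq_intCast, eq_intCast,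
      h4, hd, mul_zero] at hr
    have : ((switchCurve W a m).c₆ : L) ^ 2 = 0 := by linear_combination hr
    exact eq_zero_of_pow_eq_zero this
  have hAB := c_cube_ne_c_sq_mod W hM (R := L) h1728
  obtain ⟨u, v, hu, hv⟩ := exists_klein_preimage h1728 h5 hAB
  obtain ⟨l4, l6⟩ := switchCurve_line W a m (Int.castRingHom L)
  simp only [eq_intCast, h4, h6, mul_zero] at l4 l6
  set t : L := (switchT W m : L)
  set s : L := 1 + (a : L) * t with hs
  obtain ⟨k4, k6⟩ := kH_kT_line u v s t
  rw [hu, hv, ← l4] at k4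
  rw [hu, hv, ← l6] at k6
  obtain ⟨z1, z2⟩ := kH_kT_eq_zero h1728 h5 ((mul_eq_zero.1 k4).resolve_left f20)
    ((mul_eq_zero.1 k6).resolve_left f30)
  have hF : kF u v ≠ 0 := by
    intro hF
    have := kH_cube_sub_kT_sq u v
    rw [hu, hv, hF] at this
    exact hAB (by linear_combination this)
  have h12 : (12 : L) ≠ 0 := fun h => h1728 (by linear_combination 144 * h)
  have hs0 : s = 0 := by
    have : s * (12 * kF u v) = 0 := by
      rw [← euler_kF]; linear_combination (kFu u v) * z1 + (kFv u v) * z2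
    exact (mul_eq_zero.1 this).resolve_right (mul_ne_zero h12 hF)
  rw [hs0, zero_mul, zero_add] at z1
  rw [hs0, zero_mul, zero_sub, neg_eq_zero] at z2
  have ht : t = 0 := by
    by_contra ht
    have e1 := (mul_eq_zero.1 z1).resolve_left ht
    have e2 := (mul_eq_zero.1 z2).resolve_left ht
    have := euler_kF u v
    rw [e1, e2] at this
    exact mul_ne_zero h12 hF (by linear_combination -this)
  rw [hs, ht, mul_zero, add_zero] at hs0
  exact one_ne_zero hs0

/-- The switched curve has the same traces modulo `5`. -/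
theorem switchCurve_congr {ℓ : ℕ} (hℓ : ℓ.Prime) (hg : W.IsGoodPrimeFor ℓ)
    (hg' : (switchCurve W a m).IsGoodPrimeFor ℓ) :
    (5 : ℤ) ∣ (switchCurve W a m).apOfModel ℓ - W.apOfModel ℓ := by
  classical
  have : Fact ℓ.Prime := ⟨hℓ⟩
  by_cases hM : (ℓ : ℤ) ∣ switchM W
  · rw [WeierstrassCurve.apOfModel, WeierstrassCurve.apOfModel, reductionMod_switchCurve W a m hM,
      sub_self]
    exact dvd_zero 5
  obtain ⟨f30, -, h1728, -, h6⟩ := natCast_ne_zero_of_not_dvd_switchM W hℓ hM (R := ZMod ℓ)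
  rw [apOfModel_sub W (switchCurve W a m) h6 hg hg', dvd_sub_comm]
  obtain ⟨l4, l6⟩ := switchCurve_line W a m (Int.castRingHom (ZMod ℓ))
  simp only [eq_intCast] at l4 l6
  refine klein_line_congr (L := AlgebraicClosure (ZMod ℓ)) f30 _ _ (a : ZMod ℓ)
    (switchT W m : ZMod ℓ) (c_cube_ne_c_sq_mod W hM h1728) l4 l6 ?_
  intro he
  have hr := congrArg (Int.cast : ℤ → ZMod ℓ) (switchCurve W a m).c_relation
  push_cast at hr
  rw [he, sub_self] at hr
  exact hg' ((ZMod.intCast_zmod_eq_zero_iff_dvd _ ℓ).1 ((mul_eq_zero.1 hr).resolve_left h1728))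

end

end FLTAgent.Switch
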