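import Fermat.Agent.Switch.Height

/-!
# Parallelogram law for `P ↦ deg (x(P)/D)` on `Y² = X³ + a D² X + b D³` over `k(x)`

`hdeg` satisfies the law (`hdeg_parallelogram`), so `pairing` is bilinear and
`hdeg (n • P) = n² hdeg P` (`hdeg_zsmul`). The proof applies `pmMap` to the triples of
`Switch.Height`.
-/

set_option autoImplicit false

namespace FLTAgent.Switch

open Polynomial WeierstrassCurve

noncomputable section

section Generic

variable {F : Type*} [Field F] {a b D : F}

/-- `(x₁ - x₂)² x±` in terms of the coordinates. -/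
theorem secant_identity {x₁ x₂ y₁ y₂ : F} (hx : x₁ ≠ x₂)
    (h₁ : y₁ ^ 2 = x₁ ^ 3 + a * D ^ 2 * x₁ + b * D ^ 3)
    (h₂ : y₂ ^ 2 = x₂ ^ 3 + a * D ^ 2 * x₂ + b * D ^ 3) :
    ((y₁ - y₂) / (x₁ - x₂)) ^ 2 - x₁ - x₂ =
      ((x₁ * x₂ + a * D ^ 2) * (x₁ + x₂) + 2 * (b * D ^ 3) - 2 * y₁ * y₂) / (x₁ - x₂) ^ 2 := by
  have : x₁ - x₂ ≠ 0 := sub_ne_zero.2 hx
  field_simp
  linear_combination h₁ + h₂

end Generic

section Curve

variable {k : Type*} [Field k]

/-- The curve `Y² = X³ + a D² X + b D³` over `k(x)`. -/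
abbrev twist (a b : k) (D : RatFunc k) : WeierstrassCurve.Affine (RatFunc k) :=
  short (RatFunc.C a * D ^ 2) (RatFunc.C b * D ^ 3)

variable {a b : k} {D : RatFunc k}

/-- `x/D` as a pair of elements of `k(x)`. -/
def ratPair : (twist a b D).Point → RatFunc k × RatFunc k
  | .zero => (1, 0)
  | .some X _ _ => (X / D, 1)

/-- `x/D` as a coprime pair of polynomials. -/
def polyPair : (twist a b D).Point → k[X] × k[X]
  | .zero => (1, 0)
  | .some X _ _ => ((X / D).num, (X / D).denom)

/-- The degree of `x/D`. -/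
def hdeg (P : (twist a b D).Point) : ℕ :=
  max (polyPair P).1.natDegree (polyPair P).2.natDegree

@[simp] theorem ratPair_zero : ratPair (0 : (twist a b D).Point) = (1, 0) := rfl

@[simp] theorem polyPair_zero : polyPair (0 : (twist a b D).Point) = (1, 0) := rfl

@[simp] theorem hdeg_zero : hdeg (0 : (twist a b D).Point) = 0 := by simp [hdeg]

@[simp] theorem ratPair_neg (P : (twist a b D).Point) : ratPair (-P) = ratPair P := by
  cases P <;> rfl

@[simp] theorem polyPair_neg (P : (twist a b D).Point) : polyPair (-P) = polyPair P := by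
  cases P <;> rfl

theorem hdeg_neg (P : (twist a b D).Point) : hdeg (-P) = hdeg P := by simp [hdeg]

theorem isCoprime_polyPair (P : (twist a b D).Point) :
    IsCoprime (polyPair P).1 (polyPair P).2 := by
  cases P
  · exact isCoprime_zero_right.2 isUnit_one
  · exact RatFunc.isCoprime_num_denom _

theorem exists_polyPair_eq (P : (twist a b D).Point) :
    ∃ l : RatFunc k, l ≠ 0 ∧ algebraMap k[X] (RatFunc k) (polyPair P).1 = l * (ratPair P).1 ∧
      algebraMap k[X] (RatFunc k) (polyPair P).2 = l * (ratPair P).2 := by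
  cases P with
  | zero => exact ⟨1, one_ne_zero, by simp [ratPair, polyPair], by simp [ratPair, polyPair]⟩
  | some X Y h =>
    have hd : algebraMap k[X] (RatFunc k) (X / D).denom ≠ 0 :=
      RatFunc.algebraMap_ne_zero (RatFunc.denom_ne_zero _)
    refine ⟨_, hd, ?_, by simp [ratPair, polyPair]⟩
    simp only [ratPair, polyPair]
    nth_rw 3 [← RatFunc.num_div_denom (X / D)]
    field_simp

/-- The triple of a pair of points over `k(x)`. -/
def ratTriple (P Q : (twist a b D).Point) : Fin 3 → RatFunc k :=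
  symPair (ratPair P).1 (ratPair P).2 (ratPair Q).1 (ratPair Q).2

/-- The triple of a pair of points over `k[x]`. -/
def polyTriple (P Q : (twist a b D).Point) : Fin 3 → k[X] :=
  symPair (polyPair P).1 (polyPair P).2 (polyPair Q).1 (polyPair Q).2

theorem exists_polyTriple_eq (P Q : (twist a b D).Point) :
    ∃ l : RatFunc k, l ≠ 0 ∧
      ∀ i, algebraMap k[X] (RatFunc k) (polyTriple P Q i) = l * ratTriple P Q i := by
  obtain ⟨l, hl, hl1, hl2⟩ := exists_polyPair_eq P
  obtain ⟨m, hm, hm1, hm2⟩ := exists_polyPair_eq Q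
  refine ⟨l * m, mul_ne_zero hl hm, fun i => ?_⟩
  fin_cases i <;> simp [polyTriple, ratTriple, symPair, hl1, hl2, hm1, hm2] <;> ring

theorem ratTriple_comm (P Q : (twist a b D).Point) : ratTriple P Q = ratTriple Q P := by
  funext i
  fin_cases i <;> simp [ratTriple, symPair] <;> ring

variable [DecidableEq (RatFunc k)]

theorem two_ne_zero_ratFunc (h2 : (2 : k) ≠ 0) : (2 : RatFunc k) ≠ 0 := by
  have := (map_ne_zero (RatFunc.C (K := k))).2 h2
  simpa [map_ofNat] using this

theorem disc_ne_zero_ratFunc (hd : 4 * a ^ 3 + 27 * b ^ 2 ≠ 0) :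
    4 * RatFunc.C a ^ 3 + 27 * RatFunc.C b ^ 2 ≠ (0 : RatFunc k) := by
  have := (map_ne_zero (RatFunc.C (K := k))).2 hd
  simpa [map_ofNat] using this

theorem pmMap_ne_zero_ratFunc (h2 : (2 : k) ≠ 0) (hd : 4 * a ^ 3 + 27 * b ^ 2 ≠ 0)
    {v : Fin 3 → RatFunc k} (hv : v ≠ 0) :
    ∃ i, pmMap (RatFunc.C a) (RatFunc.C b) v i ≠ 0 := by
  by_contra hall
  push Not at hall
  exact hv (pmMap_eq_zero (two_ne_zero_ratFunc h2) (disc_ne_zero_ratFunc hd) hall)

variable (hD : D ≠ 0) (h2 : (2 : k) ≠ 0) (hd : 4 * a ^ 3 + 27 * b ^ 2 ≠ 0)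

include hD h2 hd

/-- Doubling. -/
theorem exists_ratTriple_double (P : (twist a b D).Point) :
    ∃ c : RatFunc k, ∀ i, pmMap (RatFunc.C a) (RatFunc.C b) (ratTriple P P) i =
      c * ratTriple (P + P) 0 i := by
  cases P with
  | zero =>
    refine ⟨1, fun i => ?_⟩
    fin_cases i <;> simp [← Affine.Point.zero_def, ratTriple, pmMap, symPair]
  | some X Y h =>
    have hY : Y ^ 2 = X ^ 3 + RatFunc.C a * D ^ 2 * X + RatFunc.C b * D ^ 3 :=
      (short_equation _ _ _ _).1 h.left
    have h2K := two_ne_zero_ratFunc h2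
    by_cases hy : Y = 0
    · refine ⟨(X / D * (X / D) - RatFunc.C a) ^ 2 - 4 * RatFunc.C b * (X / D + X / D), fun i => ?_⟩
      have hsum : Affine.Point.some X Y h + Affine.Point.some X Y h = 0 :=
        Affine.Point.add_of_Y_eq rfl (by simp [hy])
      rw [hsum]
      subst hy
      fin_cases i <;> simp [ratTriple, ratPair, symPair, pmMap]
      · field_simp
        linear_combination -4 * hY
      · ring
    · have hne : Y ≠ (twist a b D).negY X Y := by
        rw [short_negY]
        intro hh
        exact hy (by have : 2 * Y = 0 := by linear_combination hh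
                     simpa [h2K] using this)
      have h4 : (4 : RatFunc k) ≠ 0 := by
        rw [show (4 : RatFunc k) = 2 * 2 by norm_num]; exact mul_ne_zero h2K h2K
      refine ⟨4 * (Y ^ 2) / D ^ 3, fun i => ?_⟩
      rw [Affine.Point.add_of_Y_ne hne]
      fin_cases i <;>
        simp only [ratTriple, ratPair, symPair, pmMap, short_addX, short_negY,
          Affine.slope_of_Y_ne rfl hne, Fin.zero_eta,
          Fin.mk_one, Fin.reduceFinMk, Matrix.cons_val_zero, Matrix.cons_val_one, Matrix.cons_val]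
      · simp only [sub_neg_eq_add, ← two_mul]
        field_simp
        linear_combination 32 * X * hY
      · field_simp
        linear_combination -4 * D * hY
      · ring

/-- The addition-subtraction map on triples. -/
theorem exists_ratTriple_eq (P Q : (twist a b D).Point) :
    ∃ c : RatFunc k, ∀ i, pmMap (RatFunc.C a) (RatFunc.C b) (ratTriple P Q) i =
      c * ratTriple (P + Q) (P - Q) i := by
  cases P with
  | zero =>
    refine ⟨1, fun i => ?_⟩
    simp only [← Affine.Point.zero_def, zero_add, zero_sub]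
    fin_cases i <;> simp [ratTriple, symPair, pmMap] <;> ring
  | some X₁ Y₁ h₁ =>
    cases Q with
    | zero =>
      refine ⟨1, fun i => ?_⟩
      simp only [← Affine.Point.zero_def, add_zero, sub_zero]
      fin_cases i <;> simp [ratTriple, symPair, pmMap] <;> ring
    | some X₂ Y₂ h₂ =>
      by_cases hx : X₁ = X₂
      · rcases Affine.Point.X_eq_iff.1 hx with he | he
        · rw [← he, sub_self]
          exact exists_ratTriple_double hD h2 hd _
        · obtain ⟨c, hc⟩ := exists_ratTriple_double hD h2 hd (Affine.Point.some X₁ Y₁ h₁)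
          refine ⟨c, fun i => ?_⟩
          have h' : Affine.Point.some X₂ Y₂ h₂ = -Affine.Point.some X₁ Y₁ h₁ := by rw [he, neg_neg]
          rw [h', add_neg_cancel, sub_neg_eq_add, ratTriple_comm 0, ← hc i]
          simp only [ratTriple, ratPair_neg]
      · have e₁ := (short_equation _ _ _ _).1 h₁.left
        have e₂ := (short_equation _ _ _ _).1 h₂.left
        have e₂' : (-Y₂) ^ 2 = X₂ ^ 3 + RatFunc.C a * D ^ 2 * X₂ + RatFunc.C b * D ^ 3 := by
          rw [neg_sq]; exact e₂
        refine ⟨(X₁ - X₂) ^ 2 / D ^ 2, fun i => ?_⟩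
        rw [sub_eq_add_neg (Affine.Point.some X₁ Y₁ h₁), Affine.Point.neg_some,
          Affine.Point.add_of_X_ne hx, Affine.Point.add_of_X_ne hx]
        have hx' : X₁ - X₂ ≠ 0 := sub_ne_zero.2 hx
        fin_cases i <;> simp only [ratTriple, ratPair, symPair, short_addX, short_negY,
          Affine.slope_of_X_ne hx, secant_identity hx e₁ e₂, secant_identity hx e₁ e₂', Fin.zero_eta, Fin.mk_one,
          Fin.reduceFinMk, pmMap, Matrix.cons_val_zero, Matrix.cons_val_one, Matrix.cons_val]
        · field_simp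
          linear_combination 4 * Y₂ ^ 2 * e₁ +
            4 * (X₁ ^ 3 + RatFunc.C a * D ^ 2 * X₁ + RatFunc.C b * D ^ 3) * e₂
        · field_simp
          ring
        · field_simp
          ring

/-- **Parallelogram law.** -/
theorem hdeg_parallelogram (P Q : (twist a b D).Point) :
    hdeg (P + Q) + hdeg (P - Q) = 2 * hdeg P + 2 * hdeg Q := by
  obtain ⟨c, hc⟩ := exists_ratTriple_eq hD h2 hd P Q
  obtain ⟨l, hl, hl'⟩ := exists_polyTriple_eq P Q
  obtain ⟨m, hm, hm'⟩ := exists_polyTriple_eq (P + Q) (P - Q)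
  have hv := unimod_symPair (isCoprime_polyPair P) (isCoprime_polyPair Q)
  have hw := unimod_symPair (isCoprime_polyPair (P + Q)) (isCoprime_polyPair (P - Q))
  have key : mdeg (pmMap (C a) (C b) (polyTriple P Q)) = mdeg (polyTriple (P + Q) (P - Q)) := by
    refine mdeg_eq_of_proportional hw (unimod_pmMap h2 hd hv) (c := l ^ 2 * c / m) fun i => ?_
    rw [pmMap_map, hm']
    simp only [RatFunc.algebraMap_C, hl']
    rw [pmMap_smul, hc]
    field_simp
  rw [polyTriple, mdeg_pmMap h2 hd hv, mdeg_symPair (isCoprime_polyPair P) (isCoprime_polyPair Q),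
    polyTriple, mdeg_symPair (isCoprime_polyPair _) (isCoprime_polyPair _)] at key
  simp only [hdeg]
  omega

/-- The associated bilinear form. -/
def pairing (P Q : (twist a b D).Point) : ℤ := (hdeg (P + Q) : ℤ) - hdeg P - hdeg Q

theorem pairing_add_left (P Q R : (twist a b D).Point) :
    pairing (P + Q) R = pairing P R + pairing Q R := by
  have e₁ := hdeg_parallelogram hD h2 hd (P + R) Q
  have e₂ := hdeg_parallelogram hD h2 hd (R - Q) P
  have e₃ := hdeg_parallelogram hD h2 hd R Q
  have e₄ := hdeg_parallelogram hD h2 hd P Q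
  have q₁ : P + R + Q = P + Q + R := by abel
  have q₂ : R - Q + P = P + R - Q := by abel
  have q₃ : R - Q - P = R - (P + Q) := by abel
  have e₅ := hdeg_parallelogram hD h2 hd R (P + Q)
  have q₄ : R + (P + Q) = P + Q + R := by abel
  have q₅ : R + Q = Q + R := by abel
  rw [q₁] at e₁
  rw [q₂, q₃] at e₂
  rw [q₄] at e₅
  rw [q₅] at e₃
  simp only [pairing]
  omega

theorem pairing_comm (P Q : (twist a b D).Point) : pairing P Q = pairing Q P := by
  simp only [pairing, add_comm P Q]
  omega

theorem pairing_self (P : (twist a b D).Point) : pairing P P = 2 * hdeg P := by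
  have e := hdeg_parallelogram hD h2 hd P P
  rw [sub_self, hdeg_zero, add_zero] at e
  simp only [pairing]
  omega

/-- The pairing as an additive hom in the first variable. -/
def pairingHom (R : (twist a b D).Point) : (twist a b D).Point →+ ℤ :=
  AddMonoidHom.mk' (fun P => pairing P R) fun P Q => pairing_add_left hD h2 hd P Q R

theorem pairing_zsmul_left (n : ℤ) (P Q : (twist a b D).Point) :
    pairing (n • P) Q = n * pairing P Q := by
  rw [show pairing (n • P) Q = pairingHom hD h2 hd Q (n • P) from rfl, map_zsmul,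
    smul_eq_mul]
  rfl

theorem hdeg_zsmul (n : ℤ) (P : (twist a b D).Point) :
    (hdeg (n • P) : ℤ) = n ^ 2 * hdeg P := by
  have h1 := pairing_self hD h2 hd (n • P)
  rw [pairing_zsmul_left hD h2 hd, pairing_comm hD h2 hd, pairing_zsmul_left hD h2 hd, pairing_self hD h2 hd] at h1
  linarith

end Curve

end

end FLTAgent.Switch
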