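import Fermat.Agent.Switch.SieveCount

/-!
# Squarefree values of a quartic form away from finitely many primes

If, for every prime `p ∤ N`, the pairs with `p² ∣ F s t` lie on at most four lines modulo `p²` apart from
the pairs divisible by `p`, then in a congruence class modulo `N` (where `2, 3 ∣ N`) some coprime pair in
a large square has `p² ∤ F s t` for all `p ∤ N`.

Main declarations: `exists_squarefree_away`.
-/

set_option autoImplicit false

namespace FLTAgent.Switch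

open Finset

theorem eq_of_cross {s t s' t' : ℤ} (hs : 0 ≤ s) (ht : 0 ≤ t) (hs' : 0 ≤ s') (ht' : 0 ≤ t')
    (h : IsCoprime s t) (h' : IsCoprime s' t') (e : s * t' = s' * t) : s = s' ∧ t = t' := by
  have es : s = s' := Int.dvd_antisymm hs hs' (h.dvd_of_dvd_mul_right (e ▸ dvd_mul_right s t'))
    (h'.dvd_of_dvd_mul_right (e.symm ▸ dvd_mul_right s' t))
  refine ⟨es, ?_⟩
  subst es
  rcases eq_or_ne s 0 with rfl | hne
  · have h1 := isCoprime_zero_left.1 h
    have h2 := isCoprime_zero_left.1 h'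
    rw [Int.isUnit_iff] at h1 h2
    omega
  · exact (mul_left_cancel₀ hne e).symm

/-- The squarefree sieve. -/
theorem exists_squarefree_away (F : ℤ → ℤ → ℤ) {N : ℕ} (hN : 0 < N) (h2 : 2 ∣ N) (h3 : 3 ∣ N)
    {s₀ t₀ : ℤ} (hs₀ : 0 ≤ s₀) (ht₀ : 0 ≤ t₀) (hs₁ : s₀ < N) (ht₁ : t₀ < N)
    (hprim : ∀ p : ℕ, p.Prime → p ∣ N → (p : ℤ) ∣ s₀ → ¬ (p : ℤ) ∣ t₀)
    (hroots : ∀ p : ℕ, p.Prime → ¬ p ∣ N → ∃ S : Finset ℤ, S.card ≤ 4 ∧ ∀ s t : ℤ,
      (p : ℤ) ^ 2 ∣ F s t → ((p : ℤ) ∣ s ∧ (p : ℤ) ∣ t) ∨ ∃ r ∈ S, (p : ℤ) ^ 2 ∣ s - r * t)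
    (C : ℕ) (hbound : ∀ (s t : ℤ) (M : ℕ), |s| ≤ M → |t| ≤ M → |F s t| ≤ C * M ^ 4)
    (k₁ k₂ : ℕ)
    (hne : ∀ L a b : ℕ, 0 < L → k₁ * L ≤ a → a < k₁ * L + L → k₂ * L ≤ b → b < k₂ * L + L →
      F (s₀ + N * a) (t₀ + N * b) ≠ 0) :
    ∃ L a b : ℕ, 0 < L ∧ k₁ * L ≤ a ∧ a < k₁ * L + L ∧ k₂ * L ≤ b ∧ b < k₂ * L + L ∧
      IsCoprime (s₀ + N * a : ℤ) (t₀ + N * b) ∧
      ∀ p : ℕ, p.Prime → ¬ p ∣ N → ¬ (p : ℤ) ^ 2 ∣ F (s₀ + N * a) (t₀ + N * b) := by
  classical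
  set c : ℕ := N * (k₁ + k₂ + 2) with hc
  set D : ℕ := (C + 1) * c ^ 2 with hD
  obtain ⟨L, hL1, hL2, hL3⟩ := ((eventually_primeCounting_mul_le (2 * c)
      (show (0 : ℝ) < 1 / 100 by norm_num)).and ((eventually_primeCounting_sq_le D
      (show (0 : ℝ) < 1 / 100 by norm_num)).and (Filter.eventually_gt_atTop 0))).exists
  set box := Ico (k₁ * L) (k₁ * L + L) ×ˢ Ico (k₂ * L) (k₂ * L + L) with hbox
  set S : ℕ × ℕ → ℤ := fun x => s₀ + N * x.1 with hS
  set T : ℕ × ℕ → ℤ := fun x => t₀ + N * x.2 with hT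
  by_contra hcon
  have hbad : ∀ x ∈ box, IsCoprime (S x) (T x) →
      ∃ p : ℕ, p.Prime ∧ ¬ p ∣ N ∧ (p : ℤ) ^ 2 ∣ F (S x) (T x) := by
    intro x hx hcop
    simp only [hbox, mem_product, mem_Ico] at hx
    by_contra hno
    exact hcon ⟨L, x.1, x.2, hL3, hx.1.1, hx.1.2, hx.2.1, hx.2.2, hcop,
      fun p hp hpN hd => hno ⟨p, hp, hpN, hd⟩⟩
  -- size of the coordinates
  have hsize : ∀ x ∈ box, 0 ≤ S x ∧ S x ≤ (c * L : ℕ) ∧ 0 ≤ T x ∧ T x ≤ (c * L : ℕ) := by
    intro x hx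
    simp only [hbox, mem_product, mem_Ico] at hx
    have ha : (x.1 : ℤ) + 1 ≤ ((k₁ + k₂ + 2 : ℕ) : ℤ) * L := by
      have : x.1 + 1 ≤ (k₁ + k₂ + 2) * L := by nlinarith
      exact_mod_cast this
    have hb : (x.2 : ℤ) + 1 ≤ ((k₁ + k₂ + 2 : ℕ) : ℤ) * L := by
      have : x.2 + 1 ≤ (k₁ + k₂ + 2) * L := by nlinarith
      exact_mod_cast this
    have hN' : (0 : ℤ) ≤ N := Nat.cast_nonneg N
    refine ⟨by positivity, ?_, by positivity, ?_⟩
    · calc S x ≤ (N : ℤ) * ((x.1 : ℤ) + 1) := by simp only [hS]; linarith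
        _ ≤ (N : ℤ) * (((k₁ + k₂ + 2 : ℕ) : ℤ) * L) := mul_le_mul_of_nonneg_left ha hN'
        _ = _ := by rw [hc]; push_cast; ring
    · calc T x ≤ (N : ℤ) * ((x.2 : ℤ) + 1) := by simp only [hT]; linarith
        _ ≤ (N : ℤ) * (((k₁ + k₂ + 2 : ℕ) : ℤ) * L) := mul_le_mul_of_nonneg_left hb hN'
        _ = _ := by rw [hc]; push_cast; ring
  choose! R hRc hR using hroots
  set com : ℕ → Finset (ℕ × ℕ) := fun p => box.filter fun x => (p : ℤ) ∣ S x ∧ (p : ℤ) ∣ T x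
    with hcom
  set lin : ℕ → ℤ → Finset (ℕ × ℕ) := fun p r =>
    box.filter fun x => (p : ℤ) ^ 2 ∣ S x - r * T x with hlin
  set P₁ := (Nat.primesLE (2 * c * L)).filter fun p => ¬ p ∣ N with hP₁
  set P₂ := (Nat.primesLE (D * L ^ 2)).filter fun p => ¬ p ∣ N ∧ 2 * c * L < p with hP₂
  set U₁ := P₁.biUnion fun p => com p ∪ (R p).biUnion (lin p) with hU₁
  set U₂ := P₂.biUnion fun p => (R p).biUnion fun r =>
    (lin p r).filter fun x => IsCoprime (S x) (T x) with hU₂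
  have hcover : box ⊆ U₁ ∪ U₂ := by
    intro x hx
    obtain ⟨hS0, hS1, hT0, hT1⟩ := hsize x hx
    by_cases hcop : IsCoprime (S x) (T x)
    · obtain ⟨p, hp, hpN, hd⟩ := hbad x hx hcop
      rcases hR p hp hpN _ _ hd with ⟨hps, hpt⟩ | ⟨r, hr, hrd⟩
      · exact absurd (hcop.isUnit_of_dvd' hps hpt) (Nat.prime_iff_prime_int.1 hp).not_isUnit
      by_cases hple : p ≤ 2 * c * L
      · refine mem_union_left _ (mem_biUnion.2
          ⟨p, mem_filter.2 ⟨Nat.mem_primesLE.2 ⟨hple, hp⟩, hpN⟩, ?_⟩)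
        exact mem_union_right _ (mem_biUnion.2 ⟨r, hr, mem_filter.2 ⟨hx, hrd⟩⟩)
      · have hFne : F (S x) (T x) ≠ 0 := by
          simp only [hbox, mem_product, mem_Ico] at hx
          exact hne L x.1 x.2 hL3 hx.1.1 hx.1.2 hx.2.1 hx.2.2
        have h1 : ((p : ℤ)) ^ 2 ≤ |F (S x) (T x)| :=
          Int.le_of_dvd (abs_pos.2 hFne) ((dvd_abs _ _).2 hd)
        have h2' := h1.trans (hbound _ _ (c * L) (by rwa [abs_of_nonneg hS0])
          (by rwa [abs_of_nonneg hT0]))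
        have h4 : p ^ 2 ≤ C * (c * L) ^ 4 := by exact_mod_cast h2'
        have h5 : p ≤ D * L ^ 2 := by
          have h6 : p ^ 2 ≤ (D * L ^ 2) ^ 2 := by
            calc p ^ 2 ≤ C * (c * L) ^ 4 := h4
              _ ≤ (C + 1) ^ 2 * (c * L) ^ 4 := Nat.mul_le_mul_right _ (by nlinarith)
              _ = _ := by rw [hD]; ring
          exact (Nat.pow_le_pow_iff_left two_ne_zero).1 h6
        refine mem_union_right _ (mem_biUnion.2
          ⟨p, mem_filter.2 ⟨Nat.mem_primesLE.2 ⟨h5, hp⟩, hpN, not_le.1 hple⟩, ?_⟩)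
        exact mem_biUnion.2 ⟨r, hr, mem_filter.2 ⟨mem_filter.2 ⟨hx, hrd⟩, hcop⟩⟩
    · rw [Int.isCoprime_iff_gcd_eq_one] at hcop
      obtain ⟨q, hq, hqd⟩ := Nat.exists_prime_and_dvd hcop
      have hqs : (q : ℤ) ∣ S x := (Int.natCast_dvd_natCast.2 hqd).trans (Int.gcd_dvd_left _ _)
      have hqt : (q : ℤ) ∣ T x := (Int.natCast_dvd_natCast.2 hqd).trans (Int.gcd_dvd_right _ _)
      have hqN : ¬ q ∣ N := fun h => by
        have hqn : (q : ℤ) ∣ N := Int.natCast_dvd_natCast.2 h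
        exact hprim q hq h ((dvd_add_left (hqn.mul_right _)).1 hqs)
          ((dvd_add_left (hqn.mul_right _)).1 hqt)
      have hqle : q ≤ 2 * c * L := by
        have hle : ∀ z : ℤ, (q : ℤ) ∣ z → 0 < z → z ≤ (c * L : ℕ) → q ≤ 2 * c * L := by
          intro z hz hz0 hzc
          have := (Int.le_of_dvd hz0 hz).trans hzc
          have : q ≤ c * L := by exact_mod_cast this
          linarith
        rcases hS0.lt_or_eq with h | h
        · exact hle _ hqs h hS1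
        rcases hT0.lt_or_eq with h' | h'
        · exact hle _ hqt h' hT1
        exfalso
        have e1 : (2 : ℤ) ∣ s₀ := (dvd_add_left ((Int.natCast_dvd_natCast.2 h2).mul_right _)).1
          (show (2 : ℤ) ∣ S x by rw [← h]; exact dvd_zero _)
        have e2 : (2 : ℤ) ∣ t₀ := (dvd_add_left ((Int.natCast_dvd_natCast.2 h2).mul_right _)).1
          (show (2 : ℤ) ∣ T x by rw [← h']; exact dvd_zero _)
        exact hprim 2 Nat.prime_two h2 (by exact_mod_cast e1) (by exact_mod_cast e2)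
      exact mem_union_left _ (mem_biUnion.2 ⟨q, mem_filter.2 ⟨Nat.mem_primesLE.2 ⟨hqle, hq⟩, hqN⟩,
        mem_union_left _ (mem_filter.2 ⟨hx, hqs, hqt⟩)⟩)
  -- the small primes
  have hinv : ∀ p k : ℕ, p.Prime → ¬ p ∣ N → ∃ u : ℤ, ((p : ℤ) ^ k) ∣ u * N - 1 := by
    intro p k hp hpN
    obtain ⟨u, v, huv⟩ := (Int.isCoprime_iff_nat_coprime.2
      (by simpa using ((hp.coprime_iff_not_dvd.2 hpN).symm.pow_right k) :
        Nat.Coprime (N : ℤ).natAbs ((p : ℤ) ^ k).natAbs))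
    exact ⟨u, -v, by linear_combination huv⟩
  have hcom_le : ∀ p : ℕ, p.Prime → ¬ p ∣ N → (com p).card ≤ (L / p + 1) ^ 2 := by
    intro p hp hpN
    obtain ⟨u, hu⟩ := hinv p 1 hp hpN
    rw [pow_one] at hu
    refine le_trans (card_le_card ?_)
      (card_point_le hp.pos (k₁ * L) (k₂ * L) L (-(u * s₀)) (-(u * t₀)))
    intro x hx
    simp only [hcom, mem_filter] at hx
    refine mem_filter.2 ⟨hx.1, ?_, ?_⟩
    · have := dvd_sub (hx.2.1.mul_left u) (hu.mul_right (x.1 : ℤ))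
      rw [show (x.1 : ℤ) - -(u * s₀) = u * (s₀ + N * x.1) - (u * N - 1) * x.1 by ring]
      exact this
    · have := dvd_sub (hx.2.2.mul_left u) (hu.mul_right (x.2 : ℤ))
      rw [show (x.2 : ℤ) - -(u * t₀) = u * (t₀ + N * x.2) - (u * N - 1) * x.2 by ring]
      exact this
  have hlin_le : ∀ (p : ℕ) (r : ℤ), p.Prime → ¬ p ∣ N → (lin p r).card ≤ L * (L / p ^ 2 + 1) := by
    intro p r hp hpN
    obtain ⟨u, hu⟩ := hinv p 2 hp hpN
    refine le_trans (card_le_card ?_)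
      (card_line_le (pow_pos hp.pos 2) (k₁ * L) (k₂ * L) L r (u * (r * t₀ - s₀)))
    intro x hx
    simp only [hlin, mem_filter] at hx
    refine mem_filter.2 ⟨hx.1, ?_⟩
    push_cast
    have := dvd_sub (hx.2.mul_left u) (hu.mul_right ((x.1 : ℤ) - r * x.2))
    rw [show (x.1 : ℤ) - (r * x.2 + u * (r * t₀ - s₀)) = u * (s₀ + N * x.1 - r * (t₀ + N * x.2)) -
      (u * N - 1) * ((x.1 : ℤ) - r * x.2) by ring]
    exact this
  have hL0 : (0 : ℝ) < L := Nat.cast_pos.2 hL3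
  have h5 : ∀ p ∈ P₁, 5 ≤ p ∧ Odd p := by
    intro p hp
    simp only [hP₁, mem_filter, Nat.mem_primesLE] at hp
    have hp2 : p ≠ 2 := fun h => hp.2 (h ▸ h2)
    have hp3 : p ≠ 3 := fun h => hp.2 (h ▸ h3)
    have hp4 : p ≠ 4 := fun h => by
      have h4 := hp.1.2
      rw [h] at h4
      norm_num at h4
    have := hp.1.2.two_le
    exact ⟨by omega, hp.1.2.odd_of_ne_two hp2⟩
  have hU₁le : (U₁.card : ℝ) ≤ 5 / 8 * (L : ℝ) ^ 2 + 7 * L * (2 * c * L).primeCounting := by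
    have hper : ∀ p ∈ P₁, ((com p ∪ (R p).biUnion (lin p)).card : ℝ) ≤
        5 * (L : ℝ) ^ 2 * (1 / (p : ℝ) ^ 2) + 7 * L := by
      intro p hp
      simp only [hP₁, mem_filter, Nat.mem_primesLE] at hp
      have hr : ((R p).biUnion (lin p)).card ≤ 4 * (L * (L / p ^ 2 + 1)) :=
        (card_biUnion_le_card_mul _ _ _ fun r _ => hlin_le p r hp.1.2 hp.2).trans
          (Nat.mul_le_mul_right _ (hRc p hp.1.2 hp.2))
      have h0 := (card_union_le _ _).trans (add_le_add (hcom_le p hp.1.2 hp.2) hr)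
      have h0' : ((com p ∪ (R p).biUnion (lin p)).card : ℝ) ≤
          (((L / p : ℕ) : ℝ) + 1) ^ 2 + 4 * ((L : ℝ) * (((L / p ^ 2 : ℕ) : ℝ) + 1)) := by
        exact_mod_cast h0
      have hpR : (2 : ℝ) ≤ p := by exact_mod_cast hp.1.2.two_le
      set a : ℝ := ((L / p : ℕ) : ℝ)
      set b : ℝ := ((L / p ^ 2 : ℕ) : ℝ)
      have ha : a ≤ (L : ℝ) / p := Nat.cast_div_le
      have hb : b ≤ (L : ℝ) / (p : ℝ) ^ 2 := by
        have := Nat.cast_div_le (m := L) (n := p ^ 2) (α := ℝ)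
        exact_mod_cast this
      have ha0 : 0 ≤ a := Nat.cast_nonneg _
      have hb0 : 0 ≤ b := Nat.cast_nonneg _
      have hL1' : (1 : ℝ) ≤ L := by exact_mod_cast hL3
      have e1 : a ^ 2 ≤ (L : ℝ) ^ 2 * (1 / (p : ℝ) ^ 2) := by
        calc a ^ 2 ≤ ((L : ℝ) / p) ^ 2 := pow_le_pow_left₀ ha0 ha 2
          _ = _ := by rw [div_pow]; ring
      have e2 : (L : ℝ) / p ≤ L / 2 := div_le_div_of_nonneg_left hL0.le two_pos hpR
      have e3 : (L : ℝ) * b ≤ (L : ℝ) ^ 2 * (1 / (p : ℝ) ^ 2) := by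
        calc (L : ℝ) * b ≤ L * ((L : ℝ) / (p : ℝ) ^ 2) := mul_le_mul_of_nonneg_left hb hL0.le
          _ = _ := by ring
      nlinarith
    refine le_trans (Nat.cast_le.2 card_biUnion_le) ?_
    rw [Nat.cast_sum]
    refine (sum_le_sum hper).trans ?_
    rw [sum_add_distrib, ← mul_sum, sum_const, nsmul_eq_mul]
    have e1 := mul_le_mul_of_nonneg_left (sum_inv_sq_le P₁ h5)
      (show (0 : ℝ) ≤ 5 * (L : ℝ) ^ 2 by positivity)
    have e2 : (P₁.card : ℝ) ≤ (2 * c * L).primeCounting := by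
      rw [← Nat.primesLE_card_eq_primeCounting]
      exact_mod_cast card_filter_le _ _
    nlinarith
  -- the large primes
  have hU₂le : (U₂.card : ℝ) ≤ 4 * (D * L ^ 2).primeCounting := by
    have hper : ∀ p ∈ P₂, ((R p).biUnion fun r =>
        (lin p r).filter fun x => IsCoprime (S x) (T x)).card ≤ 4 := by
      intro p hp
      simp only [hP₂, mem_filter, Nat.mem_primesLE] at hp
      refine (card_biUnion_le_card_mul _ _ 1 fun r _ => card_le_one.2 ?_).trans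
        (by simpa using hRc p hp.1.2 hp.2.1)
      intro x hx y hy
      simp only [hlin, mem_filter] at hx hy
      obtain ⟨a0, a1, a2, a3⟩ := hsize x hx.1.1
      obtain ⟨b0, b1, b2, b3⟩ := hsize y hy.1.1
      have hdiv : (p : ℤ) ^ 2 ∣ S x * T y - S y * T x := by
        have := dvd_sub (hx.1.2.mul_right (T y)) (hy.1.2.mul_right (T x))
        rw [show S x * T y - S y * T x =
          (S x - r * T x) * T y - (S y - r * T y) * T x by ring]
        exact this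
      have hlt : |S x * T y - S y * T x| < (p : ℤ) ^ 2 := by
        have hp' : ((2 * c * L : ℕ) : ℤ) < p := by exact_mod_cast hp.2.2
        push_cast at hp' a1 a3 b1 b3
        have u1 := mul_le_mul a1 b3 b2 (a0.trans a1)
        have u2 := mul_le_mul b1 a3 a2 (b0.trans b1)
        have u3 := mul_nonneg a0 b2
        have u4 := mul_nonneg b0 a2
        rw [abs_lt]
        have hcL : (0 : ℤ) ≤ (c : ℤ) * L := a0.trans a1
        constructor <;> nlinarith
      have hzero := Int.eq_zero_of_abs_lt_dvd hdiv hlt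
      obtain ⟨e1, e2⟩ := eq_of_cross a0 a2 b0 b2 hx.2 hy.2 (sub_eq_zero.1 hzero)
      have hNne : (N : ℤ) ≠ 0 := by exact_mod_cast hN.ne'
      simp only [hS, hT, add_right_inj, mul_eq_mul_left_iff, hNne, or_false, Nat.cast_inj] at e1 e2
      exact Prod.ext e1 e2
    have h1 : U₂.card ≤ P₂.card * 4 := card_biUnion_le_card_mul _ _ _ hper
    have h2' : P₂.card ≤ (D * L ^ 2).primeCounting := by
      rw [← Nat.primesLE_card_eq_primeCounting]
      exact card_filter_le _ _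
    have : U₂.card ≤ 4 * (D * L ^ 2).primeCounting := by linarith
    exact_mod_cast this
  -- conclusion
  have htot : ((box.card : ℕ) : ℝ) ≤ (U₁.card : ℝ) + U₂.card := by
    exact_mod_cast (card_le_card hcover).trans (card_union_le _ _)
  have hboxc : box.card = L * L := by simp [hbox]
  rw [hboxc] at htot
  push_cast at htot
  have e1 : 7 * (L : ℝ) * (2 * c * L).primeCounting ≤ 7 * L * (1 / 100 * L) :=
    mul_le_mul_of_nonneg_left hL1 (by positivity)
  nlinarith [pow_pos hL0 2]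

end FLTAgent.Switch
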