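import Mathlib

/-!
# Counting in boxes, and primes are scarce

Elementary inputs of the squarefree sieve: residue classes and lines modulo `m` in a square,
`∑ p⁻² ≤ 1/8` over odd `p ≥ 5`, and `π (c L) = o(L)`.

Main declarations: `card_line_le`, `sum_inv_sq_le`, `eventually_primeCounting_sq_le`.
-/

set_option autoImplicit false

namespace FLTAgent.Switch

open Finset

theorem card_class_le {m : ℕ} (hm : 0 < m) (X L : ℕ) (c : ℤ) :
    ((Ico X (X + L)).filter fun a : ℕ => (m : ℤ) ∣ (a : ℤ) - c).card ≤ L / m + 1 := by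
  refine le_trans (card_le_card_of_injOn (t := range (L / m + 1)) (fun a => (a - X) / m) ?_ ?_)
    (card_range _).le
  · intro a ha
    simp only [coe_filter, mem_Ico, Set.mem_ofPred_eq] at ha
    simp only [coe_range, Set.mem_Iio]
    exact Nat.lt_succ_of_le (Nat.div_le_div_right (by omega))
  · intro a ha a' ha' h
    simp only [coe_filter, mem_Ico, Set.mem_ofPred_eq] at ha ha'
    have hdvd : (m : ℤ) ∣ ((a - X : ℕ) : ℤ) - ((a' - X : ℕ) : ℤ) := by
      rw [Nat.cast_sub ha.1.1, Nat.cast_sub ha'.1.1]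
      have := dvd_sub ha.2 ha'.2
      rw [sub_sub_sub_cancel_right] at this ⊢
      exact this
    have hmod : (a - X) % m = (a' - X) % m := by
      have := (Int.modEq_iff_dvd.2 hdvd : ((a' - X : ℕ) : ℤ) ≡ ((a - X : ℕ) : ℤ) [ZMOD (m : ℤ)])
      exact (Int.natCast_modEq_iff.1 this).symm
    have h1 := Nat.div_add_mod (a - X) m
    have h2 := Nat.div_add_mod (a' - X) m
    simp only at h
    rw [h, hmod] at h1
    omega

theorem card_line_le {m : ℕ} (hm : 0 < m) (X Y L : ℕ) (r c : ℤ) :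
    (((Ico X (X + L)) ×ˢ (Ico Y (Y + L))).filter fun x : ℕ × ℕ =>
      (m : ℤ) ∣ (x.1 : ℤ) - (r * x.2 + c)).card ≤ L * (L / m + 1) := by
  set S := ((Ico X (X + L)) ×ˢ (Ico Y (Y + L))).filter fun x : ℕ × ℕ =>
    (m : ℤ) ∣ (x.1 : ℤ) - (r * x.2 + c) with hS
  have hsub : S ⊆ (Ico Y (Y + L)).biUnion fun b =>
      ((Ico X (X + L)).filter fun a : ℕ => (m : ℤ) ∣ (a : ℤ) - (r * b + c)) ×ˢ {b} := by
    rintro ⟨a, b⟩ hx
    simp only [hS, mem_filter, mem_product] at hx
    simp only [mem_biUnion, mem_product, mem_filter, mem_singleton]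
    exact ⟨b, hx.1.2, ⟨hx.1.1, hx.2⟩, rfl⟩
  refine (card_le_card hsub).trans ((card_biUnion_le_card_mul _ _ (L / m + 1) ?_).trans ?_)
  · intro b _
    rw [card_product, card_singleton, mul_one]
    exact card_class_le hm X L _
  · rw [Nat.card_Ico, Nat.add_sub_cancel_left]

theorem card_point_le {m : ℕ} (hm : 0 < m) (X Y L : ℕ) (c d : ℤ) :
    (((Ico X (X + L)) ×ˢ (Ico Y (Y + L))).filter fun x : ℕ × ℕ =>
      (m : ℤ) ∣ (x.1 : ℤ) - c ∧ (m : ℤ) ∣ (x.2 : ℤ) - d).card ≤ (L / m + 1) ^ 2 := by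
  rw [Finset.filter_product (fun a : ℕ => (m : ℤ) ∣ (a : ℤ) - c)
    (fun b : ℕ => (m : ℤ) ∣ (b : ℤ) - d), card_product, sq]
  exact Nat.mul_le_mul (card_class_le hm X L c) (card_class_le hm Y L d)

theorem sum_inv_sq_range_le : ∀ M : ℕ,
    ∑ j ∈ range M, (1 : ℝ) / (2 * ((j : ℝ) + 2) + 1) ^ 2 ≤ 1 / 8 - 1 / (4 * ((M : ℝ) + 2))
  | 0 => by norm_num
  | M + 1 => by
    rw [sum_range_succ]
    refine (add_le_add (sum_inv_sq_range_le M) le_rfl).trans ?_
    have hM : (0 : ℝ) ≤ M := Nat.cast_nonneg M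
    have h4 : (1 : ℝ) / (2 * ((M : ℝ) + 2) + 1) ^ 2 ≤ 1 / (4 * (((M : ℝ) + 2) * ((M : ℝ) + 3))) :=
      one_div_le_one_div_of_le (by positivity) (by nlinarith)
    have h5 : (1 : ℝ) / (4 * (((M : ℝ) + 2) * ((M : ℝ) + 3))) =
        1 / (4 * ((M : ℝ) + 2)) - 1 / (4 * ((M : ℝ) + 3)) := by
      field_simp
      ring
    push_cast
    rw [show (M : ℝ) + 1 + 2 = (M : ℝ) + 3 by ring]
    linarith

theorem sum_inv_sq_le (S : Finset ℕ) (h : ∀ p ∈ S, 5 ≤ p ∧ Odd p) :
    ∑ p ∈ S, (1 : ℝ) / (p : ℝ) ^ 2 ≤ 1 / 8 := by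
  set M := S.sup id + 1
  have hinj : Set.InjOn (fun j : ℕ => 2 * (j + 2) + 1) (range M) := fun a _ b _ e => by
    simp only at e; omega
  have hsub : S ⊆ (range M).image fun j => 2 * (j + 2) + 1 := by
    intro p hp
    obtain ⟨h5, k, hk⟩ := h p hp
    have := le_sup (f := id) hp
    simp only [id] at this
    exact mem_image.2 ⟨k - 2, mem_range.2 (by omega), by omega⟩
  refine (sum_le_sum_of_subset_of_nonneg hsub fun _ _ _ => by positivity).trans ?_
  rw [sum_image hinj]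
  refine le_trans (le_of_eq (sum_congr rfl fun j _ => by push_cast; rfl))
    ((sum_inv_sq_range_le M).trans ?_)
  have : (0 : ℝ) ≤ 1 / (4 * ((M : ℝ) + 2)) := by positivity
  linarith

/-- `π (c L) = o(L)`. -/
theorem eventually_primeCounting_mul_le (c : ℕ) {ε : ℝ} (hε : 0 < ε) :
    ∀ᶠ L : ℕ in Filter.atTop, ((c * L).primeCounting : ℝ) ≤ ε * L := by
  rcases Nat.eq_zero_or_pos c with rfl | hc
  · refine Filter.Eventually.of_forall fun L => ?_
    simp only [zero_mul, Nat.primeCounting_zero, Nat.cast_zero]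
    positivity
  set D : ℝ := Real.log 4 + 1 with hD
  have hD0 : 0 < D := by
    have := Real.log_pos (show (1 : ℝ) < 4 by norm_num)
    linarith
  have h1 := Chebyshev.eventually_primeCounting_le (ε := 1) one_pos
  have h2 : ∀ᶠ x : ℝ in Filter.atTop, D * c / ε ≤ Real.log x :=
    Real.tendsto_log_atTop.eventually_ge_atTop _
  have ht : Filter.Tendsto (fun L : ℕ => ((c * L : ℕ) : ℝ)) Filter.atTop Filter.atTop :=
    tendsto_natCast_atTop_atTop.comp (Filter.tendsto_id.const_mul_atTop' hc)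
  filter_upwards [ht.eventually h1, ht.eventually h2, Filter.eventually_gt_atTop 0] with L hL hlog hL0
  rw [Nat.floor_natCast] at hL
  refine hL.trans ?_
  have hc' : (0 : ℝ) < c := Nat.cast_pos.2 hc
  have hl : 0 < Real.log ((c * L : ℕ) : ℝ) := lt_of_lt_of_le (by positivity) hlog
  rw [div_le_iff₀ hl]
  rw [div_le_iff₀ hε] at hlog
  have hL' : (0 : ℝ) ≤ L := Nat.cast_nonneg L
  push_cast at hlog ⊢
  calc D * ((c : ℝ) * L) = D * c * L := by ring
    _ ≤ Real.log ((c : ℝ) * L) * ε * L := mul_le_mul_of_nonneg_right hlog hL'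
    _ = _ := by ring

theorem eventually_primeCounting_sq_le (c : ℕ) {ε : ℝ} (hε : 0 < ε) :
    ∀ᶠ L : ℕ in Filter.atTop, ((c * L ^ 2).primeCounting : ℝ) ≤ ε * (L : ℝ) ^ 2 := by
  filter_upwards [(Filter.tendsto_pow_atTop (α := ℕ) two_ne_zero).eventually
    (eventually_primeCounting_mul_le c hε)] with L hL
  simpa using hL

end FLTAgent.Switch
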