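import Fermat.Agent.Switch.Basic

/-!
# Specialisation of points of a short Weierstrass curve with good reduction

For a `PlaceData` and good reduction data (`GoodPlace`) specialisation of points is a
homomorphism (`GoodPlace.spHom`), and no nonzero point killed by `3` or `5` specialises to zero,
as doubling a point near the origin divides the abscissa by `4` (`eq_zero_of_three`,
`eq_zero_of_five`).
-/

set_option autoImplicit false

namespace FLTAgent.Switch

open WeierstrassCurve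

noncomputable section

/-- A subring `O` of a field with a map to a residue field `L`, such that outside `O` inverses map to zero. -/
structure PlaceData (F L : Type*) [Field F] [Field L] where
  O : Subring F
  ev : O →+* L
  large : ∀ x : F, x ∉ O → ∃ h : x⁻¹ ∈ O, ev ⟨x⁻¹, h⟩ = 0

namespace PlaceData

variable {F L : Type*} [Field F] [Field L] (pl : PlaceData F L)

/-- `x` lies in `O` and has value `v`. -/
def Val (x : F) (v : L) : Prop := ∃ h : x ∈ pl.O, pl.ev ⟨x, h⟩ = v

variable {pl}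

theorem Val.add {x y : F} {u v : L} (hx : pl.Val x u) (hy : pl.Val y v) : pl.Val (x + y) (u + v) := by
  obtain ⟨hx, rfl⟩ := hx; obtain ⟨hy, rfl⟩ := hy
  exact ⟨pl.O.add_mem hx hy, map_add pl.ev ⟨x, hx⟩ ⟨y, hy⟩⟩

theorem Val.mul {x y : F} {u v : L} (hx : pl.Val x u) (hy : pl.Val y v) : pl.Val (x * y) (u * v) := by
  obtain ⟨hx, rfl⟩ := hx; obtain ⟨hy, rfl⟩ := hy
  exact ⟨pl.O.mul_mem hx hy, map_mul pl.ev ⟨x, hx⟩ ⟨y, hy⟩⟩

theorem Val.neg {x : F} {u : L} (hx : pl.Val x u) : pl.Val (-x) (-u) := by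
  obtain ⟨hx, rfl⟩ := hx
  exact ⟨pl.O.neg_mem hx, map_neg pl.ev ⟨x, hx⟩⟩

theorem Val.sub {x y : F} {u v : L} (hx : pl.Val x u) (hy : pl.Val y v) :
    pl.Val (x - y) (u - v) := by
  rw [sub_eq_add_neg, sub_eq_add_neg]; exact hx.add hy.neg

theorem Val.pow {x : F} {u : L} (hx : pl.Val x u) (n : ℕ) : pl.Val (x ^ n) (u ^ n) := by
  obtain ⟨hx, rfl⟩ := hx
  exact ⟨pl.O.pow_mem hx n, map_pow pl.ev ⟨x, hx⟩ n⟩

theorem val_one : pl.Val 1 1 := ⟨pl.O.one_mem, map_one pl.ev⟩

theorem val_zero : pl.Val 0 0 := ⟨pl.O.zero_mem, map_zero pl.ev⟩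

theorem val_natCast (n : ℕ) : pl.Val (n : F) (n : L) := by
  refine ⟨natCast_mem pl.O n, ?_⟩
  rw [show (⟨(n : F), natCast_mem pl.O n⟩ : pl.O) = (n : pl.O) from rfl, map_natCast]

theorem val_ofNat (n : ℕ) [n.AtLeastTwo] : pl.Val (OfNat.ofNat n : F) (OfNat.ofNat n : L) :=
  val_natCast n

theorem Val.unique {x : F} {u v : L} (hx : pl.Val x u) (hy : pl.Val x v) : u = v := by
  obtain ⟨_, rfl⟩ := hx; obtain ⟨_, rfl⟩ := hy; rfl

theorem Val.mem {x : F} {u : L} (hx : pl.Val x u) : x ∈ pl.O := hx.1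

theorem val_of_mem {x : F} (h : x ∈ pl.O) : ∃ u, pl.Val x u := ⟨_, h, rfl⟩

theorem val_inv_of_notMem {x : F} (h : x ∉ pl.O) : pl.Val x⁻¹ 0 := pl.large x h

theorem ne_zero_of_notMem {x : F} (h : x ∉ pl.O) : x ≠ 0 := fun h0 => h (h0 ▸ pl.O.zero_mem)

theorem Val.ne_zero {x : F} {u : L} (hx : pl.Val x u) (hu : u ≠ 0) : x ≠ 0 :=
  fun h => hu (hx.unique (h ▸ val_zero))

theorem Val.inv {x : F} {u : L} (hx : pl.Val x u) (hu : u ≠ 0) : pl.Val x⁻¹ u⁻¹ := by
  have hne := hx.ne_zero hu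
  rcases em (x⁻¹ ∈ pl.O) with h | h
  · obtain ⟨v, hv⟩ := val_of_mem h
    have h1 := hx.mul hv
    rw [mul_inv_cancel₀ hne] at h1
    rwa [← eq_inv_of_mul_eq_one_right (val_one.unique h1).symm]
  · have := val_inv_of_notMem h
    rw [inv_inv] at this
    exact absurd (hx.unique this) hu

theorem Val.div {x y : F} {u v : L} (hx : pl.Val x u) (hy : pl.Val y v) (hv : v ≠ 0) :
    pl.Val (x / y) (u / v) := by
  rw [div_eq_mul_inv, div_eq_mul_inv]; exact hx.mul (hy.inv hv)

/-- A unit divided by something reducing to zero is not integral. -/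
theorem div_notMem {x y : F} {u : L} (hx : pl.Val x u) (hy : pl.Val y 0) (hu : u ≠ 0)
    (hy0 : y ≠ 0) : x / y ∉ pl.O := by
  intro h
  obtain ⟨w, hw⟩ := val_of_mem h
  have := hw.mul hy
  rw [div_mul_cancel₀ x hy0, mul_zero] at this
  exact hu (hx.unique this)

theorem mem_of_sq_mem {y : F} (h : y ^ 2 ∈ pl.O) : y ∈ pl.O := by
  by_contra hy
  obtain ⟨v, hv⟩ := val_of_mem h
  have := ((val_inv_of_notMem hy).pow 2).mul hv
  rw [inv_pow, inv_mul_cancel₀ (pow_ne_zero 2 (ne_zero_of_notMem hy)), zero_pow two_ne_zero,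
    zero_mul] at this
  exact one_ne_zero (val_one.unique this)

theorem mem_of_sq_val {y : F} {u : L} (h : pl.Val (y ^ 2) u) : y ∈ pl.O := mem_of_sq_mem h.mem

end PlaceData

open PlaceData

variable {F L : Type*} [Field F] [Field L] {A B : F} {α β : L}

/-- Good reduction data for `y² = x³ + A x + B`. -/
structure GoodPlace (pl : PlaceData F L) (A B : F) (α β : L) : Prop where
  valA : pl.Val A α
  valB : pl.Val B β
  two_ne : (2 : L) ≠ 0
  disc_ne : 4 * α ^ 3 + 27 * β ^ 2 ≠ 0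

variable {pl : PlaceData F L} (g : GoodPlace pl A B α β)

include g

theorem GoodPlace.val_y {x y : F} {u : L} (h : (short A B).Equation x y) (hx : pl.Val x u) :
    ∃ v, pl.Val y v ∧ v ^ 2 = u ^ 3 + α * u + β := by
  rw [short_equation] at h
  have hy2 : pl.Val (y ^ 2) (u ^ 3 + α * u + β) := by
    rw [h]; exact ((hx.pow 3).add (g.valA.mul hx)).add g.valB
  obtain ⟨v, hv⟩ := val_of_mem (mem_of_sq_val hy2)
  exact ⟨v, hv, (hv.pow 2).unique hy2⟩

open scoped Classical in
/-- Specialisation of points. -/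
def GoodPlace.sp : (short A B).Point → (short α β).Point
  | .zero => 0
  | .some x y h =>
    if hx : x ∈ pl.O then
      .some (pl.ev ⟨x, hx⟩)
        (pl.ev ⟨y, (g.val_y h.left (u := pl.ev ⟨x, hx⟩) ⟨hx, rfl⟩).choose_spec.1.mem⟩)
        (by
          obtain ⟨hv, he⟩ := (g.val_y h.left (u := pl.ev ⟨x, hx⟩) ⟨hx, rfl⟩).choose_spec
          classical
          rw [short_nonsingular_iff g.two_ne g.disc_ne]
          obtain ⟨hy, hev⟩ := hv
          rw [hev]; exact he)
    else 0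

theorem GoodPlace.sp_zero : g.sp 0 = 0 := rfl

theorem GoodPlace.sp_of_notMem {x y : F} (h : (short A B).Nonsingular x y) (hx : x ∉ pl.O) :
    g.sp (.some x y h) = 0 := by
  simp only [GoodPlace.sp]; rw [dif_neg hx]

theorem GoodPlace.sp_some {x y : F} (h : (short A B).Nonsingular x y) {u v : L} (hx : pl.Val x u)
    (hy : pl.Val y v) :
    ∃ h', g.sp (.some x y h) = .some u v h' := by
  classical
  have hn : (short α β).Nonsingular u v := by
    obtain ⟨v', hv', he⟩ := g.val_y h.left hx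
    rw [short_nonsingular_iff g.two_ne g.disc_ne, hy.unique hv']; exact he
  refine ⟨hn, ?_⟩
  obtain ⟨hx, rfl⟩ := hx
  obtain ⟨hy, rfl⟩ := hy
  simp only [GoodPlace.sp]; rw [dif_pos hx]

theorem GoodPlace.sp_eq_zero_iff {x y : F} (h : (short A B).Nonsingular x y) :
    g.sp (.some x y h) = 0 ↔ x ∉ pl.O := by
  refine ⟨fun h0 hx => ?_, g.sp_of_notMem h⟩
  obtain ⟨u, hu⟩ := val_of_mem hx
  obtain ⟨v, hv, -⟩ := g.val_y h.left hu
  obtain ⟨h', he⟩ := g.sp_some h hu hv
  exact Affine.Point.some_ne_zero h' (he ▸ h0)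

theorem GoodPlace.sp_neg (P : (short A B).Point) : g.sp (-P) = -g.sp P := by
  cases P with
  | zero => rfl
  | some x y h =>
    rw [Affine.Point.neg_some]
    by_cases hx : x ∈ pl.O
    · obtain ⟨u, hu⟩ := val_of_mem hx
      obtain ⟨v, hv, -⟩ := g.val_y h.left hu
      obtain ⟨_, he⟩ := g.sp_some h hu hv
      have hny : pl.Val ((short A B).negY x y) (-v) := by rw [short_negY]; exact hv.neg
      obtain ⟨_, he'⟩ := g.sp_some ((Affine.nonsingular_neg ..).2 h) hu hny
      rw [he, he', Affine.Point.neg_some]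
      exact some_eq_some' (short_negY α β u v).symm
    · rw [g.sp_of_notMem h hx, g.sp_of_notMem _ hx]; rfl
where
  some_eq_some' {u v v' : L} (hv : v = v') {h₁ : (short α β).Nonsingular u v}
      {h₂ : (short α β).Nonsingular u v'} :
      Affine.Point.some u v h₁ = Affine.Point.some u v' h₂ := by subst hv; rfl

variable [DecidableEq F] [DecidableEq L]

/-- Additivity for two integral points. -/
theorem GoodPlace.sp_add_int {x₁ y₁ x₂ y₂ : F} (h₁ : (short A B).Nonsingular x₁ y₁)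
    (h₂ : (short A B).Nonsingular x₂ y₂) (hi₁ : x₁ ∈ pl.O) (hi₂ : x₂ ∈ pl.O) :
    g.sp (.some x₁ y₁ h₁ + .some x₂ y₂ h₂) = g.sp (.some x₁ y₁ h₁) + g.sp (.some x₂ y₂ h₂) := by
  obtain ⟨u₁, hu₁⟩ := val_of_mem hi₁
  obtain ⟨u₂, hu₂⟩ := val_of_mem hi₂
  obtain ⟨v₁, hv₁, he₁⟩ := g.val_y h₁.left hu₁
  obtain ⟨v₂, hv₂, he₂⟩ := g.val_y h₂.left hu₂
  obtain ⟨n₁, s₁⟩ := g.sp_some h₁ hu₁ hv₁
  obtain ⟨n₂, s₂⟩ := g.sp_some h₂ hu₂ hv₂
  rw [s₁, s₂]
  by_cases hneg : x₁ = x₂ ∧ y₁ = (short A B).negY x₂ y₂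
  · rw [Affine.Point.add_of_Y_eq hneg.1 hneg.2, g.sp_zero, Affine.Point.add_of_Y_eq]
    · exact hu₁.unique (hneg.1 ▸ hu₂)
    · rw [short_negY]
      refine hv₁.unique ?_
      rw [hneg.2, short_negY]
      exact hv₂.neg
  · rw [Affine.Point.add_some hneg]
    have e₁ := (short_equation _ _ _ _).1 h₁.left
    have e₂ := (short_equation _ _ _ _).1 h₂.left
    -- the two expressions for the slope
    have slope_alt : y₁ + y₂ ≠ 0 →
        (short A B).slope x₁ x₂ y₁ y₂ = (x₁ ^ 2 + x₁ * x₂ + x₂ ^ 2 + A) / (y₁ + y₂) := by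
      intro hs
      by_cases hx : x₁ = x₂
      · have hy : y₁ ≠ (short A B).negY x₂ y₂ := fun hy => hneg ⟨hx, hy⟩
        have hyy : y₁ = y₂ := Affine.Y_eq_of_Y_ne h₁.left h₂.left hx hy
        rw [Affine.slope_of_Y_ne hx hy]
        subst hx hyy
        simp only [short_negY, sub_neg_eq_add]
        rw [div_eq_div_iff hs hs]
        ring
      · rw [Affine.slope_of_X_ne hx, div_eq_div_iff (sub_ne_zero.2 hx) hs]
        linear_combination e₁ - e₂
    have finish : ∀ l : F, ∀ m : L, pl.Val l m → (short A B).slope x₁ x₂ y₁ y₂ = l →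
        (short α β).slope u₁ u₂ v₁ v₂ = m → ¬(u₁ = u₂ ∧ v₁ = (short α β).negY u₂ v₂) →
        g.sp (.some _ _ (Affine.nonsingular_add h₁ h₂ hneg)) =
          Affine.Point.some u₁ v₁ n₁ + Affine.Point.some u₂ v₂ n₂ := by
      intro l m hl hl' hm hneg'
      rw [Affine.Point.add_some hneg']
      have hX : pl.Val ((short A B).addX x₁ x₂ ((short A B).slope x₁ x₂ y₁ y₂))
          ((short α β).addX u₁ u₂ ((short α β).slope u₁ u₂ v₁ v₂)) := by
        rw [hl', hm, short_addX, short_addX]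
        exact ((hl.pow 2).sub hu₁).sub hu₂
      have hY : pl.Val ((short A B).addY x₁ x₂ y₁ ((short A B).slope x₁ x₂ y₁ y₂))
          ((short α β).addY u₁ u₂ v₁ ((short α β).slope u₁ u₂ v₁ v₂)) := by
        rw [hl', hm, short_addY, short_addY]
        exact ((hl.mul ((((hl.pow 2).sub hu₁).sub hu₂).sub hu₁)).add hv₁).neg
      obtain ⟨_, he⟩ := g.sp_some _ hX hY
      exact he
    by_cases hu : u₁ = u₂
    · by_cases hv : v₁ + v₂ = 0
      · rw [Affine.Point.add_of_Y_eq hu (by rw [short_negY]; linear_combination hv)]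
        apply g.sp_of_notMem
        have hl : (short A B).slope x₁ x₂ y₁ y₂ ∉ pl.O := by
          by_cases hv0 : v₁ = 0
          · -- numerator is a unit
            have hw : 3 * u₁ ^ 2 + α ≠ 0 := by
              intro h0
              apply g.disc_ne
              rw [hv0] at he₁
              linear_combination (-27 * u₁ ^ 3 - 27 * α * u₁ + 27 * β) * he₁.symm +
                (4 * α ^ 2 + 15 * α * u₁ ^ 2 + 9 * u₁ ^ 4) * h0
            have hN : pl.Val (x₁ ^ 2 + x₁ * x₂ + x₂ ^ 2 + A) (3 * u₁ ^ 2 + α) := by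
              have := (((hu₁.pow 2).add (hu₁.mul hu₂)).add (hu₂.pow 2)).add g.valA
              rwa [show u₁ ^ 2 + u₁ * u₂ + u₂ ^ 2 + α = 3 * u₁ ^ 2 + α by subst hu; ring] at this
            have hs : y₁ + y₂ ≠ 0 := by
              intro hs
              by_cases hx : x₁ = x₂
              · exact hneg ⟨hx, by rw [short_negY]; linear_combination hs⟩
              · have : (x₁ - x₂) * (x₁ ^ 2 + x₁ * x₂ + x₂ ^ 2 + A) = 0 := by
                  linear_combination (y₁ - y₂) * hs - e₁ + e₂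
                exact hN.ne_zero hw ((mul_eq_zero.1 this).resolve_left (sub_ne_zero.2 hx))
            rw [slope_alt hs]
            have h0 := hv₁.add hv₂
            rw [hv] at h0
            exact div_notMem hN h0 hw hs
          · have hx : x₁ ≠ x₂ := by
              intro hx
              have hy : y₁ ≠ (short A B).negY x₂ y₂ := fun hy => hneg ⟨hx, hy⟩
              have hyy : y₁ = y₂ := Affine.Y_eq_of_Y_ne h₁.left h₂.left hx hy
              have hvv : v₁ = v₂ := hv₁.unique (hyy ▸ hv₂)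
              subst hvv
              exact hv0 (by simpa [← two_mul, g.two_ne] using hv)
            rw [Affine.slope_of_X_ne hx]
            have h0 := hu₁.sub hu₂
            rw [sub_eq_zero.2 hu] at h0
            refine div_notMem (hv₁.sub hv₂) h0 ?_ (sub_ne_zero.2 hx)
            intro h2
            exact hv0 (by
              have : (2 : L) * v₁ = 0 := by linear_combination h2 + hv
              simpa [g.two_ne] using this)
        intro hX
        rw [short_addX] at hX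
        apply hl
        apply mem_of_sq_mem
        have := pl.O.add_mem (pl.O.add_mem hX hi₂) hi₁
        rwa [show (short A B).slope x₁ x₂ y₁ y₂ ^ 2 - x₁ - x₂ + x₂ + x₁ =
          (short A B).slope x₁ x₂ y₁ y₂ ^ 2 by ring] at this
      · have hs : y₁ + y₂ ≠ 0 := (hv₁.add hv₂).ne_zero hv
        refine finish _ ((u₁ ^ 2 + u₁ * u₂ + u₂ ^ 2 + α) / (v₁ + v₂)) ?_ (slope_alt hs) ?_ (fun h => hv (by
          have := h.2; rw [short_negY] at this; linear_combination this))
        · exact ((((hu₁.pow 2).add (hu₁.mul hu₂)).add (hu₂.pow 2)).add g.valA).div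
            (hv₁.add hv₂) hv
        · have hy' : v₁ ≠ (short α β).negY u₂ v₂ := fun h => hv (by
            rw [short_negY] at h; linear_combination h)
          have hvv : v₁ = v₂ := Affine.Y_eq_of_Y_ne n₁.left n₂.left hu hy'
          rw [Affine.slope_of_Y_ne hu hy']
          subst hu hvv
          simp only [short_negY, sub_neg_eq_add]
          rw [div_eq_div_iff hv hv]
          ring
    · have hx : x₁ ≠ x₂ := fun h => hu (hu₁.unique (h ▸ hu₂))
      refine finish _ _ ((hv₁.sub hv₂).div (hu₁.sub hu₂) (sub_ne_zero.2 hu))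
        (Affine.slope_of_X_ne hx) (Affine.slope_of_X_ne hu) (fun h => hu h.1)

/-- An integral point plus a point reducing to `0` is integral. -/
theorem GoodPlace.add_mixed {x₁ y₁ x₂ y₂ : F} (h₁ : (short A B).Nonsingular x₁ y₁)
    (h₂ : (short A B).Nonsingular x₂ y₂) (hi₁ : x₁ ∈ pl.O) (hi₂ : x₂ ∉ pl.O) :
    ∃ x y, ∃ h : (short A B).Nonsingular x y,
      Affine.Point.some x₁ y₁ h₁ + Affine.Point.some x₂ y₂ h₂ = .some x y h ∧ x ∈ pl.O := by
  have hx : x₁ ≠ x₂ := fun h => hi₂ (h ▸ hi₁)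
  refine ⟨_, _, _, Affine.Point.add_of_X_ne hx, ?_⟩
  have e₁ := (short_equation _ _ _ _).1 h₁.left
  have e₂ := (short_equation _ _ _ _).1 h₂.left
  obtain ⟨u, hu⟩ := val_of_mem hi₁
  obtain ⟨v, hv, -⟩ := g.val_y h₁.left hu
  have hw := val_inv_of_notMem hi₂
  have hx2 := ne_zero_of_notMem hi₂
  have hr2 : pl.Val ((y₂ * (x₂⁻¹) ^ 2) ^ 2) ((1 + α * 0 ^ 2 + β * 0 ^ 3) * 0) := by
    rw [show (y₂ * (x₂⁻¹) ^ 2) ^ 2 = (1 + A * (x₂⁻¹) ^ 2 + B * (x₂⁻¹) ^ 3) * x₂⁻¹ by
      rw [mul_pow, e₂]; field_simp]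
    exact ((val_one.add (g.valA.mul (hw.pow 2))).add (g.valB.mul (hw.pow 3))).mul hw
  obtain ⟨r, hr⟩ := val_of_mem (mem_of_sq_val hr2)
  rw [Affine.slope_of_X_ne hx, short_addX]
  rw [show ((y₁ - y₂) / (x₁ - x₂)) ^ 2 - x₁ - x₂ =
      ((x₁ + A * x₂⁻¹) * (x₁ * x₂⁻¹ + 1) + 2 * (B * (x₂⁻¹) ^ 2) - 2 * (y₁ * (y₂ * (x₂⁻¹) ^ 2))) /
        (1 - x₁ * x₂⁻¹) ^ 2 by
    have hd : x₁ - x₂ ≠ 0 := sub_ne_zero.2 hx
    have hd' : x₂ - x₁ ≠ 0 := sub_ne_zero.2 (Ne.symm hx)
    field_simp
    linear_combination (x₂ - x₁) ^ 2 * (e₁ + e₂)]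
  exact ((((hu.add (g.valA.mul hw)).mul ((hu.mul hw).add val_one)).add
    ((val_ofNat 2).mul (g.valB.mul (hw.pow 2)))).sub ((val_ofNat 2).mul (hv.mul hr))).div
    ((val_one.sub (hu.mul hw)).pow 2) (by simp) |>.mem

/-- Specialisation is additive. -/
theorem GoodPlace.sp_add (P Q : (short A B).Point) : g.sp (P + Q) = g.sp P + g.sp Q := by
  have mixed : ∀ {x₁ y₁ x₂ y₂ : F} (h₁ : (short A B).Nonsingular x₁ y₁)
      (h₂ : (short A B).Nonsingular x₂ y₂), x₁ ∈ pl.O → x₂ ∉ pl.O →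
      g.sp (.some x₁ y₁ h₁ + .some x₂ y₂ h₂) = g.sp (.some x₁ y₁ h₁) := by
    intro x₁ y₁ x₂ y₂ h₁ h₂ hi₁ hi₂
    obtain ⟨x, y, h, he, hm⟩ := g.add_mixed h₁ h₂ hi₁ hi₂
    have h2 : Affine.Point.some x y h + -Affine.Point.some x₁ y₁ h₁ =
        Affine.Point.some x₂ y₂ h₂ := by rw [← he]; abel
    have h3 := congrArg g.sp h2
    rw [Affine.Point.neg_some, g.sp_add_int h _ hm hi₁, g.sp_of_notMem h₂ hi₂,
      ← Affine.Point.neg_some h₁, g.sp_neg] at h3
    rw [he]
    exact add_neg_eq_zero.1 h3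
  cases P with
  | zero => simp [← Affine.Point.zero_def, g.sp_zero]
  | some x₁ y₁ h₁ =>
    cases Q with
    | zero => simp [← Affine.Point.zero_def, g.sp_zero]
    | some x₂ y₂ h₂ =>
      by_cases hi₁ : x₁ ∈ pl.O
      · by_cases hi₂ : x₂ ∈ pl.O
        · exact g.sp_add_int h₁ h₂ hi₁ hi₂
        · rw [mixed h₁ h₂ hi₁ hi₂, g.sp_of_notMem h₂ hi₂, add_zero]
      · by_cases hi₂ : x₂ ∈ pl.O
        · rw [add_comm, mixed h₂ h₁ hi₂ hi₁, g.sp_of_notMem h₁ hi₁, zero_add]
        · rw [g.sp_of_notMem h₁ hi₁, g.sp_of_notMem h₂ hi₂, add_zero]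
          cases hR : Affine.Point.some x₁ y₁ h₁ + Affine.Point.some x₂ y₂ h₂ with
          | zero => rfl
          | some x y h =>
            rw [g.sp_eq_zero_iff]
            intro hm
            have hsub : Affine.Point.some x y h + -Affine.Point.some x₁ y₁ h₁ =
                Affine.Point.some x₂ y₂ h₂ := by rw [← hR]; abel
            have h4 := congrArg g.sp hsub
            rw [Affine.Point.neg_some, mixed h _ hm hi₁, g.sp_of_notMem h₂ hi₂,
              g.sp_eq_zero_iff] at h4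
            exact h4 hm

/-- The specialisation homomorphism. -/
def GoodPlace.spHom : (short A B).Point →+ (short α β).Point :=
  AddMonoidHom.mk' g.sp g.sp_add

/-- Doubling a point which specialises to zero divides the abscissa by `4`. -/
theorem GoodPlace.double_notMem {x y : F} (h : (short A B).Nonsingular x y) (hx : x ∉ pl.O) :
    ∃ x' y', ∃ h' : (short A B).Nonsingular x' y',
      Affine.Point.some x y h + Affine.Point.some x y h = .some x' y' h' ∧
        x' ∉ pl.O ∧ pl.Val (x' / x) (1 / 4) := by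
  have e := (short_equation _ _ _ _).1 h.left
  have hx0 := ne_zero_of_notMem hx
  have hw := val_inv_of_notMem hx
  have h4 : (4 : L) ≠ 0 := by
    rw [show (4 : L) = 2 * 2 by norm_num]; exact mul_ne_zero g.two_ne g.two_ne
  have hden : pl.Val (4 * (1 + A * (x⁻¹) ^ 2 + B * (x⁻¹) ^ 3))
      (4 * (1 + α * 0 ^ 2 + β * 0 ^ 3)) :=
    (val_ofNat 4).mul ((val_one.add (g.valA.mul (hw.pow 2))).add (g.valB.mul (hw.pow 3)))
  have hden0 := hden.ne_zero (by simpa using h4)
  have hy : y ≠ 0 := by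
    intro hy
    apply hden0
    rw [show 4 * (1 + A * (x⁻¹) ^ 2 + B * (x⁻¹) ^ 3) = 4 * (x⁻¹) ^ 3 * (x ^ 3 + A * x + B) by
      field_simp, ← e, hy]
    ring
  have h2F : (2 : F) ≠ 0 := (val_ofNat (pl := pl) 2).ne_zero g.two_ne
  have hne : y ≠ (short A B).negY x y := by
    rw [short_negY]
    intro hh
    exact hy (by have : 2 * y = 0 := by linear_combination hh
                 simpa [h2F] using this)
  refine ⟨_, _, _, Affine.Point.add_of_Y_ne hne, ?_⟩
  have h4F : (4 : F) ≠ 0 := (val_ofNat (pl := pl) 4).ne_zero h4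
  have key : ((short A B).addX x x ((short A B).slope x x y y)) / x =
      (1 - 2 * (A * (x⁻¹) ^ 2) - 8 * (B * (x⁻¹) ^ 3) + (A * (x⁻¹) ^ 2) ^ 2) /
        (4 * (1 + A * (x⁻¹) ^ 2 + B * (x⁻¹) ^ 3)) := by
    rw [short_addX, Affine.slope_of_Y_ne rfl hne, short_negY, sub_neg_eq_add, ← two_mul]
    have he : (2 * y) ^ 2 = 4 * (x ^ 3 + A * x + B) := by rw [← e]; ring
    simp only [div_pow, he]
    have hs0 : x ^ 3 + A * x + B ≠ 0 := by rw [← e]; exact pow_ne_zero 2 hy
    have h4s : 4 * (x ^ 3 + A * x + B) ≠ 0 := mul_ne_zero h4F hs0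
    have hN : ∀ c, c / (4 * (x ^ 3 + A * x + B)) - x - x =
        (c - 8 * x * (x ^ 3 + A * x + B)) / (4 * (x ^ 3 + A * x + B)) := fun c => by
      rw [eq_div_iff h4s, sub_mul, sub_mul, div_mul_cancel₀ _ h4s]; ring
    rw [hN, div_div, div_eq_div_iff (mul_ne_zero h4s hx0) hden0]
    field_simp
    ring
  have hval : pl.Val (((short A B).addX x x ((short A B).slope x x y y)) / x) (1 / 4) := by
    rw [key]
    have hnum := (((val_one (pl := pl)).sub ((val_ofNat 2).mul (g.valA.mul (hw.pow 2)))).sub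
      ((val_ofNat 8).mul (g.valB.mul (hw.pow 3)))).add ((g.valA.mul (hw.pow 2)).pow 2)
    simpa using hnum.div hden (by simpa using h4)
  refine ⟨fun hm => ?_, hval⟩
  obtain ⟨v, hv⟩ := val_of_mem hm
  have := hv.mul hw
  rw [← div_eq_mul_inv, mul_zero] at this
  exact one_div_ne_zero h4 (hval.unique this)

/-- No point of order `5` specialises to zero. -/
theorem GoodPlace.eq_zero_of_five {P : (short A B).Point} (h3 : (3 : L) ≠ 0) (h5 : (5 : L) ≠ 0)
    (h : (5 : ℕ) • P = 0) (hs : g.sp P = 0) : P = 0 := by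
  cases P with
  | zero => rfl
  | some x y hP =>
    exfalso
    have hx := (g.sp_eq_zero_iff hP).1 hs
    obtain ⟨x', y', h', e', hx', v'⟩ := g.double_notMem hP hx
    obtain ⟨x'', y'', h'', e'', hx'', v''⟩ := g.double_notMem h' hx'
    have h4P : Affine.Point.some x'' y'' h'' = -Affine.Point.some x y hP := by
      rw [← e'', ← e', eq_neg_iff_add_eq_zero, ← h]
      abel
    rw [Affine.Point.neg_some, Affine.Point.some.injEq] at h4P
    have := v''.mul v'
    rw [h4P.1, div_mul_div_cancel₀ (ne_zero_of_notMem hx'), div_self (ne_zero_of_notMem hx)] at this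
    have h1 := val_one.unique this
    have h4 : (4 : L) ≠ 0 := by
      rw [show (4 : L) = 2 * 2 by norm_num]; exact mul_ne_zero g.two_ne g.two_ne
    field_simp at h1
    exact mul_ne_zero h3 h5 (by linear_combination h1)

/-- No point of order `3` specialises to zero. -/
theorem GoodPlace.eq_zero_of_three {P : (short A B).Point} (h3 : (3 : L) ≠ 0)
    (h : (3 : ℕ) • P = 0) (hs : g.sp P = 0) : P = 0 := by
  cases P with
  | zero => rfl
  | some x y hP =>
    exfalso
    have hx := (g.sp_eq_zero_iff hP).1 hs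
    obtain ⟨x', y', h', e', hx', v'⟩ := g.double_notMem hP hx
    have h2P : Affine.Point.some x' y' h' = -Affine.Point.some x y hP := by
      rw [← e', eq_neg_iff_add_eq_zero, ← h]
      abel
    rw [Affine.Point.neg_some, Affine.Point.some.injEq] at h2P
    rw [h2P.1, div_self (ne_zero_of_notMem hx)] at v'
    have h1 := val_one.unique v'
    have h4 : (4 : L) ≠ 0 := by
      rw [show (4 : L) = 2 * 2 by norm_num]; exact mul_ne_zero g.two_ne g.two_ne
    field_simp at h1
    exact h3 (by linear_combination h1)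

end

end FLTAgent.Switch
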